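import Mathlib

/-!
# S53, part T6b: minimal levels of a family of ideals with finite tangent space
-/

set_option autoImplicit false

namespace Fermat.Agent.S53.LevelMin

open IsLocalRing

section DualHom

variable {k : Type*} [Field k] {C : Type*} [CommRing C] [Algebra k C]

theorem dual_key (aug : C →ₐ[k] k) (hsq : ∀ x y : C, aug x = 0 → aug y = 0 → x * y = 0)
    (l : C →ₗ[k] k) (hl : l 1 = 0) (x y : C) :
    l (x * y) = aug x * l y + aug y * l x := by
  have hx : aug (x - algebraMap k C (aug x)) = 0 := by simp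
  have hy : aug (y - algebraMap k C (aug y)) = 0 := by simp
  have h := hsq _ _ hx hy
  have h2 : x * y = aug x • y + aug y • x - (aug x * aug y) • (1 : C) := by
    have : (x - algebraMap k C (aug x)) * (y - algebraMap k C (aug y)) =
        x * y - (aug x • y + aug y • x - (aug x * aug y) • (1 : C)) := by
      simp only [Algebra.smul_def, map_mul]
      ring
    rw [this] at h
    exact sub_eq_zero.mp h
  rw [h2]
  simp [hl]

theorem exists_dualHom (aug : C →ₐ[k] k) (hsq : ∀ x y : C, aug x = 0 → aug y = 0 → x * y = 0)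
    (l : C →ₗ[k] k) (hl : l 1 = 0) :
    ∃ f : C →+* DualNumber k, ∀ x, f x = TrivSqZeroExt.inl (aug x) + TrivSqZeroExt.inr (l x) := by
  refine ⟨{ toFun := fun x => TrivSqZeroExt.inl (aug x) + TrivSqZeroExt.inr (l x)
            map_one' := ?_, map_mul' := ?_, map_zero' := ?_, map_add' := ?_ }, fun x => rfl⟩
  · simp [hl]
  · intro x y
    apply TrivSqZeroExt.ext
    · simp
    · simp [dual_key aug hsq l hl x y, mul_comm]
  · simp
  · intro x y
    apply TrivSqZeroExt.ext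
    · simp
    · simp

end DualHom

section Tangent

variable {𝒪 : Type} [CommRing 𝒪] [IsLocalRing 𝒪] {B : Type} [CommRing B] [Algebra 𝒪 B]

theorem aug_algebraMap (aug : B →ₐ[𝒪] ResidueField 𝒪) (c : 𝒪) :
    aug (algebraMap 𝒪 B c) = residue 𝒪 c := by
  rw [AlgHom.commutes]; rfl

theorem exists_sub_mem_ker (aug : B →ₐ[𝒪] ResidueField 𝒪) (b : B) :
    ∃ c : 𝒪, b - algebraMap 𝒪 B c ∈ RingHom.ker aug := by
  obtain ⟨c, hc⟩ := residue_surjective (aug b)
  refine ⟨c, ?_⟩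
  rw [RingHom.mem_ker, map_sub, aug_algebraMap, hc, sub_self]

theorem exists_tangent_hom (aug : B →ₐ[𝒪] ResidueField 𝒪) (J : Ideal B)
    (hJ : J ≤ RingHom.ker aug) (hsq : (RingHom.ker aug) ^ 2 ≤ J)
    (hm : ∀ c ∈ maximalIdeal 𝒪, algebraMap 𝒪 B c ∈ J) (b : B) (hb : b ∈ RingHom.ker aug)
    (hbJ : b ∉ J) :
    ∃ f : B →+* DualNumber (ResidueField 𝒪),
      (∀ c, f (algebraMap 𝒪 B c) = TrivSqZeroExt.inl (residue 𝒪 c)) ∧
      J ≤ RingHom.ker f ∧ f b ≠ 0 := by
  -- the `k`-algebra structure on `B ⧸ J`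
  let ι : ResidueField 𝒪 →+* B ⧸ J :=
    Ideal.Quotient.lift (maximalIdeal 𝒪) ((Ideal.Quotient.mk J).comp (algebraMap 𝒪 B))
      (fun c hc => by
        rw [RingHom.comp_apply]
        exact Ideal.Quotient.eq_zero_iff_mem.mpr (hm c hc))
  have hι : ∀ c : 𝒪, ι (residue 𝒪 c) = Ideal.Quotient.mk J (algebraMap 𝒪 B c) := fun c => rfl
  let _ : Algebra (ResidueField 𝒪) (B ⧸ J) := ι.toAlgebra
  let aug0 : B ⧸ J →+* ResidueField 𝒪 :=
    Ideal.Quotient.lift J (aug : B →+* ResidueField 𝒪) (fun x hx => hJ hx)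
  have haug0 : ∀ x : B, aug0 (Ideal.Quotient.mk J x) = aug x := fun x => rfl
  let augC : B ⧸ J →ₐ[ResidueField 𝒪] ResidueField 𝒪 :=
    { aug0 with
      commutes' := by
        intro r
        obtain ⟨c, rfl⟩ := residue_surjective r
        show aug0 (ι (residue 𝒪 c)) = _
        rw [hι, haug0, aug_algebraMap]
        rfl }
  have haugC : ∀ x : B, augC (Ideal.Quotient.mk J x) = aug x := fun x => rfl
  have hsqC : ∀ x y : B ⧸ J, augC x = 0 → augC y = 0 → x * y = 0 := by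
    intro x y hx hy
    obtain ⟨x, rfl⟩ := Ideal.Quotient.mk_surjective x
    obtain ⟨y, rfl⟩ := Ideal.Quotient.mk_surjective y
    rw [haugC] at hx hy
    rw [← map_mul, Ideal.Quotient.eq_zero_iff_mem]
    apply hsq
    rw [pow_two]
    exact Ideal.mul_mem_mul hx hy
  -- `b` is not in the line spanned by `1`
  have hnot : Ideal.Quotient.mk J b ∉ Submodule.span (ResidueField 𝒪) {(1 : B ⧸ J)} := by
    intro hmem
    obtain ⟨r, hr⟩ := Submodule.mem_span_singleton.mp hmem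
    obtain ⟨c, rfl⟩ := residue_surjective r
    have h1 : residue 𝒪 c • (1 : B ⧸ J) = Ideal.Quotient.mk J (algebraMap 𝒪 B c) := by
      rw [Algebra.smul_def, mul_one]; rfl
    rw [h1] at hr
    have h2 : aug (algebraMap 𝒪 B c) = aug b := by
      rw [← haugC, ← haugC, hr]
    rw [aug_algebraMap, (RingHom.mem_ker).mp hb, residue_eq_zero_iff] at h2
    have h3 := hm c h2
    rw [← Ideal.Quotient.eq_zero_iff_mem] at h3
    rw [h3] at hr
    exact hbJ (Ideal.Quotient.eq_zero_iff_mem.mp hr.symm)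
  obtain ⟨l, hlb, hl⟩ := Submodule.exists_le_ker_of_notMem hnot
  have hl1 : l 1 = 0 := hl (Submodule.mem_span_singleton_self _)
  obtain ⟨f, hf⟩ := exists_dualHom augC hsqC l hl1
  refine ⟨f.comp (Ideal.Quotient.mk J), ?_, ?_, ?_⟩
  · intro c
    rw [RingHom.comp_apply, hf, haugC, aug_algebraMap]
    have : l (Ideal.Quotient.mk J (algebraMap 𝒪 B c)) = 0 := by
      have h1 : residue 𝒪 c • (1 : B ⧸ J) = Ideal.Quotient.mk J (algebraMap 𝒪 B c) := by
        rw [Algebra.smul_def, mul_one]; rfl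
      rw [← h1, map_smul, hl1, smul_zero]
    rw [this]; simp
  · intro x hx
    rw [RingHom.mem_ker, RingHom.comp_apply, Ideal.Quotient.eq_zero_iff_mem.mpr hx, map_zero]
  · rw [RingHom.comp_apply, hf]
    intro h0
    apply hlb
    have := congrArg TrivSqZeroExt.snd h0
    simpa using this

end Tangent

section Family

variable {𝒪 : Type} [CommRing 𝒪] [IsLocalRing 𝒪] {B : Type} [CommRing B] [Algebra 𝒪 B]

/-- A family `KK` of ideals of an augmented `𝒪`-algebra `B` (think: kernels of the points of a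
rigid deformation problem over Artinian test algebras). -/
structure IsLevelFamily (aug : B →ₐ[𝒪] ResidueField 𝒪) (KK : Set (Ideal B)) : Prop where
  le_ker : ∀ J ∈ KK, J ≤ RingHom.ker aug
  pow_le : ∀ J ∈ KK, ∃ n : ℕ, (RingHom.ker aug) ^ n ≤ J
  inf_mem : ∀ J ∈ KK, ∀ J' ∈ KK, J ⊓ J' ∈ KK
  up_mem : ∀ J ∈ KK, ∀ J' : Ideal B, J ≤ J' → J' ≤ RingHom.ker aug → J' ∈ KK
  ker_mem : RingHom.ker aug ∈ KK
  tan : Set.Finite {f : B →+* DualNumber (ResidueField 𝒪) |
    (∀ c : 𝒪, f (algebraMap 𝒪 B c) = TrivSqZeroExt.inl (IsLocalRing.residue 𝒪 c)) ∧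
      ∃ J ∈ KK, J ≤ RingHom.ker f}

variable {aug : B →ₐ[𝒪] ResidueField 𝒪} {KK : Set (Ideal B)}

theorem map_maximalIdeal_le_ker (aug : B →ₐ[𝒪] ResidueField 𝒪) :
    (maximalIdeal 𝒪).map (algebraMap 𝒪 B) ≤ RingHom.ker aug := by
  rw [Ideal.map_le_iff_le_comap]
  intro c hc
  rw [Ideal.mem_comap, RingHom.mem_ker, aug_algebraMap, residue_eq_zero_iff]
  exact hc

/-- Finitely many elements of the augmentation ideal represent it modulo every
"tangent level" ideal of the family. -/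
theorem exists_reps [Finite (ResidueField 𝒪)] (h : IsLevelFamily aug KK) :
    ∃ (d : ℕ) (y : Fin d → B), (∀ i, y i ∈ RingHom.ker aug) ∧
      ∀ J ∈ KK, ∀ b ∈ RingHom.ker aug, ∃ i,
        b - y i ∈ J ⊔ (RingHom.ker aug) ^ 2 ⊔ (maximalIdeal 𝒪).map (algebraMap 𝒪 B) := by
  classical
  set 𝒯 := {f : B →+* DualNumber (ResidueField 𝒪) |
    (∀ c : 𝒪, f (algebraMap 𝒪 B c) = TrivSqZeroExt.inl (IsLocalRing.residue 𝒪 c)) ∧
      ∃ J ∈ KK, J ≤ RingHom.ker f} with h𝒯
  have : Finite 𝒯 := h.tan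
  have : Finite (DualNumber (ResidueField 𝒪)) :=
    inferInstanceAs (Finite (ResidueField 𝒪 × ResidueField 𝒪))
  let Φ : B →+* (𝒯 → DualNumber (ResidueField 𝒪)) := RingHom.pi (fun f : 𝒯 => f.1)
  have : Finite (B ⧸ RingHom.ker Φ) := Finite.of_injective _ (RingHom.kerLift_injective Φ)
  let S : Set (B ⧸ RingHom.ker Φ) :=
    {q | ∃ b ∈ RingHom.ker aug, Ideal.Quotient.mk (RingHom.ker Φ) b = q}
  have : Finite S := Subtype.finite
  choose rep hrep1 hrep2 using fun q : S => q.2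
  let e := Finite.equivFin S
  refine ⟨Nat.card S, fun i => rep (e.symm i), fun i => hrep1 _, ?_⟩
  intro J hJ b hb
  set J' := J ⊔ (RingHom.ker aug) ^ 2 ⊔ (maximalIdeal 𝒪).map (algebraMap 𝒪 B) with hJ'
  have hJ'le : J' ≤ RingHom.ker aug :=
    sup_le (sup_le (h.le_ker J hJ) (Ideal.pow_le_self two_ne_zero)) (map_maximalIdeal_le_ker aug)
  have hJ'mem : J' ∈ KK := h.up_mem J hJ J' (le_sup_of_le_left le_sup_left) hJ'le
  let q : S := ⟨Ideal.Quotient.mk (RingHom.ker Φ) b, b, hb, rfl⟩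
  refine ⟨e q, ?_⟩
  have hq : rep (e.symm (e q)) = rep q := by rw [Equiv.symm_apply_apply]
  show b - rep (e.symm (e q)) ∈ J'
  rw [hq]
  by_contra hnot
  have hker : b - rep q ∈ RingHom.ker aug := Ideal.sub_mem _ hb (hrep1 q)
  obtain ⟨f, hf1, hf2, hf3⟩ := exists_tangent_hom aug J' hJ'le
    (le_sup_of_le_left le_sup_right)
    (fun c hc => le_sup_right (a := J ⊔ (RingHom.ker aug) ^ 2) (Ideal.mem_map_of_mem _ hc))
    (b - rep q) hker hnot
  have hf𝒯 : f ∈ 𝒯 := ⟨hf1, J', hJ'mem, hf2⟩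
  have hΦ : b - rep q ∈ RingHom.ker Φ := by
    rw [← Ideal.Quotient.eq]
    exact (hrep2 q).symm
  have := congrFun ((RingHom.mem_ker).mp hΦ) ⟨f, hf𝒯⟩
  exact hf3 this

/-- the tangent bound in the form consumed by `RingLimit.exists_limitRing` -/
theorem exists_tangent_tuple [Finite (ResidueField 𝒪)] (h : IsLevelFamily aug KK) :
    ∃ (d : ℕ) (t : Fin d → B), (∀ i, t i ∈ RingHom.ker aug) ∧
      ∀ J ∈ KK, RingHom.ker aug ≤ J ⊔ (RingHom.ker aug) ^ 2 ⊔
        (maximalIdeal 𝒪).map (algebraMap 𝒪 B) ⊔ Ideal.span (Set.range t) := by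
  obtain ⟨d, y, hy, hrep⟩ := exists_reps h
  refine ⟨d, y, hy, fun J hJ b hb => ?_⟩
  obtain ⟨i, hi⟩ := hrep J hJ b hb
  have h1 : y i ∈ Ideal.span (Set.range y) := Ideal.subset_span ⟨i, rfl⟩
  have := Ideal.add_mem _ (le_sup_left (b := Ideal.span (Set.range y)) hi)
    (le_sup_right (a := J ⊔ (RingHom.ker aug) ^ 2 ⊔ (maximalIdeal 𝒪).map (algebraMap 𝒪 B)) h1)
  simpa using this

/-- nilpotent Nakayama, ideal version -/
theorem le_sup_pow_of_le_sup_sq {M K : Ideal B} (hM : M ≤ K ⊔ M ^ 2) (m : ℕ) :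
    M ≤ K ⊔ M ^ (m + 1) := by
  induction m with
  | zero => simp
  | succ m ih =>
    have h1 : M ^ (m + 1) ≤ K ⊔ M ^ (m + 2) := by
      calc M ^ (m + 1) = M ^ m * M := pow_succ _ _
        _ ≤ M ^ m * (K ⊔ M ^ 2) := Ideal.mul_mono_right hM
        _ = M ^ m * K ⊔ M ^ m * M ^ 2 := Ideal.mul_sup _ _ _
        _ ≤ K ⊔ M ^ (m + 2) := by
          apply sup_le_sup Ideal.mul_le_right
          rw [← pow_add]
    calc M ≤ K ⊔ M ^ (m + 1) := ih
      _ ≤ K ⊔ (K ⊔ M ^ (m + 2)) := sup_le_sup le_rfl h1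
      _ = K ⊔ M ^ (m + 1 + 1) := by rw [← sup_assoc, sup_idem]

theorem surjective_of_reps {d : ℕ} (y : Fin d → B) (hy : ∀ i, y i ∈ RingHom.ker aug)
    (J : Ideal B) (n : ℕ) (hn : (RingHom.ker aug) ^ n ≤ J)
    (hrep : ∀ b ∈ RingHom.ker aug, ∃ i,
        b - y i ∈ J ⊔ (RingHom.ker aug) ^ 2 ⊔ (maximalIdeal 𝒪).map (algebraMap 𝒪 B)) :
    Function.Surjective ((Ideal.Quotient.mkₐ 𝒪 J).comp
      (MvPolynomial.aeval y : MvPolynomial (Fin d) 𝒪 →ₐ[𝒪] B)) := by
  set M := RingHom.ker aug with hM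
  set φ : MvPolynomial (Fin d) 𝒪 →ₐ[𝒪] B := MvPolynomial.aeval y with hφ
  -- the generating set
  set T₀ : Set B := Set.range y ∪ (algebraMap 𝒪 B) '' (maximalIdeal 𝒪 : Set 𝒪) with hT₀
  have hT₀M : ∀ t ∈ T₀, t ∈ M := by
    rintro t (⟨i, rfl⟩ | ⟨c, hc, rfl⟩)
    · exact hy i
    · exact map_maximalIdeal_le_ker aug (Ideal.mem_map_of_mem _ hc)
  have hT₀φ : ∀ t ∈ T₀, ∃ q, φ q = t := by
    rintro t (⟨i, rfl⟩ | ⟨c, hc, rfl⟩)
    · exact ⟨MvPolynomial.X i, by simp [hφ]⟩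
    · exact ⟨MvPolynomial.C c, by simp [hφ]⟩
  -- `M ≤ span T₀ ⊔ J`
  have h1 : M ≤ (Ideal.span T₀ ⊔ J) ⊔ M ^ 2 := by
    intro b hb
    obtain ⟨i, hi⟩ := hrep b hb
    have hyi : y i ∈ Ideal.span T₀ := Ideal.subset_span (Or.inl ⟨i, rfl⟩)
    have hle : J ⊔ M ^ 2 ⊔ (maximalIdeal 𝒪).map (algebraMap 𝒪 B) ≤ (Ideal.span T₀ ⊔ J) ⊔ M ^ 2 := by
      refine sup_le (sup_le (le_sup_of_le_left le_sup_right) le_sup_right) ?_
      refine le_sup_of_le_left (le_sup_of_le_left ?_)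
      rw [Ideal.map]
      exact Ideal.span_mono (fun x hx => Or.inr hx)
    have := Ideal.add_mem _ (hle hi)
      ((le_sup_of_le_left le_sup_left : Ideal.span T₀ ≤ (Ideal.span T₀ ⊔ J) ⊔ M ^ 2) hyi)
    simpa using this
  have h2 : M ≤ Ideal.span T₀ ⊔ J := by
    have := le_sup_pow_of_le_sup_sq h1 n
    refine this.trans (sup_le le_rfl ?_)
    exact le_sup_of_le_right ((Ideal.pow_le_pow_right (Nat.le_succ n)).trans hn)
  -- the induction
  have key : ∀ m : ℕ, ∀ b : B, ∃ q, b - φ q ∈ J ⊔ M ^ m := by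
    intro m
    induction m with
    | zero => intro b; exact ⟨0, by simp⟩
    | succ m ih =>
      have hspan : ∀ x ∈ Ideal.span T₀, ∀ a : B, ∃ q, a * x - φ q ∈ J ⊔ M ^ (m + 1) := by
        intro x hx
        induction hx using Submodule.span_induction with
        | mem t ht =>
          intro a
          obtain ⟨q₀, hq₀⟩ := hT₀φ t ht
          obtain ⟨q, hq⟩ := ih a
          refine ⟨q * q₀, ?_⟩
          have : a * t - φ (q * q₀) = (a - φ q) * t := by rw [map_mul, hq₀]; ring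
          rw [this]
          have h3 : (a - φ q) * t ∈ (J ⊔ M ^ m) * M := Ideal.mul_mem_mul hq (hT₀M t ht)
          have h4 : (J ⊔ M ^ m) * M ≤ J ⊔ M ^ (m + 1) := by
            rw [Ideal.sup_mul]
            exact sup_le_sup Ideal.mul_le_left (by rw [pow_succ])
          exact h4 h3
        | zero => intro a; exact ⟨0, by simp⟩
        | add u v _ _ hu hv =>
          intro a
          obtain ⟨q₁, hq₁⟩ := hu a
          obtain ⟨q₂, hq₂⟩ := hv a
          refine ⟨q₁ + q₂, ?_⟩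
          have : a * (u + v) - φ (q₁ + q₂) = (a * u - φ q₁) + (a * v - φ q₂) := by
            rw [map_add]; ring
          rw [this]
          exact Ideal.add_mem _ hq₁ hq₂
        | smul r u _ hu =>
          intro a
          obtain ⟨q, hq⟩ := hu (a * r)
          refine ⟨q, ?_⟩
          rw [smul_eq_mul, ← mul_assoc]
          exact hq
      intro b
      obtain ⟨c, hc⟩ := exists_sub_mem_ker aug b
      obtain ⟨u, hu, j, hj, huj⟩ := Submodule.mem_sup.mp (h2 hc)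
      obtain ⟨q, hq⟩ := hspan u hu 1
      refine ⟨MvPolynomial.C c + q, ?_⟩
      have : b - φ (MvPolynomial.C c + q) = (1 * u - φ q) + j := by
        rw [map_add, hφ, MvPolynomial.aeval_C, ← hφ, one_mul]
        linear_combination -huj
      rw [this]
      exact Ideal.add_mem _ hq (le_sup_left (a := J) hj)
  intro x
  obtain ⟨b, rfl⟩ := Ideal.Quotient.mk_surjective x
  obtain ⟨q, hq⟩ := key n b
  refine ⟨q, ?_⟩
  have hq' : b - φ q ∈ J := (sup_le le_rfl hn) hq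
  show Ideal.Quotient.mk J (φ q) = Ideal.Quotient.mk J b
  exact (Ideal.Quotient.eq.mpr hq').symm

theorem exists_generators [Finite (ResidueField 𝒪)] (h : IsLevelFamily aug KK) :
    ∃ (d : ℕ) (y : Fin d → B), (∀ i, y i ∈ RingHom.ker aug) ∧
      ∀ J ∈ KK, Function.Surjective ((Ideal.Quotient.mkₐ 𝒪 J).comp
        (MvPolynomial.aeval y : MvPolynomial (Fin d) 𝒪 →ₐ[𝒪] B)) := by
  obtain ⟨d, y, hy, hrep⟩ := exists_reps h
  refine ⟨d, y, hy, fun J hJ => ?_⟩
  obtain ⟨n, hn⟩ := h.pow_le J hJ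
  exact surjective_of_reps y hy J n hn (hrep J hJ)

/-- the uniform bound on the size of the quotients -/
theorem exists_card_bound [IsNoetherianRing 𝒪] [Finite (ResidueField 𝒪)]
    (h : IsLevelFamily aug KK) (n : ℕ) :
    ∃ C : ℕ, ∀ J ∈ KK, (RingHom.ker aug) ^ n ≤ J → Finite (B ⧸ J) ∧ Nat.card (B ⧸ J) ≤ C := by
  obtain ⟨d, y, hy, hsurj⟩ := exists_generators h
  set φ : MvPolynomial (Fin d) 𝒪 →ₐ[𝒪] B := MvPolynomial.aeval y with hφ
  let ψ : MvPolynomial (Fin d) 𝒪 →+* ResidueField 𝒪 :=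
    (aug : B →+* ResidueField 𝒪).comp (φ : MvPolynomial (Fin d) 𝒪 →+* B)
  set 𝔫 := RingHom.ker ψ with h𝔫
  have : Finite (MvPolynomial (Fin d) 𝒪 ⧸ 𝔫) :=
    Finite.of_injective _ (RingHom.kerLift_injective ψ)
  have : Finite (MvPolynomial (Fin d) 𝒪 ⧸ 𝔫 ^ n) :=
    Ideal.finite_quotient_pow (IsNoetherian.noetherian 𝔫) n
  refine ⟨Nat.card (MvPolynomial (Fin d) 𝒪 ⧸ 𝔫 ^ n), fun J hJ hn => ?_⟩
  have hmap : 𝔫.map (φ : MvPolynomial (Fin d) 𝒪 →+* B) ≤ RingHom.ker aug := by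
    rw [Ideal.map_le_iff_le_comap]
    intro q hq
    exact hq
  have hkill : ∀ q ∈ 𝔫 ^ n,
      ((Ideal.Quotient.mk J).comp (φ : MvPolynomial (Fin d) 𝒪 →+* B)) q = 0 := by
    intro q hq
    rw [RingHom.comp_apply, Ideal.Quotient.eq_zero_iff_mem]
    apply hn
    have h1 : (φ : MvPolynomial (Fin d) 𝒪 →+* B) q ∈
        (𝔫 ^ n).map (φ : MvPolynomial (Fin d) 𝒪 →+* B) := Ideal.mem_map_of_mem _ hq
    rw [Ideal.map_pow] at h1
    exact Ideal.pow_right_mono hmap n h1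
  let g : MvPolynomial (Fin d) 𝒪 ⧸ 𝔫 ^ n →+* B ⧸ J := Ideal.Quotient.lift (𝔫 ^ n) _ hkill
  have hg : Function.Surjective g := by
    intro x
    obtain ⟨q, hq⟩ := hsurj J hJ x
    exact ⟨Ideal.Quotient.mk _ q, hq⟩
  exact ⟨Finite.of_surjective g hg, Nat.card_le_card_of_surjective g hg⟩

theorem finite_quotient [IsNoetherianRing 𝒪] [Finite (ResidueField 𝒪)]
    (h : IsLevelFamily aug KK) {J : Ideal B} (hJ : J ∈ KK) : Finite (B ⧸ J) := by
  obtain ⟨n, hn⟩ := h.pow_le J hJ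
  obtain ⟨C, hC⟩ := exists_card_bound h n
  exact (hC J hJ hn).1

theorem exists_least [IsNoetherianRing 𝒪] [Finite (ResidueField 𝒪)]
    (h : IsLevelFamily aug KK) (n : ℕ) :
    ∃ J ∈ KK, (RingHom.ker aug) ^ (n + 1) ≤ J ∧
      ∀ J' ∈ KK, (RingHom.ker aug) ^ (n + 1) ≤ J' → J ≤ J' := by
  obtain ⟨C, hC⟩ := exists_card_bound h (n + 1)
  let s : Set ℕ := {m | ∃ J ∈ KK, (RingHom.ker aug) ^ (n + 1) ≤ J ∧ Nat.card (B ⧸ J) = m}
  have hs_ne : s.Nonempty :=
    ⟨_, RingHom.ker aug, h.ker_mem, Ideal.pow_le_self (Nat.succ_ne_zero n), rfl⟩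
  have hs_bdd : BddAbove s := ⟨C, by rintro m ⟨J, hJ, hn, rfl⟩; exact (hC J hJ hn).2⟩
  obtain ⟨J, hJ, hn, hcard⟩ := Nat.sSup_mem hs_ne hs_bdd
  refine ⟨J, hJ, hn, fun J' hJ' hn' => ?_⟩
  have hinf : J ⊓ J' ∈ KK := h.inf_mem J hJ J' hJ'
  have hninf : (RingHom.ker aug) ^ (n + 1) ≤ J ⊓ J' := le_inf hn hn'
  have := (hC _ hinf hninf).1
  have := (hC _ hJ hn).1
  have hle : Nat.card (B ⧸ (J ⊓ J')) ≤ Nat.card (B ⧸ J) := by
    rw [hcard]
    exact le_csSup hs_bdd ⟨J ⊓ J', hinf, hninf, rfl⟩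
  let g : B ⧸ (J ⊓ J') →+* B ⧸ J := Ideal.Quotient.factor inf_le_left
  have hg : Function.Surjective g := Ideal.Quotient.factor_surjective inf_le_left
  have hbij : Function.Bijective g := hg.bijective_of_nat_card_le hle
  intro x hx
  have h0 : g (Ideal.Quotient.mk _ x) = 0 := by
    show Ideal.Quotient.factor inf_le_left (Ideal.Quotient.mk _ x) = 0
    rw [Ideal.Quotient.factor_mk, Ideal.Quotient.eq_zero_iff_mem]
    exact hx
  have h1 : Ideal.Quotient.mk (J ⊓ J') x = 0 := hbij.1 (by rw [h0, map_zero])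
  exact (Ideal.Quotient.eq_zero_iff_mem.mp h1).2

/-- the least member of `KK` containing `MM ^ (n+1)` -/
noncomputable def level [IsNoetherianRing 𝒪] [Finite (ResidueField 𝒪)]
    (h : IsLevelFamily aug KK) (n : ℕ) : Ideal B := (exists_least h n).choose

section level

variable [IsNoetherianRing 𝒪] [Finite (ResidueField 𝒪)] (h : IsLevelFamily aug KK)

theorem level_mem (n : ℕ) : level h n ∈ KK := (exists_least h n).choose_spec.1

theorem pow_le_level (n : ℕ) : (RingHom.ker aug) ^ (n + 1) ≤ level h n :=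
  (exists_least h n).choose_spec.2.1

theorem level_le (n : ℕ) {J : Ideal B} (hJ : J ∈ KK) (hn : (RingHom.ker aug) ^ (n + 1) ≤ J) :
    level h n ≤ J := (exists_least h n).choose_spec.2.2 J hJ hn

theorem level_le_ker (n : ℕ) : level h n ≤ RingHom.ker aug := h.le_ker _ (level_mem h n)

theorem level_succ_le (n : ℕ) : level h (n + 1) ≤ level h n :=
  level_le h (n + 1) (level_mem h n)
    ((Ideal.pow_le_pow_right (Nat.le_succ (n + 1))).trans (pow_le_level h n))

theorem level_antitone : Antitone (level h) := antitone_nat_of_succ_le (level_succ_le h)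

theorem level_eq (n : ℕ) : level h n = level h (n + 1) ⊔ (RingHom.ker aug) ^ (n + 1) := by
  apply le_antisymm
  · apply level_le h n _ le_sup_right
    exact h.up_mem _ (level_mem h (n + 1)) _ le_sup_left
      (sup_le (level_le_ker h (n + 1)) (Ideal.pow_le_self (Nat.succ_ne_zero n)))
  · exact sup_le (level_succ_le h n) (pow_le_level h n)

theorem level_eq_of_le {m n : ℕ} (hmn : m ≤ n) :
    level h m = level h n ⊔ (RingHom.ker aug) ^ (m + 1) := by
  apply le_antisymm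
  · apply level_le h m _ le_sup_right
    exact h.up_mem _ (level_mem h n) _ le_sup_left
      (sup_le (level_le_ker h n) (Ideal.pow_le_self (Nat.succ_ne_zero m)))
  · exact sup_le (level_antitone h hmn) (pow_le_level h m)

theorem level_zero : level h 0 = RingHom.ker aug :=
  le_antisymm (level_le_ker h 0) (by simpa using pow_le_level h 0)

/-- every member of the family contains some level -/
theorem exists_level_le {J : Ideal B} (hJ : J ∈ KK) : ∃ n, level h n ≤ J := by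
  obtain ⟨n, hn⟩ := h.pow_le J hJ
  exact ⟨n, level_le h n hJ ((Ideal.pow_le_pow_right (Nat.le_succ n)).trans hn)⟩

end level

end Family

end Fermat.Agent.S53.LevelMin
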