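import Mathlib

set_option autoImplicit false

namespace Fermat.Agent.S53

open IsLocalRing PowerSeries

section OneVar

variable {A : Type*} [CommRing A] [IsLocalRing A]

/-- The filtration ideal: coefficients of degree `j < n` lie in `𝔪 ^ (n - j)`. -/
def filtIdeal (A : Type*) [CommRing A] [IsLocalRing A] (n : ℕ) : Ideal (PowerSeries A) where
  carrier := {g | ∀ j, j < n → coeff j g ∈ maximalIdeal A ^ (n - j)}
  add_mem' := by
    intro a b ha hb j hj
    rw [map_add]
    exact Ideal.add_mem _ (ha j hj) (hb j hj)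
  zero_mem' := by
    intro j _
    simp
  smul_mem' := by
    intro c x hx j hj
    rw [smul_eq_mul, coeff_mul]
    refine Ideal.sum_mem _ ?_
    rintro ⟨u, v⟩ huv
    have huv' : u + v = j := by simpa using huv
    have hv : v < n := by omega
    have h1 := hx v hv
    have h2 : maximalIdeal A ^ (n - v) ≤ maximalIdeal A ^ (n - j) :=
      Ideal.pow_le_pow_right (by omega)
    exact Ideal.mul_mem_left _ _ (h2 h1)

theorem mem_filtIdeal {n : ℕ} {g : PowerSeries A} :
    g ∈ filtIdeal A n ↔ ∀ j, j < n → coeff j g ∈ maximalIdeal A ^ (n - j) := Iff.rfl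

theorem filtIdeal_mul_le (a b : ℕ) : filtIdeal A a * filtIdeal A b ≤ filtIdeal A (a + b) := by
  rw [Ideal.mul_le]
  intro g hg h hh j hj
  rw [coeff_mul]
  refine Ideal.sum_mem _ ?_
  rintro ⟨u, v⟩ huv
  have huv' : u + v = j := by simpa using huv
  by_cases hu : u < a
  · by_cases hv : v < b
    · have h1 := hg u hu
      have h2 := hh v hv
      have h3 : coeff u g * coeff v h ∈ maximalIdeal A ^ (a - u) * maximalIdeal A ^ (b - v) :=
        Ideal.mul_mem_mul h1 h2
      rw [← pow_add] at h3
      have h4 : maximalIdeal A ^ (a - u + (b - v)) ≤ maximalIdeal A ^ (a + b - j) :=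
        Ideal.pow_le_pow_right (by omega)
      exact h4 h3
    · have h1 := hg u hu
      have h4 : maximalIdeal A ^ (a - u) ≤ maximalIdeal A ^ (a + b - j) :=
        Ideal.pow_le_pow_right (by omega)
      exact Ideal.mul_mem_right _ _ (h4 h1)
  · have hv : v < b := by omega
    have h2 := hh v hv
    have h4 : maximalIdeal A ^ (b - v) ≤ maximalIdeal A ^ (a + b - j) :=
      Ideal.pow_le_pow_right (by omega)
    exact Ideal.mul_mem_left _ _ (h4 h2)

theorem mem_maximalIdeal_powerSeries_iff {g : PowerSeries A} :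
    g ∈ maximalIdeal (PowerSeries A) ↔ constantCoeff g ∈ maximalIdeal A := by
  rw [mem_maximalIdeal, mem_maximalIdeal, mem_nonunits_iff, mem_nonunits_iff,
    PowerSeries.isUnit_iff_constantCoeff]

theorem maximalIdeal_le_filtIdeal_one : maximalIdeal (PowerSeries A) ≤ filtIdeal A 1 := by
  intro g hg j hj
  have hj0 : j = 0 := by omega
  subst hj0
  rw [mem_maximalIdeal_powerSeries_iff] at hg
  simpa using hg

theorem maximalIdeal_pow_le_filtIdeal (n : ℕ) :
    maximalIdeal (PowerSeries A) ^ n ≤ filtIdeal A n := by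
  induction n with
  | zero =>
    intro g _ j hj
    omega
  | succ n ih =>
    rw [pow_succ]
    exact (Ideal.mul_mono ih maximalIdeal_le_filtIdeal_one).trans (filtIdeal_mul_le n 1)

theorem C_mem_maximalIdeal_pow {m : ℕ} {a : A} (ha : a ∈ maximalIdeal A ^ m) :
    (C a : PowerSeries A) ∈ maximalIdeal (PowerSeries A) ^ m := by
  have h1 : (maximalIdeal A).map (C : A →+* PowerSeries A) ≤ maximalIdeal (PowerSeries A) := by
    rw [Ideal.map_le_iff_le_comap]
    intro x hx
    rw [Ideal.mem_comap, mem_maximalIdeal_powerSeries_iff]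
    simpa using hx
  have h2 : (C a : PowerSeries A) ∈ ((maximalIdeal A) ^ m).map (C : A →+* PowerSeries A) :=
    Ideal.mem_map_of_mem _ ha
  rw [Ideal.map_pow] at h2
  exact Ideal.pow_right_mono h1 m h2

theorem X_mem_maximalIdeal : (X : PowerSeries A) ∈ maximalIdeal (PowerSeries A) := by
  rw [mem_maximalIdeal_powerSeries_iff]
  simp

theorem filtIdeal_le_maximalIdeal_pow (n : ℕ) :
    filtIdeal A n ≤ maximalIdeal (PowerSeries A) ^ n := by
  intro g hg
  have hdecomp : g = (∑ i ∈ Finset.range n, C (coeff i g) * X ^ i) +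
      X ^ n * PowerSeries.mk (fun i => coeff (i + n) g) := by
    ext j
    rw [map_add, map_sum, coeff_X_pow_mul']
    simp only [coeff_C_mul_X_pow]
    by_cases hj : j < n
    · rw [Finset.sum_ite_eq, if_pos (Finset.mem_range.mpr hj), if_neg (Nat.not_le.mpr hj), add_zero]
    · have hj' : n ≤ j := Nat.le_of_not_gt hj
      rw [Finset.sum_ite_eq, if_neg (by simpa using hj'), if_pos hj', coeff_mk,
        Nat.sub_add_cancel hj', zero_add]
  rw [hdecomp]
  refine Ideal.add_mem _ (Ideal.sum_mem _ ?_) ?_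
  · intro i hi
    have hi' : i < n := Finset.mem_range.mp hi
    have h1 := C_mem_maximalIdeal_pow (hg i hi')
    have h2 : (X : PowerSeries A) ^ i ∈ maximalIdeal (PowerSeries A) ^ i :=
      Ideal.pow_mem_pow X_mem_maximalIdeal i
    have h3 := Ideal.mul_mem_mul h1 h2
    rw [← pow_add, Nat.sub_add_cancel hi'.le] at h3
    exact h3
  · exact Ideal.mul_mem_right _ _ (Ideal.pow_mem_pow X_mem_maximalIdeal n)

theorem maximalIdeal_pow_eq_filtIdeal (n : ℕ) :
    maximalIdeal (PowerSeries A) ^ n = filtIdeal A n :=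
  le_antisymm (maximalIdeal_pow_le_filtIdeal n) (filtIdeal_le_maximalIdeal_pow n)

theorem isPrecomplete_powerSeries [IsPrecomplete (maximalIdeal A) A] :
    IsPrecomplete (maximalIdeal (PowerSeries A)) (PowerSeries A) := by
  refine ⟨fun f hf => ?_⟩
  -- the coefficient sequences are Cauchy
  have hcoef : ∀ j : ℕ, ∃ c : A, ∀ n, coeff j (f (n + j)) ≡ c
      [SMOD (maximalIdeal A ^ n • ⊤ : Submodule A A)] := by
    intro j
    refine IsPrecomplete.prec' (I := maximalIdeal A) (fun n => coeff j (f (n + j))) ?_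
    intro m n hmn
    have h1 := hf (m := m + j) (n := n + j) (by omega)
    rw [SModEq.sub_mem, smul_eq_mul, Ideal.mul_top, maximalIdeal_pow_eq_filtIdeal] at h1
    rw [SModEq.sub_mem, smul_eq_mul, Ideal.mul_top]
    by_cases hm : m = 0
    · subst hm; simp
    · have h2 := h1 j (by omega)
      rw [map_sub] at h2
      simpa using h2
  choose c hc using hcoef
  refine ⟨PowerSeries.mk c, fun n => ?_⟩
  rw [SModEq.sub_mem, smul_eq_mul, Ideal.mul_top, maximalIdeal_pow_eq_filtIdeal]
  intro j hj
  have h1 := hc j (n - j)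
  rw [SModEq.sub_mem, smul_eq_mul, Ideal.mul_top, Nat.sub_add_cancel hj.le] at h1
  rw [map_sub, coeff_mk]
  exact h1

theorem isAdicComplete_powerSeries [IsNoetherianRing A] [IsAdicComplete (maximalIdeal A) A] :
    IsAdicComplete (maximalIdeal (PowerSeries A)) (PowerSeries A) :=
  { toIsHausdorff := inferInstance
    toIsPrecomplete := isPrecomplete_powerSeries }

end OneVar

section MvVar

theorem isAdicComplete_of_ringEquiv {R S : Type*} [CommRing R] [CommRing S] [IsLocalRing R]
    [IsLocalRing S] (e : R ≃+* S) [h : IsAdicComplete (maximalIdeal R) R] :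
    IsAdicComplete (maximalIdeal S) S := by
  rw [← map_ringEquiv_maximalIdeal e, IsAdicComplete.congr_ringEquiv]
  exact h

theorem isAdicComplete_mvPowerSeries_fin (𝒪 : Type*) [CommRing 𝒪] [IsLocalRing 𝒪]
    [IsNoetherianRing 𝒪] [IsAdicComplete (maximalIdeal 𝒪) 𝒪] (d : ℕ) :
    IsAdicComplete (maximalIdeal (MvPowerSeries (Fin d) 𝒪)) (MvPowerSeries (Fin d) 𝒪) := by
  induction d with
  | zero =>
    exact isAdicComplete_of_ringEquiv (MvPowerSeries.isEmptyEquiv (Fin 0) 𝒪).symm.toRingEquiv
  | succ d ih =>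
    have := ih
    have := isAdicComplete_powerSeries (A := MvPowerSeries (Fin d) 𝒪)
    exact isAdicComplete_of_ringEquiv (MvPowerSeries.finSuccEquiv 𝒪 d).symm.toRingEquiv

end MvVar

end Fermat.Agent.S53
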