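import Mathlib
import Fermat.Prelude.Thm_IsLocalRing_isAdicComplete_of_module_finite
import Fermat.Agent.S53.PowerSeriesComplete

set_option autoImplicit false

namespace Fermat.Agent.S53

open IsLocalRing

namespace RingLimit

lemma le_sup_pow_of_le_sup_sq {B : Type*} [CommRing B] {𝔐 K : Ideal B} (h : 𝔐 ≤ K ⊔ 𝔐 ^ 2) (n : ℕ) :
    𝔐 ≤ K ⊔ 𝔐 ^ (n + 1) := by
  induction n with
  | zero => simp
  | succ n ih =>
    refine h.trans (sup_le le_sup_left ?_)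
    calc 𝔐 ^ 2 = 𝔐 * 𝔐 := pow_two _
      _ ≤ (K ⊔ 𝔐 ^ (n + 1)) * 𝔐 := Ideal.mul_mono_left ih
      _ = K * 𝔐 ⊔ 𝔐 ^ (n + 1) * 𝔐 := Ideal.sup_mul _ _ _
      _ ≤ K ⊔ 𝔐 ^ (n + 1 + 1) := sup_le_sup Ideal.mul_le_left (by rw [← pow_succ])


lemma top_le_of_nilpotent_smul {R M : Type*} [CommRing R] [AddCommGroup M] [Module R M]
    (I : Ideal R) (N : Submodule R M) (h : (⊤ : Submodule R M) ≤ N ⊔ I • ⊤) (n : ℕ) :
    (⊤ : Submodule R M) ≤ N ⊔ I ^ n • ⊤ := by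
  induction n with
  | zero => simp
  | succ n ih =>
    refine ih.trans (sup_le le_sup_left ?_)
    calc I ^ n • (⊤ : Submodule R M) ≤ I ^ n • (N ⊔ I • ⊤) := Submodule.smul_mono le_rfl h
      _ = I ^ n • N ⊔ I ^ n • I • ⊤ := Submodule.smul_sup _ _ _
      _ ≤ N ⊔ I ^ (n + 1) • ⊤ := by
        refine sup_le_sup Submodule.smul_le_right ?_
        rw [← Submodule.mul_smul, ← pow_succ]


section Setting

variable {𝒪 : Type} [CommRing 𝒪] [IsLocalRing 𝒪]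
    {B : Type} [CommRing B] [Algebra 𝒪 B] {𝔐 : Ideal B} {d : ℕ} (t : Fin d → B)

lemma isMaximal_of_aug (h𝔐 : 𝔐 ≠ ⊤)
    (hsurj : ∀ b : B, ∃ a : 𝒪, b - algebraMap 𝒪 B a ∈ 𝔐)
    (hloc : ∀ a ∈ maximalIdeal 𝒪, algebraMap 𝒪 B a ∈ 𝔐) : 𝔐.IsMaximal := by
  rw [Ideal.isMaximal_iff]
  refine ⟨fun h => h𝔐 ((Ideal.eq_top_iff_one _).mpr h), fun J x hJ hx hxJ => ?_⟩
  obtain ⟨a, ha⟩ := hsurj x
  have hau : IsUnit a := by
    by_contra hna
    have : algebraMap 𝒪 B a ∈ 𝔐 := hloc a ((mem_maximalIdeal a).mpr hna)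
    exact hx (by simpa using 𝔐.add_mem ha this)
  obtain ⟨u, rfl⟩ := hau
  have h1 : algebraMap 𝒪 B (u : 𝒪) ∈ J := by
    have := J.sub_mem hxJ (hJ ha)
    simpa using this
  have h2 := J.mul_mem_left (algebraMap 𝒪 B ((u⁻¹ : 𝒪ˣ) : 𝒪)) h1
  rwa [← map_mul, Units.inv_mul, map_one] at h2

/-- the ideal `(𝔪_𝒪, X_i)` of the polynomial ring -/
noncomputable def polyIdeal (𝒪 : Type) [CommRing 𝒪] [IsLocalRing 𝒪] (d : ℕ) : Ideal (MvPolynomial (Fin d) 𝒪) :=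
  (maximalIdeal 𝒪).map MvPolynomial.C ⊔ Ideal.span (Set.range MvPolynomial.X)

lemma map_aeval_polyIdeal : (polyIdeal 𝒪 d).map (MvPolynomial.aeval t : MvPolynomial (Fin d) 𝒪 →ₐ[𝒪] B) =
    (maximalIdeal 𝒪).map (algebraMap 𝒪 B) ⊔ Ideal.span (Set.range t) := by
  change (polyIdeal 𝒪 d).map (MvPolynomial.aeval t : MvPolynomial (Fin d) 𝒪 →ₐ[𝒪] B).toRingHom = _
  rw [polyIdeal, Ideal.map_sup, Ideal.map_map, Ideal.map_span, ← Set.range_comp]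
  congr 2
  · ext a; simp
  · ext i; simp

lemma exists_poly_sub_mem
    (hsurj : ∀ b : B, ∃ a : 𝒪, b - algebraMap 𝒪 B a ∈ 𝔐)
    (hloc : ∀ a ∈ maximalIdeal 𝒪, algebraMap 𝒪 B a ∈ 𝔐)
    (ht : ∀ i, t i ∈ 𝔐) {J : Ideal B} {n : ℕ} (hpow : 𝔐 ^ n ≤ J)
    (htan : 𝔐 ≤ J ⊔ 𝔐 ^ 2 ⊔ (maximalIdeal 𝒪).map (algebraMap 𝒪 B) ⊔ Ideal.span (Set.range t))
    (b : B) : ∃ p : MvPolynomial (Fin d) 𝒪, b - MvPolynomial.aeval t p ∈ J := by
  set 𝔫B : Ideal B := (maximalIdeal 𝒪).map (algebraMap 𝒪 B) ⊔ Ideal.span (Set.range t) with h𝔫B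
  have h𝔫B𝔐 : 𝔫B ≤ 𝔐 := by
    refine sup_le (Ideal.map_le_iff_le_comap.mpr fun a ha => hloc a ha) (Ideal.span_le.mpr ?_)
    rintro _ ⟨i, rfl⟩; exact ht i
  have h1 : 𝔐 ≤ J ⊔ 𝔫B := by
    have h2 : 𝔐 ≤ (J ⊔ 𝔫B) ⊔ 𝔐 ^ 2 := by
      refine htan.trans ?_
      rw [h𝔫B]
      refine sup_le (sup_le (sup_le ?_ ?_) ?_) ?_
      · exact le_sup_of_le_left le_sup_left
      · exact le_sup_right
      · exact le_sup_of_le_left (le_sup_of_le_right le_sup_left)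
      · exact le_sup_of_le_left (le_sup_of_le_right le_sup_right)
    refine (le_sup_pow_of_le_sup_sq h2 n).trans (sup_le le_rfl ?_)
    exact le_sup_of_le_left ((Ideal.pow_le_pow_right (Nat.le_succ n)).trans hpow)
  let alg : Algebra (MvPolynomial (Fin d) 𝒪) (B ⧸ J) :=
    ((Ideal.Quotient.mk J).comp
      (MvPolynomial.aeval t : MvPolynomial (Fin d) 𝒪 →ₐ[𝒪] B).toRingHom).toAlgebra
  have halg : ∀ p, algebraMap (MvPolynomial (Fin d) 𝒪) (B ⧸ J) p =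
      Ideal.Quotient.mk J (MvPolynomial.aeval t p) := fun p => rfl
  have hmap : (polyIdeal 𝒪 d).map (algebraMap (MvPolynomial (Fin d) 𝒪) (B ⧸ J)) =
      𝔫B.map (Ideal.Quotient.mk J) := by
    rw [h𝔫B, ← map_aeval_polyIdeal t]
    change _ = Ideal.map _ (Ideal.map
      (MvPolynomial.aeval t : MvPolynomial (Fin d) 𝒪 →ₐ[𝒪] B).toRingHom _)
    rw [Ideal.map_map]; rfl
  set N : Submodule (MvPolynomial (Fin d) 𝒪) (B ⧸ J) :=
    LinearMap.range (Algebra.linearMap (MvPolynomial (Fin d) 𝒪) (B ⧸ J)) with hN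
  have key : (⊤ : Submodule (MvPolynomial (Fin d) 𝒪) (B ⧸ J)) ≤ N ⊔ polyIdeal 𝒪 d • ⊤ := by
    intro x _
    obtain ⟨b, rfl⟩ := Ideal.Quotient.mk_surjective x
    obtain ⟨a, ha⟩ := hsurj b
    obtain ⟨j, hj, c, hc, hjc⟩ := Submodule.mem_sup.mp (h1 ha)
    have hb : Ideal.Quotient.mk J b =
        algebraMap (MvPolynomial (Fin d) 𝒪) (B ⧸ J) (MvPolynomial.C a) + Ideal.Quotient.mk J c := by
      rw [halg, MvPolynomial.aeval_C, ← map_add, Ideal.Quotient.mk_eq_mk_iff_sub_mem]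
      have : b - (algebraMap 𝒪 B a + c) = j := by rw [← sub_sub, ← hjc]; ring
      rw [this]; exact hj
    rw [hb]
    refine Submodule.add_mem_sup ⟨MvPolynomial.C a, rfl⟩ ?_
    rw [Ideal.smul_top_eq_map, hmap]
    exact Ideal.mem_map_of_mem _ hc
  have hzero : polyIdeal 𝒪 d ^ n • (⊤ : Submodule (MvPolynomial (Fin d) 𝒪) (B ⧸ J)) = ⊥ := by
    rw [Ideal.smul_top_eq_map, Ideal.map_pow, hmap, ← Ideal.map_pow]
    have : (𝔫B ^ n).map (Ideal.Quotient.mk J) = ⊥ := by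
      rw [Ideal.map_eq_bot_iff_le_ker, Ideal.mk_ker]
      exact (Ideal.pow_right_mono h𝔫B𝔐 n).trans hpow
    rw [this]; rfl
  have htop := top_le_of_nilpotent_smul _ N key n
  rw [hzero, sup_bot_eq] at htop
  obtain ⟨p, hp⟩ := htop (Submodule.mem_top (x := Ideal.Quotient.mk J b))
  refine ⟨p, ?_⟩
  rw [← Ideal.Quotient.mk_eq_mk_iff_sub_mem]
  exact hp.symm

lemma finite_quotient_polyIdeal [Finite (ResidueField 𝒪)] :
    Finite (MvPolynomial (Fin d) 𝒪 ⧸ polyIdeal 𝒪 d) := by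
  have hle : maximalIdeal 𝒪 ≤ (polyIdeal 𝒪 d).comap MvPolynomial.C :=
    Ideal.map_le_iff_le_comap.mp le_sup_left
  have : Finite (𝒪 ⧸ maximalIdeal 𝒪) := ‹Finite (ResidueField 𝒪)›
  let φ : 𝒪 ⧸ maximalIdeal 𝒪 →+* MvPolynomial (Fin d) 𝒪 ⧸ polyIdeal 𝒪 d :=
    Ideal.quotientMap (polyIdeal 𝒪 d) MvPolynomial.C hle
  refine Finite.of_surjective φ fun x => ?_
  obtain ⟨p, rfl⟩ := Ideal.Quotient.mk_surjective x
  refine ⟨Ideal.Quotient.mk _ (MvPolynomial.constantCoeff p), ?_⟩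
  rw [Ideal.quotientMap_mk, Ideal.Quotient.mk_eq_mk_iff_sub_mem]
  refine Ideal.mem_sup_right ?_
  have := (MvPolynomial.mem_pow_idealOfVars_iff' (σ := Fin d) (R := 𝒪) 1
    (MvPolynomial.C (MvPolynomial.constantCoeff p) - p)).mpr (fun x hx => by
      have hx0 : x = 0 := by
        rw [Nat.lt_one_iff] at hx
        exact (Finsupp.degree_eq_zero_iff x).mp hx
      subst hx0
      simp [MvPolynomial.constantCoeff_eq])
  simpa using this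

lemma finite_Ici_polyIdeal_pow [IsNoetherianRing 𝒪] [Finite (ResidueField 𝒪)] (n : ℕ) :
    (Set.Ici (polyIdeal 𝒪 d ^ n)).Finite := by
  have := finite_quotient_polyIdeal (𝒪 := 𝒪) (d := d)
  have := Ideal.finite_quotient_pow (IsNoetherian.noetherian (polyIdeal 𝒪 d)) n
  have : Finite (Submodule (MvPolynomial (Fin d) 𝒪) (MvPolynomial (Fin d) 𝒪 ⧸ polyIdeal 𝒪 d ^ n)) :=
    Finite.of_injective (fun S => (S : Set (MvPolynomial (Fin d) 𝒪 ⧸ polyIdeal 𝒪 d ^ n)))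
      SetLike.coe_injective
  have : Finite (Set.Ici (polyIdeal 𝒪 d ^ n)) :=
    Finite.of_equiv _ (Submodule.comapMkQRelIso (polyIdeal 𝒪 d ^ n)).toEquiv
  exact Set.toFinite _

/-- The hypotheses of the ring-limit lemma, bundled. -/
structure Hyp (𝒪 : Type) [CommRing 𝒪] [IsLocalRing 𝒪] {B : Type} [CommRing B] [Algebra 𝒪 B]
    (𝔐 : Ideal B) (𝓚 : Set (Ideal B)) {d : ℕ} (t : Fin d → B) : Prop where
  ne_top : 𝔐 ≠ ⊤
  surj : ∀ b : B, ∃ a : 𝒪, b - algebraMap 𝒪 B a ∈ 𝔐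
  loc : ∀ a ∈ maximalIdeal 𝒪, algebraMap 𝒪 B a ∈ 𝔐
  mem : 𝔐 ∈ 𝓚
  le : ∀ J ∈ 𝓚, J ≤ 𝔐
  pow : ∀ J ∈ 𝓚, ∃ n : ℕ, 𝔐 ^ n ≤ J
  inf : ∀ J ∈ 𝓚, ∀ J' ∈ 𝓚, J ⊓ J' ∈ 𝓚
  up : ∀ J ∈ 𝓚, ∀ J' : Ideal B, J ≤ J' → J' ≤ 𝔐 → J' ∈ 𝓚
  t_mem : ∀ i, t i ∈ 𝔐
  tan : ∀ J ∈ 𝓚, 𝔐 ≤ J ⊔ 𝔐 ^ 2 ⊔ (maximalIdeal 𝒪).map (algebraMap 𝒪 B) ⊔
      Ideal.span (Set.range t)

variable {𝓚 : Set (Ideal B)} {t}

lemma Hyp.exists_poly (H : Hyp 𝒪 𝔐 𝓚 t) {J : Ideal B} (hJ : J ∈ 𝓚) (b : B) :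
    ∃ p : MvPolynomial (Fin d) 𝒪, b - MvPolynomial.aeval t p ∈ J := by
  obtain ⟨n, hn⟩ := H.pow J hJ
  exact exists_poly_sub_mem t H.surj H.loc H.t_mem hn (H.tan J hJ) b

lemma Hyp.map_polyIdeal_le (H : Hyp 𝒪 𝔐 𝓚 t) :
    (polyIdeal 𝒪 d).map (MvPolynomial.aeval t : MvPolynomial (Fin d) 𝒪 →ₐ[𝒪] B) ≤ 𝔐 := by
  rw [map_aeval_polyIdeal]
  refine sup_le (Ideal.map_le_iff_le_comap.mpr fun a ha => H.loc a ha) (Ideal.span_le.mpr ?_)
  rintro _ ⟨i, rfl⟩; exact H.t_mem i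

lemma Hyp.le_of_comap_le (H : Hyp 𝒪 𝔐 𝓚 t) {J J' : Ideal B} (hJ : J ∈ 𝓚) (hJ' : J' ∈ 𝓚)
    (h : J.comap (MvPolynomial.aeval t : MvPolynomial (Fin d) 𝒪 →ₐ[𝒪] B) ≤
      J'.comap (MvPolynomial.aeval t : MvPolynomial (Fin d) 𝒪 →ₐ[𝒪] B)) : J ≤ J' := by
  intro b hb
  obtain ⟨p, hp⟩ := H.exists_poly (H.inf J hJ J' hJ') b
  have h1 : MvPolynomial.aeval t p ∈ J := by
    have := J.sub_mem hb hp.1
    simpa using this
  have h2 : MvPolynomial.aeval t p ∈ J' := h h1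
  have := J'.add_mem hp.2 h2
  simpa using this

lemma Hyp.exists_least [IsNoetherianRing 𝒪] [Finite (ResidueField 𝒪)] (H : Hyp 𝒪 𝔐 𝓚 t) (n : ℕ) :
    ∃ J ∈ 𝓚, 𝔐 ^ (n + 1) ≤ J ∧ ∀ J' ∈ 𝓚, 𝔐 ^ (n + 1) ≤ J' → J ≤ J' := by
  set s : Set (Ideal B) := {J | J ∈ 𝓚 ∧ 𝔐 ^ (n + 1) ≤ J} with hs
  have hne : s.Nonempty := ⟨𝔐, H.mem, Ideal.pow_le_self (Nat.succ_ne_zero n)⟩
  have hfin : ((Ideal.comap (MvPolynomial.aeval t : MvPolynomial (Fin d) 𝒪 →ₐ[𝒪] B)) '' s).Finite := by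
    refine (finite_Ici_polyIdeal_pow (𝒪 := 𝒪) (d := d) (n + 1)).subset ?_
    rintro _ ⟨J, ⟨-, hJ⟩, rfl⟩
    rw [Set.mem_Ici, ← Ideal.map_le_iff_le_comap, Ideal.map_pow]
    exact (Ideal.pow_right_mono H.map_polyIdeal_le _).trans hJ
  obtain ⟨J, ⟨hJ𝓚, hJpow⟩, hmin⟩ := Set.Finite.exists_minimalFor' _ s hfin hne
  refine ⟨J, hJ𝓚, hJpow, fun J' hJ' hJ'pow => ?_⟩
  have h1 : J ⊓ J' ∈ s := ⟨H.inf J hJ𝓚 J' hJ', le_inf hJpow hJ'pow⟩
  have h2 := hmin h1 (Ideal.comap_mono inf_le_left)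
  exact H.le_of_comap_le hJ𝓚 hJ' (h2.trans (Ideal.comap_mono inf_le_right))

/-- the least element of `𝓚` containing `𝔐 ^ (n + 1)` -/
noncomputable def Hyp.level [IsNoetherianRing 𝒪] [Finite (ResidueField 𝒪)] (H : Hyp 𝒪 𝔐 𝓚 t)
    (n : ℕ) : Ideal B := (H.exists_least n).choose

section level

variable [IsNoetherianRing 𝒪] [Finite (ResidueField 𝒪)] (H : Hyp 𝒪 𝔐 𝓚 t)

lemma Hyp.level_mem (n : ℕ) : H.level n ∈ 𝓚 := (H.exists_least n).choose_spec.1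

lemma Hyp.pow_le_level (n : ℕ) : 𝔐 ^ (n + 1) ≤ H.level n := (H.exists_least n).choose_spec.2.1

lemma Hyp.level_le (n : ℕ) {J : Ideal B} (hJ : J ∈ 𝓚) (h : 𝔐 ^ (n + 1) ≤ J) : H.level n ≤ J :=
  (H.exists_least n).choose_spec.2.2 J hJ h

lemma Hyp.level_le_aug (n : ℕ) : H.level n ≤ 𝔐 := H.le _ (H.level_mem n)

lemma Hyp.level_succ_le (n : ℕ) : H.level (n + 1) ≤ H.level n :=
  H.level_le _ (H.level_mem n) ((Ideal.pow_le_pow_right (Nat.le_succ _)).trans (H.pow_le_level n))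

lemma Hyp.level_antitone : Antitone H.level := antitone_nat_of_succ_le H.level_succ_le

lemma Hyp.level_le_sup (n : ℕ) : H.level n ≤ H.level (n + 1) ⊔ 𝔐 ^ (n + 1) :=
  H.level_le n (H.up _ (H.level_mem (n + 1)) _ le_sup_left
    (sup_le (H.level_le_aug _) (Ideal.pow_le_self (Nat.succ_ne_zero n)))) le_sup_right

lemma Hyp.level_zero : H.level 0 = 𝔐 :=
  le_antisymm (H.level_le_aug 0) (by simpa using H.pow_le_level 0)

end level

section ev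

lemma Hyp.aeval_mem_pow (H : Hyp 𝒪 𝔐 𝓚 t) {n : ℕ} {p : MvPolynomial (Fin d) 𝒪}
    (hp : p ∈ MvPolynomial.idealOfVars (Fin d) 𝒪 ^ n) : MvPolynomial.aeval t p ∈ 𝔐 ^ n := by
  have h1 : (MvPolynomial.idealOfVars (Fin d) 𝒪).map
      (MvPolynomial.aeval t : MvPolynomial (Fin d) 𝒪 →ₐ[𝒪] B) ≤ 𝔐 := by
    rw [Ideal.map_span, Ideal.span_le]
    rintro _ ⟨_, ⟨i, rfl⟩, rfl⟩
    simpa using H.t_mem i
  have h2 := Ideal.mem_map_of_mem (MvPolynomial.aeval t : MvPolynomial (Fin d) 𝒪 →ₐ[𝒪] B) hp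
  rw [Ideal.map_pow] at h2
  exact Ideal.pow_right_mono h1 n h2

/-- evaluation `𝒪⟦X⟧ → B ⧸ J` at `t`, when `𝔐 ^ n ≤ J` -/
noncomputable def Hyp.ev (H : Hyp 𝒪 𝔐 𝓚 t) (J : Ideal B) (n : ℕ) (h : 𝔐 ^ n ≤ J) :
    MvPowerSeries (Fin d) 𝒪 →ₐ[𝒪] B ⧸ J :=
  (Ideal.Quotient.liftₐ (MvPolynomial.idealOfVars (Fin d) 𝒪 ^ n)
      ((Ideal.Quotient.mkₐ 𝒪 J).comp (MvPolynomial.aeval t))
      (fun _ hp => Ideal.Quotient.eq_zero_iff_mem.mpr (h (H.aeval_mem_pow hp)))).comp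
    ((MvPowerSeries.truncTotalAlgHom (Fin d) 𝒪 n).restrictScalars 𝒪)

lemma Hyp.ev_apply (H : Hyp 𝒪 𝔐 𝓚 t) (J : Ideal B) (n : ℕ) (h : 𝔐 ^ n ≤ J)
    (f : MvPowerSeries (Fin d) 𝒪) :
    H.ev J n h f = Ideal.Quotient.mk J (MvPolynomial.aeval t (MvPowerSeries.truncTotal n f)) := by
  rfl

lemma Hyp.ev_coe (H : Hyp 𝒪 𝔐 𝓚 t) (J : Ideal B) (n : ℕ) (h : 𝔐 ^ n ≤ J)
    (p : MvPolynomial (Fin d) 𝒪) :
    H.ev J n h (p : MvPowerSeries (Fin d) 𝒪) = Ideal.Quotient.mk J (MvPolynomial.aeval t p) := by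
  rw [H.ev_apply, Ideal.Quotient.mk_eq_mk_iff_sub_mem, ← map_sub]
  refine h (H.aeval_mem_pow ?_)
  rw [MvPolynomial.mem_pow_idealOfVars_iff']
  intro x hx
  rw [MvPolynomial.coeff_sub, sub_eq_zero, MvPowerSeries.coeff_truncTotal _ hx,
    MvPolynomial.coeff_coe]

end ev


section evn

variable [IsNoetherianRing 𝒪] [Finite (ResidueField 𝒪)] (H : Hyp 𝒪 𝔐 𝓚 t)

/-- evaluation `𝒪⟦X⟧ → B ⧸ J_n` -/
noncomputable def Hyp.evn (n : ℕ) : MvPowerSeries (Fin d) 𝒪 →ₐ[𝒪] B ⧸ H.level n :=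
  H.ev (H.level n) (n + 1) (H.pow_le_level n)

lemma Hyp.evn_apply (n : ℕ) (f : MvPowerSeries (Fin d) 𝒪) :
    H.evn n f = Ideal.Quotient.mk (H.level n)
      (MvPolynomial.aeval t (MvPowerSeries.truncTotal (n + 1) f)) := rfl

lemma Hyp.evn_surjective (n : ℕ) : Function.Surjective (H.evn n) := by
  intro x
  obtain ⟨b, rfl⟩ := Ideal.Quotient.mk_surjective x
  obtain ⟨p, hp⟩ := H.exists_poly (H.level_mem n) b
  refine ⟨(p : MvPowerSeries (Fin d) 𝒪), ?_⟩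
  rw [Hyp.evn, H.ev_coe, Ideal.Quotient.mk_eq_mk_iff_sub_mem]
  have := (H.level n).neg_mem hp
  simpa using this

lemma Hyp.evn_eq_mk_of_le {m m' : ℕ} (h : m ≤ m') {f : MvPowerSeries (Fin d) 𝒪} {c : B}
    (hf : H.evn m' f = Ideal.Quotient.mk _ c) : H.evn m f = Ideal.Quotient.mk _ c := by
  rw [H.evn_apply, Ideal.Quotient.mk_eq_mk_iff_sub_mem] at hf ⊢
  have h1 := H.level_antitone h hf
  have h2 : MvPolynomial.aeval t (MvPowerSeries.truncTotal (m + 1) f -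
      MvPowerSeries.truncTotal (m' + 1) f) ∈ H.level m :=
    H.pow_le_level m (H.aeval_mem_pow
      (MvPowerSeries.truncTotal_sub_truncTotal_mem_pow_idealOfVars le_rfl (by omega) f))
  have := (H.level m).add_mem h1 h2
  rw [map_sub] at this
  convert this using 1
  ring

lemma Hyp.map_mk_aug_ne_top (n : ℕ) : 𝔐.map (Ideal.Quotient.mk (H.level n)) ≠ ⊤ := by
  intro h
  have h1 : Ideal.Quotient.mk (H.level n) 1 ∈ 𝔐.map (Ideal.Quotient.mk (H.level n)) := by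
    rw [h]; trivial
  rw [Ideal.mem_quotient_iff_mem_sup, sup_eq_left.mpr (H.level_le_aug n)] at h1
  exact H.ne_top ((Ideal.eq_top_iff_one _).mpr h1)

lemma Hyp.comap_evn (n : ℕ) : (𝔐.map (Ideal.Quotient.mk (H.level n))).comap (H.evn n) =
    maximalIdeal (MvPowerSeries (Fin d) 𝒪) := by
  have hmax : 𝔐.IsMaximal := isMaximal_of_aug H.ne_top H.surj H.loc
  have h1 : (𝔐.map (Ideal.Quotient.mk (H.level n))).IsMaximal :=
    (Ideal.map_eq_top_or_isMaximal_of_surjective _ Ideal.Quotient.mk_surjective hmax).resolve_left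
      (H.map_mk_aug_ne_top n)
  exact IsLocalRing.eq_maximalIdeal (Ideal.comap_isMaximal_of_surjective _ (H.evn_surjective n))

lemma Hyp.map_evn_maximalIdeal (n : ℕ) : (maximalIdeal (MvPowerSeries (Fin d) 𝒪)).map (H.evn n) =
    𝔐.map (Ideal.Quotient.mk (H.level n)) := by
  rw [← H.comap_evn n, Ideal.map_comap_of_surjective _ (H.evn_surjective n)]

lemma Hyp.map_evn_maximalIdeal_pow (n k : ℕ) :
    (maximalIdeal (MvPowerSeries (Fin d) 𝒪) ^ k).map (H.evn n) =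
    (𝔐 ^ k).map (Ideal.Quotient.mk (H.level n)) := by
  rw [Ideal.map_pow, H.map_evn_maximalIdeal, Ideal.map_pow]

lemma Hyp.pow_le_ker_evn (n : ℕ) :
    maximalIdeal (MvPowerSeries (Fin d) 𝒪) ^ (n + 1) ≤ RingHom.ker (H.evn n) := by
  intro f hf
  have h1 := Ideal.mem_map_of_mem (H.evn n) hf
  rw [H.map_evn_maximalIdeal_pow, (Ideal.map_eq_bot_iff_le_ker _).mpr
    (by rw [Ideal.mk_ker]; exact H.pow_le_level n)] at h1
  exact h1

lemma Hyp.step (n : ℕ) (b : B) (g : MvPowerSeries (Fin d) 𝒪)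
    (hg : H.evn n g = Ideal.Quotient.mk _ b) :
    ∃ g' : MvPowerSeries (Fin d) 𝒪, H.evn (n + 1) g' = Ideal.Quotient.mk _ b ∧
      g' - g ∈ maximalIdeal (MvPowerSeries (Fin d) 𝒪) ^ (n + 1) := by
  obtain ⟨c, hc⟩ := Ideal.Quotient.mk_surjective (H.evn (n + 1) g)
  have h1 : H.evn n g = Ideal.Quotient.mk _ c := H.evn_eq_mk_of_le (Nat.le_succ n) hc.symm
  have h2 : b - c ∈ H.level n := by
    rw [← Ideal.Quotient.mk_eq_mk_iff_sub_mem, ← hg, h1]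
  obtain ⟨j, hj, e, he, hje⟩ := Submodule.mem_sup.mp (H.level_le_sup n h2)
  have h3 : Ideal.Quotient.mk (H.level (n + 1)) e ∈
      (maximalIdeal (MvPowerSeries (Fin d) 𝒪) ^ (n + 1)).map (H.evn (n + 1)) := by
    rw [H.map_evn_maximalIdeal_pow]
    exact Ideal.mem_map_of_mem _ he
  obtain ⟨u, hu, hue⟩ := (Ideal.mem_map_iff_of_surjective _ (H.evn_surjective (n + 1))).mp h3
  refine ⟨g + u, ?_, by simpa using hu⟩
  rw [map_add, hue, ← hc, ← map_add, Ideal.Quotient.mk_eq_mk_iff_sub_mem]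
  have : c + e - b = -j := by
    have : b = j + e + c := by rw [hje]; ring
    rw [this]; ring
  rw [this]
  exact (H.level (n + 1)).neg_mem hj


lemma Hyp.approx [IsAdicComplete (maximalIdeal 𝒪) 𝒪] (n : ℕ) (b : B)
    (g : MvPowerSeries (Fin d) 𝒪) (hg : H.evn n g = Ideal.Quotient.mk _ b) :
    ∃ g' : MvPowerSeries (Fin d) 𝒪, (∀ m, H.evn m g' = Ideal.Quotient.mk _ b) ∧
      g' - g ∈ maximalIdeal (MvPowerSeries (Fin d) 𝒪) ^ (n + 1) := by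
  have hcomp := isAdicComplete_mvPowerSeries_fin 𝒪 d
  choose! nxt hnxt1 hnxt2 using fun (k : ℕ) (x : MvPowerSeries (Fin d) 𝒪)
    (hx : H.evn (n + k) x = Ideal.Quotient.mk _ b) => H.step (n + k) b x hx
  let F : ℕ → MvPowerSeries (Fin d) 𝒪 := fun k => Nat.rec g (fun k x => nxt k x) k
  have hF0 : F 0 = g := rfl
  have hFs : ∀ k, F (k + 1) = nxt k (F k) := fun k => rfl
  have hF : ∀ k, H.evn (n + k) (F k) = Ideal.Quotient.mk _ b := by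
    intro k
    induction k with
    | zero => exact hg
    | succ k ih => rw [hFs]; exact hnxt1 k _ ih
  have hd : ∀ i j, i ≤ j →
      F j - F i ∈ maximalIdeal (MvPowerSeries (Fin d) 𝒪) ^ (n + i + 1) := by
    intro i j hij
    induction j, hij using Nat.le_induction with
    | base => simp
    | succ j hij ih =>
      have h1 : F (j + 1) - F j ∈ maximalIdeal (MvPowerSeries (Fin d) 𝒪) ^ (n + i + 1) := by
        rw [hFs]
        exact Ideal.pow_le_pow_right (by omega) (hnxt2 j _ (hF j))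
      have := Ideal.add_mem _ h1 ih
      simpa using this
  obtain ⟨L, hL⟩ := hcomp.toIsPrecomplete.prec (f := F) (by
    intro i j hij
    rw [SModEq.sub_mem, smul_eq_mul, Ideal.mul_top]
    have := neg_mem (Ideal.pow_le_pow_right (show i ≤ n + i + 1 by omega) (hd i j hij))
    simpa using this)
  have hL' : ∀ k, L - F k ∈ maximalIdeal (MvPowerSeries (Fin d) 𝒪) ^ k := by
    intro k
    have := hL k
    rw [SModEq.sub_mem, smul_eq_mul, Ideal.mul_top] at this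
    have := neg_mem this
    simpa using this
  refine ⟨L, fun m => ?_, ?_⟩
  · have h1 : H.evn m (F (m + 1)) = Ideal.Quotient.mk _ b :=
      H.evn_eq_mk_of_le (by omega) (hF (m + 1))
    have h2 : H.evn m (L - F (m + 1)) = 0 := H.pow_le_ker_evn m (hL' (m + 1))
    rw [map_sub, sub_eq_zero] at h2
    rw [h2, h1]
  · have h1 := hL' (n + 1)
    have h2 := hd 0 (n + 1) (Nat.zero_le _)
    rw [hF0, add_zero] at h2
    have := Ideal.add_mem _ h1 h2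
    simpa using this


/-- the kernel of `𝒪⟦X⟧ → lim B ⧸ J_n` -/
noncomputable def Hyp.kerInf : Ideal (MvPowerSeries (Fin d) 𝒪) := ⨅ n, RingHom.ker (H.evn n)

lemma Hyp.kerInf_le (n : ℕ) : H.kerInf ≤ RingHom.ker (H.evn n) := iInf_le _ n

lemma Hyp.mem_kerInf {f : MvPowerSeries (Fin d) 𝒪} : f ∈ H.kerInf ↔ ∀ n, H.evn n f = 0 := by
  simp [Hyp.kerInf, RingHom.mem_ker]

lemma Hyp.kerInf_ne_top : H.kerInf ≠ ⊤ := by
  intro h
  have h1 : (1 : MvPowerSeries (Fin d) 𝒪) ∈ H.kerInf := by rw [h]; trivial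
  have h2 := H.mem_kerInf.mp h1 0
  rw [map_one] at h2
  have h3 : (1 : B ⧸ H.level 0) ∈ 𝔐.map (Ideal.Quotient.mk (H.level 0)) := by
    rw [h2]; exact Ideal.zero_mem _
  exact H.map_mk_aug_ne_top 0 ((Ideal.eq_top_iff_one _).mpr h3)

lemma Hyp.ker_evn_le [IsAdicComplete (maximalIdeal 𝒪) 𝒪] (n : ℕ) :
    RingHom.ker (H.evn n) ≤ maximalIdeal (MvPowerSeries (Fin d) 𝒪) ^ (n + 1) ⊔ H.kerInf := by
  intro f hf
  obtain ⟨g', h1, h2⟩ := H.approx n 0 f (by rw [map_zero]; exact hf)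
  have h3 : g' ∈ H.kerInf := H.mem_kerInf.mpr (fun m => by rw [h1 m, map_zero])
  have : f = -(g' - f) + g' := by ring
  rw [this]
  exact Submodule.add_mem_sup (neg_mem h2) h3

/-- the limit ring -/
abbrev Hyp.R : Type := MvPowerSeries (Fin d) 𝒪 ⧸ H.kerInf

lemma Hyp.nontrivial_R : Nontrivial H.R := Ideal.Quotient.nontrivial_iff.mpr H.kerInf_ne_top

lemma Hyp.isLocalRing_R : IsLocalRing H.R :=
  have := H.nontrivial_R
  IsLocalRing.of_surjective' (Ideal.Quotient.mk H.kerInf) Ideal.Quotient.mk_surjective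

/-- the projections `R → B ⧸ J_n` -/
noncomputable def Hyp.evR (n : ℕ) : H.R →ₐ[𝒪] B ⧸ H.level n :=
  Ideal.Quotient.liftₐ H.kerInf (H.evn n) (fun _ ha => H.kerInf_le n ha)

lemma Hyp.evR_mk (n : ℕ) (f : MvPowerSeries (Fin d) 𝒪) :
    H.evR n (Ideal.Quotient.mk H.kerInf f) = H.evn n f := rfl

lemma Hyp.evR_ext {r r' : H.R} (h : ∀ n, H.evR n r = H.evR n r') : r = r' := by
  obtain ⟨f, rfl⟩ := Ideal.Quotient.mk_surjective r
  obtain ⟨f', rfl⟩ := Ideal.Quotient.mk_surjective r'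
  rw [Ideal.Quotient.mk_eq_mk_iff_sub_mem, H.mem_kerInf]
  intro n
  have := h n
  rw [H.evR_mk, H.evR_mk] at this
  rw [map_sub, this, sub_self]

lemma Hyp.exists_lift [IsAdicComplete (maximalIdeal 𝒪) 𝒪] (b : B) :
    ∃ r : H.R, ∀ n, H.evR n r = Ideal.Quotient.mk _ b := by
  obtain ⟨g, hg⟩ := H.evn_surjective 0 (Ideal.Quotient.mk _ b)
  obtain ⟨g', h1, -⟩ := H.approx 0 b g hg
  exact ⟨Ideal.Quotient.mk _ g', fun n => by rw [H.evR_mk, h1 n]⟩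

/-- the canonical map `B → R` -/
noncomputable def Hyp.ι [IsAdicComplete (maximalIdeal 𝒪) 𝒪] : B →ₐ[𝒪] H.R where
  toFun b := (H.exists_lift b).choose
  map_one' := H.evR_ext fun n => by rw [(H.exists_lift 1).choose_spec n, map_one, map_one]
  map_mul' b b' := H.evR_ext fun n => by
    rw [(H.exists_lift (b * b')).choose_spec n, map_mul, map_mul,
      (H.exists_lift b).choose_spec n, (H.exists_lift b').choose_spec n]
  map_zero' := H.evR_ext fun n => by rw [(H.exists_lift 0).choose_spec n, map_zero, map_zero]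
  map_add' b b' := H.evR_ext fun n => by
    rw [(H.exists_lift (b + b')).choose_spec n, map_add, map_add,
      (H.exists_lift b).choose_spec n, (H.exists_lift b').choose_spec n]
  commutes' a := H.evR_ext fun n => by
    rw [(H.exists_lift (algebraMap 𝒪 B a)).choose_spec n, AlgHom.commutes]; rfl

lemma Hyp.evR_ι [IsAdicComplete (maximalIdeal 𝒪) 𝒪] (n : ℕ) (b : B) :
    H.evR n (H.ι b) = Ideal.Quotient.mk _ b := (H.exists_lift b).choose_spec n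

lemma Hyp.maximalIdeal_R :
    letI := H.isLocalRing_R
    maximalIdeal H.R = (maximalIdeal (MvPowerSeries (Fin d) 𝒪)).map (Ideal.Quotient.mk H.kerInf) := by
  let _ := H.isLocalRing_R
  symm
  refine IsLocalRing.eq_maximalIdeal
    ((Ideal.map_eq_top_or_isMaximal_of_surjective (Ideal.Quotient.mk H.kerInf)
      Ideal.Quotient.mk_surjective
      (maximalIdeal.isMaximal (MvPowerSeries (Fin d) 𝒪))).resolve_left ?_)
  intro h
  have h1 : Ideal.Quotient.mk H.kerInf 1 ∈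
      (maximalIdeal (MvPowerSeries (Fin d) 𝒪)).map (Ideal.Quotient.mk H.kerInf) := by
    rw [h]; trivial
  rw [Ideal.mem_quotient_iff_mem_sup,
    sup_eq_left.mpr (IsLocalRing.le_maximalIdeal H.kerInf_ne_top)] at h1
  exact (Ideal.ne_top_iff_one _).mp (maximalIdeal.isMaximal _).ne_top h1

lemma Hyp.mem_maximalIdeal_pow_iff [IsAdicComplete (maximalIdeal 𝒪) 𝒪] (n : ℕ) (r : H.R) :
    letI := H.isLocalRing_R
    r ∈ maximalIdeal H.R ^ (n + 1) ↔ H.evR n r = 0 := by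
  let _ := H.isLocalRing_R
  obtain ⟨f, rfl⟩ := Ideal.Quotient.mk_surjective r
  rw [H.maximalIdeal_R, ← Ideal.map_pow, Ideal.mem_quotient_iff_mem_sup, H.evR_mk]
  constructor
  · intro h
    exact (sup_le (H.pow_le_ker_evn n) (H.kerInf_le n)) h
  · intro h
    exact H.ker_evn_le n h


lemma Hyp.comap_ι [IsAdicComplete (maximalIdeal 𝒪) 𝒪] (n : ℕ) :
    letI := H.isLocalRing_R
    (maximalIdeal H.R ^ (n + 1)).comap H.ι = H.level n := by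
  let _ := H.isLocalRing_R
  ext b
  rw [Ideal.mem_comap, H.mem_maximalIdeal_pow_iff, H.evR_ι, Ideal.Quotient.eq_zero_iff_mem]

lemma Hyp.isLocalHom_mk :
    letI := H.isLocalRing_R
    IsLocalHom (algebraMap (MvPowerSeries (Fin d) 𝒪) H.R) := by
  let _ := H.isLocalRing_R
  refine ⟨fun f hf => ?_⟩
  by_contra hnu
  have h1 : f ∈ maximalIdeal (MvPowerSeries (Fin d) 𝒪) := (mem_maximalIdeal f).mpr hnu
  have h2 : algebraMap (MvPowerSeries (Fin d) 𝒪) H.R f ∈ maximalIdeal H.R := by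
    rw [H.maximalIdeal_R]
    exact Ideal.mem_map_of_mem _ h1
  exact (mem_maximalIdeal _).mp h2 hf

lemma Hyp.isAdicComplete_R [IsAdicComplete (maximalIdeal 𝒪) 𝒪] :
    letI := H.isLocalRing_R
    IsAdicComplete (maximalIdeal H.R) H.R := by
  let _ := H.isLocalRing_R
  have := isAdicComplete_mvPowerSeries_fin 𝒪 d
  have := H.isLocalHom_mk
  exact IsLocalRing.isAdicComplete_of_module_finite (𝒪 := MvPowerSeries (Fin d) 𝒪) (T := H.R)

lemma Hyp.algebraMap_mem_maximalIdeal [IsAdicComplete (maximalIdeal 𝒪) 𝒪] {b : B} (hb : b ∈ 𝔐) :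
    letI := H.isLocalRing_R
    H.ι b ∈ maximalIdeal H.R := by
  let _ := H.isLocalRing_R
  have : b ∈ (maximalIdeal H.R ^ (0 + 1)).comap H.ι := by
    rw [H.comap_ι 0, H.level_zero]; exact hb
  simpa using this

end evn

end Setting

end RingLimit

/-- The output of the abstract ring-limit lemma. -/
structure LimitRing (𝒪 : Type) [CommRing 𝒪] [IsLocalRing 𝒪] (B : Type) [CommRing B] [Algebra 𝒪 B]
    (𝓚 : Set (Ideal B)) : Type 1 where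
  R : Type
  [instCommRing : CommRing R]
  [instIsLocalRing : IsLocalRing R]
  [instIsNoetherianRing : IsNoetherianRing R]
  [instIsAdicComplete : IsAdicComplete (maximalIdeal R) R]
  [instAlgebra : Algebra 𝒪 R]
  [instIsLocalHom : IsLocalHom (algebraMap 𝒪 R)]
  residue_surjective : Function.Surjective (IsLocalRing.residue R ∘ algebraMap 𝒪 R)
  ι : B →ₐ[𝒪] R
  comap_mem : ∀ n : ℕ, (maximalIdeal R ^ (n + 1)).comap ι ∈ 𝓚
  dense : ∀ (n : ℕ) (x : R), ∃ b : B, x - ι b ∈ maximalIdeal R ^ n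
  cofinal : ∀ J ∈ 𝓚, ∃ n : ℕ, (maximalIdeal R ^ n).comap ι ≤ J

attribute [instance] LimitRing.instCommRing LimitRing.instIsLocalRing
  LimitRing.instIsNoetherianRing LimitRing.instIsAdicComplete LimitRing.instAlgebra
  LimitRing.instIsLocalHom

theorem exists_limitRing {𝒪 : Type} [CommRing 𝒪] [IsLocalRing 𝒪] [IsNoetherianRing 𝒪]
    [IsAdicComplete (maximalIdeal 𝒪) 𝒪] [Finite (ResidueField 𝒪)]
    {B : Type} [CommRing B] [Algebra 𝒪 B] (𝔐 : Ideal B) (𝓚 : Set (Ideal B))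
    (h𝔐 : 𝔐 ≠ ⊤)
    (hsurj : ∀ b : B, ∃ a : 𝒪, b - algebraMap 𝒪 B a ∈ 𝔐)
    (hloc : ∀ a ∈ maximalIdeal 𝒪, algebraMap 𝒪 B a ∈ 𝔐)
    (hmem : 𝔐 ∈ 𝓚)
    (hle : ∀ J ∈ 𝓚, J ≤ 𝔐)
    (hpow : ∀ J ∈ 𝓚, ∃ n : ℕ, 𝔐 ^ n ≤ J)
    (hinf : ∀ J ∈ 𝓚, ∀ J' ∈ 𝓚, J ⊓ J' ∈ 𝓚)
    (hup : ∀ J ∈ 𝓚, ∀ J' : Ideal B, J ≤ J' → J' ≤ 𝔐 → J' ∈ 𝓚)
    {d : ℕ} (t : Fin d → B) (ht : ∀ i, t i ∈ 𝔐)
    (htan : ∀ J ∈ 𝓚, 𝔐 ≤ J ⊔ 𝔐 ^ 2 ⊔ (maximalIdeal 𝒪).map (algebraMap 𝒪 B) ⊔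
      Ideal.span (Set.range t)) :
    Nonempty (LimitRing 𝒪 B 𝓚) := by
  have H : RingLimit.Hyp 𝒪 𝔐 𝓚 t := ⟨h𝔐, hsurj, hloc, hmem, hle, hpow, hinf, hup, ht, htan⟩
  let _ := H.isLocalRing_R
  have := H.isAdicComplete_R
  have hdense : ∀ (n : ℕ) (x : H.R), ∃ b : B, x - H.ι b ∈ maximalIdeal H.R ^ n := by
    intro n x
    cases n with
    | zero => exact ⟨0, by simp⟩
    | succ n =>
      obtain ⟨b, hb⟩ := Ideal.Quotient.mk_surjective (H.evR n x)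
      refine ⟨b, ?_⟩
      rw [H.mem_maximalIdeal_pow_iff, map_sub, H.evR_ι, hb, sub_self]
  have : IsLocalHom (algebraMap 𝒪 H.R) := by
    refine ⟨fun a ha => ?_⟩
    by_contra hnu
    have h1 := H.algebraMap_mem_maximalIdeal (hloc a ((mem_maximalIdeal a).mpr hnu))
    rw [AlgHom.commutes] at h1
    exact (mem_maximalIdeal _).mp h1 ha
  refine ⟨{ R := H.R, ι := H.ι, residue_surjective := ?_, comap_mem := ?_, dense := hdense,
            cofinal := ?_ }⟩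
  · intro x
    obtain ⟨r, rfl⟩ := IsLocalRing.residue_surjective x
    obtain ⟨b, hb⟩ := hdense 1 r
    obtain ⟨a, ha⟩ := hsurj b
    refine ⟨a, ?_⟩
    have h1 := H.algebraMap_mem_maximalIdeal ha
    rw [map_sub, AlgHom.commutes] at h1
    rw [pow_one] at hb
    have h2 := Ideal.add_mem _ hb h1
    rw [sub_add_sub_cancel] at h2
    rw [Function.comp_apply, eq_comm, ← sub_eq_zero, ← map_sub, IsLocalRing.residue_eq_zero_iff]
    exact h2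
  · intro n
    rw [H.comap_ι]
    exact H.level_mem n
  · intro J hJ
    obtain ⟨n, hn⟩ := hpow J hJ
    refine ⟨n + 1, ?_⟩
    rw [H.comap_ι]
    exact H.level_le n hJ ((Ideal.pow_le_pow_right (Nat.le_succ n)).trans hn)

end Fermat.Agent.S53
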