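import Fermat.Agent.S53.TestAlg
import Fermat.Agent.S53.LevelMin
import Fermat.Agent.S53.RingLimit

/-!
# S53: abstract representability of a rigid functor
-/

set_option autoImplicit false
set_option linter.style.haveILetI false
set_option linter.unusedSectionVars false

namespace Fermat.Agent.S53

namespace AbstractRep

open IsLocalRing GaloisRep MvPolynomial

variable {𝒪 : Type} [CommRing 𝒪] [IsLocalRing 𝒪] {X : Type} (x0 : X → 𝒪)

/-- the augmentation `𝒪[X] → k` given by the base point -/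
noncomputable def aug : MvPolynomial X 𝒪 →ₐ[𝒪] ResidueField 𝒪 :=
  aeval (fun i => IsLocalRing.residue 𝒪 (x0 i))

lemma isAug_ker_aug : IsAug 𝒪 (RingHom.ker (aug x0)) where
  ne_top := RingHom.ker_ne_top _
  surj b := by
    obtain ⟨a, ha⟩ := IsLocalRing.residue_surjective (aug x0 b)
    refine ⟨a, ?_⟩
    rw [RingHom.mem_ker, map_sub, AlgHom.commutes, IsLocalRing.ResidueField.algebraMap_eq, ha,
      sub_self]
  loc a ha := by
    rw [RingHom.mem_ker, AlgHom.commutes, IsLocalRing.ResidueField.algebraMap_eq]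
    exact (IsLocalRing.residue_eq_zero_iff a).mpr ha

variable (𝓕 : ∀ ⦃A : Type⦄ [CommRing A] [IsLocalRing A] [Algebra 𝒪 A], (X → A) → Prop)

/-- the family of ideals `J` of `𝒪[X]` such that the tautological point of `𝒪[X]/J` is a point -/
def KK : Set (Ideal (MvPolynomial X 𝒪)) :=
  {J | ∃ hJ : IsAdm (RingHom.ker (aug x0)) J,
    @𝓕 (MvPolynomial X 𝒪 ⧸ J) _ ((isAug_ker_aug x0).isLocalRing hJ.le hJ.pow) _
      (fun i => Ideal.Quotient.mk J (MvPolynomial.X i))}

variable {x0 𝓕}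

section Points

variable (h : IsRigidFunctor 𝒪 X x0 𝓕)
include h

/-- `aeval x` pulls the maximal ideal back to the augmentation ideal. -/
lemma aeval_mem_maximalIdeal_iff {A : Type} [CommRing A] [IsLocalRing A] [Algebra 𝒪 A]
    (hA : IsArtinianTestAlgebra 𝒪 A) {x : X → A} (hx : 𝓕 x) (b : MvPolynomial X 𝒪) :
    aeval x b ∈ maximalIdeal A ↔ b ∈ RingHom.ker (aug x0) := by
  haveI := hA.isLocalHom
  have key : ((IsLocalRing.residue A).comp (aeval x : MvPolynomial X 𝒪 →ₐ[𝒪] A).toRingHom) =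
      (IsLocalRing.ResidueField.map (algebraMap 𝒪 A)).comp (aug x0).toRingHom := by
    apply MvPolynomial.ringHom_ext
    · intro c
      simp [aug, IsLocalRing.ResidueField.algebraMap_eq]
    · intro i
      have := h.base hA x hx i
      rw [← IsLocalRing.residue_eq_zero_iff, map_sub, sub_eq_zero] at this
      simp [aug, this]
  have key' := congrArg (fun f => f b) key
  simp only [RingHom.comp_apply] at key'
  rw [← IsLocalRing.residue_eq_zero_iff, RingHom.mem_ker]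
  constructor
  · intro h0
    have h1 : (IsLocalRing.ResidueField.map (algebraMap 𝒪 A)) (aug x0 b) = 0 := by
      rw [← h0]; exact key'.symm
    exact (map_eq_zero _).mp h1
  · intro h0
    have h1 : (IsLocalRing.residue A) (aeval x b) =
      (IsLocalRing.ResidueField.map (algebraMap 𝒪 A)) (aug x0 b) := key'
    rw [h1, h0, map_zero]

/-- The kernel of a point is in `KK`. -/
lemma ker_aeval_mem_KK [Finite (ResidueField 𝒪)] {A : Type} [CommRing A] [IsLocalRing A]
    [Algebra 𝒪 A] (hA : IsArtinianTestAlgebra 𝒪 A) {x : X → A} (hx : 𝓕 x) :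
    RingHom.ker (aeval x : MvPolynomial X 𝒪 →ₐ[𝒪] A) ∈ KK x0 𝓕 := by
  have hadm : IsAdm (RingHom.ker (aug x0)) (RingHom.ker (aeval x : MvPolynomial X 𝒪 →ₐ[𝒪] A)) := by
    refine ⟨?_, ?_, ?_⟩
    · intro b hb
      rw [← aeval_mem_maximalIdeal_iff h hA hx, (RingHom.mem_ker).mp hb]
      exact zero_mem _
    · obtain ⟨n, hn⟩ := testAlg_exists_pow_eq_bot hA
      refine ⟨n, ?_⟩
      have h1 : (RingHom.ker (aug x0)).map (aeval x : MvPolynomial X 𝒪 →ₐ[𝒪] A).toRingHom ≤
          maximalIdeal A := by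
        rw [Ideal.map_le_iff_le_comap]
        intro b hb
        exact (aeval_mem_maximalIdeal_iff h hA hx b).mpr hb
      intro b hb
      have h2 : (aeval x : MvPolynomial X 𝒪 →ₐ[𝒪] A).toRingHom b ∈ maximalIdeal A ^ n := by
        have := Ideal.mem_map_of_mem (aeval x : MvPolynomial X 𝒪 →ₐ[𝒪] A).toRingHom hb
        rw [Ideal.map_pow] at this
        exact Ideal.pow_right_mono h1 n this
      rw [hn] at h2
      exact h2
    · haveI := testAlg_finite hA
      exact Finite.of_injective _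
        (RingHom.kerLift_injective (aeval x : MvPolynomial X 𝒪 →ₐ[𝒪] A).toRingHom)
  refine ⟨hadm, ?_⟩
  haveI := (isAug_ker_aug x0).isLocalRing hadm.le hadm.pow
  refine h.descend ((isAug_ker_aug x0).testAlg hadm) hA
    (Ideal.kerLiftAlg (aeval x : MvPolynomial X 𝒪 →ₐ[𝒪] A)) (Ideal.kerLiftAlg_injective _) _ ?_
  have : (Ideal.kerLiftAlg (aeval x : MvPolynomial X 𝒪 →ₐ[𝒪] A)) ∘
      (fun i => Ideal.Quotient.mk _ (MvPolynomial.X i)) = x := by
    funext i
    simp
  rw [this]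
  exact hx

/-- Any algebra hom out of `𝒪[X]` killing some `J ∈ KK` gives a point. -/
lemma point_of_le_ker {J : Ideal (MvPolynomial X 𝒪)} (hJ : J ∈ KK x0 𝓕)
    {A : Type} [CommRing A] [IsLocalRing A] [Algebra 𝒪 A] (hA : IsArtinianTestAlgebra 𝒪 A)
    (f : MvPolynomial X 𝒪 →ₐ[𝒪] A) (hf : J ≤ RingHom.ker f) :
    𝓕 (fun i => f (MvPolynomial.X i)) := by
  obtain ⟨hadm, hpt⟩ := hJ
  haveI := (isAug_ker_aug x0).isLocalRing hadm.le hadm.pow
  have := h.map ((isAug_ker_aug x0).testAlg hadm) hA (Ideal.Quotient.liftₐ J f (fun a ha => hf ha))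
    _ hpt
  exact this

lemma KK_le {J : Ideal (MvPolynomial X 𝒪)} (hJ : J ∈ KK x0 𝓕) : J ≤ RingHom.ker (aug x0) :=
  hJ.1.le

lemma KK_pow {J : Ideal (MvPolynomial X 𝒪)} (hJ : J ∈ KK x0 𝓕) :
    ∃ n : ℕ, RingHom.ker (aug x0) ^ n ≤ J :=
  hJ.1.pow

lemma KK_up {J : Ideal (MvPolynomial X 𝒪)} (hJ : J ∈ KK x0 𝓕) (J' : Ideal (MvPolynomial X 𝒪))
    (hJJ' : J ≤ J') (hJ' : J' ≤ RingHom.ker (aug x0)) : J' ∈ KK x0 𝓕 := by
  have hadm : IsAdm (RingHom.ker (aug x0)) J' := by
    refine ⟨hJ', ?_, ?_⟩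
    · obtain ⟨n, hn⟩ := hJ.1.pow
      exact ⟨n, hn.trans hJJ'⟩
    · haveI := hJ.1.fin
      exact Finite.of_surjective _ (Ideal.Quotient.factor_surjective hJJ')
  refine ⟨hadm, ?_⟩
  haveI := (isAug_ker_aug x0).isLocalRing hadm.le hadm.pow
  refine point_of_le_ker h hJ ((isAug_ker_aug x0).testAlg hadm) (Ideal.Quotient.mkₐ 𝒪 J') ?_
  intro b hb
  rw [RingHom.mem_ker]
  exact Ideal.Quotient.eq_zero_iff_mem.mpr (hJJ' hb)

lemma KK_inf {J J' : Ideal (MvPolynomial X 𝒪)} (hJ : J ∈ KK x0 𝓕) (hJ' : J' ∈ KK x0 𝓕) :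
    J ⊓ J' ∈ KK x0 𝓕 := by
  have hadm : IsAdm (RingHom.ker (aug x0)) (J ⊓ J') := by
    refine ⟨inf_le_left.trans hJ.1.le, ?_, ?_⟩
    · obtain ⟨n, hn⟩ := hJ.1.pow
      obtain ⟨n', hn'⟩ := hJ'.1.pow
      exact ⟨max n n', le_inf ((Ideal.pow_le_pow_right (le_max_left _ _)).trans hn)
        ((Ideal.pow_le_pow_right (le_max_right _ _)).trans hn')⟩
    · haveI := hJ.1.fin
      haveI := hJ'.1.fin
      refine Finite.of_injective (fun z => (Ideal.Quotient.factor (inf_le_left : J ⊓ J' ≤ J) z,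
        Ideal.Quotient.factor (inf_le_right : J ⊓ J' ≤ J') z)) ?_
      intro z w hzw
      obtain ⟨z, rfl⟩ := Ideal.Quotient.mk_surjective z
      obtain ⟨w, rfl⟩ := Ideal.Quotient.mk_surjective w
      simp only [Ideal.Quotient.factor_mk, Prod.mk.injEq, Ideal.Quotient.eq] at hzw
      rw [Ideal.Quotient.eq]
      exact hzw
  have hadmC : IsAdm (RingHom.ker (aug x0)) (J ⊔ J') := by
    refine ⟨sup_le hJ.1.le hJ'.1.le, ?_, ?_⟩
    · obtain ⟨n, hn⟩ := hJ.1.pow
      exact ⟨n, hn.trans le_sup_left⟩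
    · haveI := hJ.1.fin
      exact Finite.of_surjective _ (Ideal.Quotient.factor_surjective (le_sup_left : J ≤ J ⊔ J'))
  refine ⟨hadm, ?_⟩
  obtain ⟨hadmA, hptA⟩ := hJ
  obtain ⟨hadmB, hptB⟩ := hJ'
  haveI := (isAug_ker_aug x0).isLocalRing hadm.le hadm.pow
  haveI := (isAug_ker_aug x0).isLocalRing hadmA.le hadmA.pow
  haveI := (isAug_ker_aug x0).isLocalRing hadmB.le hadmB.pow
  haveI := (isAug_ker_aug x0).isLocalRing hadmC.le hadmC.pow
  refine h.fibre ((isAug_ker_aug x0).testAlg hadmA) ((isAug_ker_aug x0).testAlg hadmB)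
    ((isAug_ker_aug x0).testAlg hadmC) ((isAug_ker_aug x0).testAlg hadm)
    (Ideal.Quotient.factorₐ 𝒪 (le_sup_left : J ≤ J ⊔ J'))
    (Ideal.Quotient.factorₐ 𝒪 (le_sup_right : J' ≤ J ⊔ J'))
    (Ideal.Quotient.factorₐ 𝒪 (inf_le_left : J ⊓ J' ≤ J))
    (Ideal.Quotient.factorₐ 𝒪 (inf_le_right : J ⊓ J' ≤ J')) ?_ ?_ ?_ _ hptA hptB
  · apply AlgHom.ext
    intro z
    obtain ⟨z, rfl⟩ := Ideal.Quotient.mk_surjective z
    rfl
  · intro z w hzw
    obtain ⟨z, rfl⟩ := Ideal.Quotient.mk_surjective z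
    obtain ⟨w, rfl⟩ := Ideal.Quotient.mk_surjective w
    have h1 : Ideal.Quotient.mk J z = Ideal.Quotient.mk J w := congrArg Prod.fst hzw
    have h2 : Ideal.Quotient.mk J' z = Ideal.Quotient.mk J' w := congrArg Prod.snd hzw
    rw [Ideal.Quotient.eq] at h1 h2 ⊢
    exact ⟨h1, h2⟩
  · intro a b hab
    obtain ⟨u, rfl⟩ := Ideal.Quotient.mk_surjective a
    obtain ⟨v, rfl⟩ := Ideal.Quotient.mk_surjective b
    have h1 : Ideal.Quotient.mk (J ⊔ J') u = Ideal.Quotient.mk (J ⊔ J') v := hab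
    rw [Ideal.Quotient.eq, Submodule.mem_sup] at h1
    obtain ⟨j, hj, j', hj', hjj'⟩ := h1
    refine ⟨Ideal.Quotient.mk _ (u - j), ?_, ?_⟩
    · change Ideal.Quotient.mk J (u - j) = Ideal.Quotient.mk J u
      rw [Ideal.Quotient.eq]
      simpa using J.neg_mem hj
    · change Ideal.Quotient.mk J' (u - j) = Ideal.Quotient.mk J' v
      rw [Ideal.Quotient.eq]
      have : u - j - v = j' := by linear_combination -hjj'
      rw [this]
      exact hj'

lemma KK_mem [Finite (ResidueField 𝒪)] : RingHom.ker (aug x0) ∈ KK x0 𝓕 :=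
  ker_aeval_mem_KK h testAlg_residueField h.residue

lemma KK_tan [Finite (ResidueField 𝒪)] :
    Set.Finite {f : MvPolynomial X 𝒪 →+* DualNumber (ResidueField 𝒪) |
      (∀ c : 𝒪, f (algebraMap 𝒪 (MvPolynomial X 𝒪) c) =
        TrivSqZeroExt.inl (IsLocalRing.residue 𝒪 c)) ∧
      ∃ J ∈ KK x0 𝓕, J ≤ RingHom.ker f} := by
  letI := dualAlg 𝒪
  have hfin : Set.Finite {x : X → DualNumber (ResidueField 𝒪) | 𝓕 x} := h.tangent
  refine Set.Finite.of_finite_image (f := fun f i => f (MvPolynomial.X i)) (hfin.subset ?_) ?_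
  · rintro _ ⟨f, ⟨hf, J, hJ, hJf⟩, rfl⟩
    let f' : MvPolynomial X 𝒪 →ₐ[𝒪] DualNumber (ResidueField 𝒪) :=
      { f with commutes' := fun c => hf c }
    exact point_of_le_ker h hJ testAlg_dualNumber f' hJf
  · rintro f ⟨hf, -⟩ g ⟨hg, -⟩ hfg
    apply MvPolynomial.ringHom_ext
    · intro c
      have h1 := hf c
      have h2 := hg c
      rw [MvPolynomial.algebraMap_eq] at h1 h2
      rw [h1, h2]
    · intro i
      exact congrFun hfg i

end Points

section Generators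

variable {B : Type} [CommRing B] [Algebra 𝒪 B]

lemma exists_sub_mem_span {d : ℕ} (y : Fin d → B) (p : MvPolynomial (Fin d) 𝒪) :
    ∃ c : 𝒪, aeval y p - algebraMap 𝒪 B c ∈ Ideal.span (Set.range y) := by
  induction p using MvPolynomial.induction_on with
  | C a => exact ⟨a, by simp⟩
  | add p q hp hq =>
    obtain ⟨c, hc⟩ := hp
    obtain ⟨c', hc'⟩ := hq
    refine ⟨c + c', ?_⟩
    have := Ideal.add_mem _ hc hc'
    rw [map_add, map_add]
    convert this using 1
    ring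
  | mul_X p i _ =>
    refine ⟨0, ?_⟩
    rw [map_zero, sub_zero, map_mul, aeval_X]
    exact Ideal.mul_mem_left _ _ (Ideal.subset_span ⟨i, rfl⟩)

end Generators

section CNL

/-- the maximal ideal of a local `𝒪`-algebra with residue field `k` is an augmentation ideal -/
lemma isAug_maximalIdeal {A : Type} [CommRing A] [IsLocalRing A] [Algebra 𝒪 A]
    [IsLocalHom (algebraMap 𝒪 A)]
    (hres : Function.Surjective (IsLocalRing.residue A ∘ algebraMap 𝒪 A)) :
    IsAug 𝒪 (maximalIdeal A) where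
  ne_top := Ideal.IsPrime.ne_top inferInstance
  surj := exists_sub_mem_of_residue_surjective hres
  loc a ha := by
    rw [IsLocalRing.mem_maximalIdeal, mem_nonunits_iff] at ha ⊢
    exact fun hu => ha (isUnit_of_map_unit (algebraMap 𝒪 A) a hu)

lemma isAdm_maximalIdeal_pow [Finite (ResidueField 𝒪)] {A : Type} [CommRing A] [IsLocalRing A]
    [IsNoetherianRing A] [Algebra 𝒪 A] [IsLocalHom (algebraMap 𝒪 A)]
    (hres : Function.Surjective (IsLocalRing.residue A ∘ algebraMap 𝒪 A)) (n : ℕ) :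
    IsAdm (maximalIdeal A) (maximalIdeal A ^ (n + 1)) where
  le := Ideal.pow_le_self (by omega)
  pow := ⟨n + 1, le_rfl⟩
  fin := by
    haveI : Finite (A ⧸ maximalIdeal A) := by
      refine Finite.of_surjective (IsLocalRing.ResidueField.map (algebraMap 𝒪 A)) ?_
      intro y
      obtain ⟨c, hc⟩ := hres y
      exact ⟨IsLocalRing.residue 𝒪 c, hc⟩
    exact Ideal.finite_quotient_pow (IsNoetherian.noetherian (maximalIdeal A)) (n + 1)

lemma eq_of_forall_sub_mem_pow {A : Type} [CommRing A] (I : Ideal A) [IsHausdorff I A] {a b : A}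
    (hab : ∀ n : ℕ, a - b ∈ I ^ n) : a = b := by
  rw [← sub_eq_zero]
  apply IsHausdorff.haus (I := I) ‹_›
  intro n
  rw [SModEq.zero, smul_eq_mul, Ideal.mul_top]
  exact hab n

end CNL

section Limit

variable {B : Type} [CommRing B] [Algebra 𝒪 B] {𝓚 : Set (Ideal B)} (L : LimitRing 𝒪 B 𝓚)

lemma LimitRing_exists_lift {T : Type} [CommRing T] [Algebra 𝒪 T] (f : B →ₐ[𝒪] T) (N : ℕ)
    (hN : (maximalIdeal L.R ^ N).comap L.ι ≤ RingHom.ker f) :
    ∃ φ : L.R →ₐ[𝒪] T, φ.comp L.ι = f ∧ ∀ z ∈ maximalIdeal L.R ^ N, φ z = 0 := by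
  let g : B →ₐ[𝒪] L.R ⧸ maximalIdeal L.R ^ N := (Ideal.Quotient.mkₐ 𝒪 _).comp L.ι
  have hg : Function.Surjective g := by
    intro z
    obtain ⟨z, rfl⟩ := Ideal.Quotient.mk_surjective z
    obtain ⟨b, hb⟩ := L.dense N z
    refine ⟨b, ?_⟩
    change Ideal.Quotient.mk _ (L.ι b) = Ideal.Quotient.mk _ z
    rw [eq_comm, Ideal.Quotient.eq]
    exact hb
  have hker : RingHom.ker g.toRingHom ≤ RingHom.ker f.toRingHom := by
    intro b hb
    apply hN
    rw [Ideal.mem_comap]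
    exact Ideal.Quotient.eq_zero_iff_mem.mp hb
  refine ⟨(AlgHom.liftOfSurjective g hg f hker).comp (Ideal.Quotient.mkₐ 𝒪 _), ?_, ?_⟩
  · apply AlgHom.ext
    intro b
    exact AlgHom.liftOfSurjective_apply g hg f hker b
  · intro z hz
    have : Ideal.Quotient.mkₐ 𝒪 (maximalIdeal L.R ^ N) z = 0 :=
      Ideal.Quotient.eq_zero_iff_mem.mpr hz
    rw [AlgHom.comp_apply, this, map_zero]

lemma LimitRing_lift_unique {T : Type} [CommRing T] [Algebra 𝒪 T] (φ φ' : L.R →ₐ[𝒪] T)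
    (hφ : φ.comp L.ι = φ'.comp L.ι) {N N' : ℕ} (hN : ∀ z ∈ maximalIdeal L.R ^ N, φ z = 0)
    (hN' : ∀ z ∈ maximalIdeal L.R ^ N', φ' z = 0) : φ = φ' := by
  apply AlgHom.ext
  intro z
  obtain ⟨b, hb⟩ := L.dense (max N N') z
  have h1 : φ (z - L.ι b) = 0 := hN _ (Ideal.pow_le_pow_right (le_max_left _ _) hb)
  have h2 : φ' (z - L.ι b) = 0 := hN' _ (Ideal.pow_le_pow_right (le_max_right _ _) hb)
  rw [map_sub, sub_eq_zero] at h1 h2
  rw [h1, h2]
  exact congrArg (fun ψ => ψ b) hφ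

end Limit

section Main

variable [IsNoetherianRing 𝒪] [IsAdicComplete (maximalIdeal 𝒪) 𝒪] [Finite (ResidueField 𝒪)]
variable (h : IsRigidFunctor 𝒪 X x0 𝓕)
include h

lemma isLevelFamily : LevelMin.IsLevelFamily (aug x0) (KK x0 𝓕) where
  le_ker _ hJ := KK_le h hJ
  pow_le _ hJ := KK_pow h hJ
  inf_mem _ hJ _ hJ' := KK_inf h hJ hJ'
  up_mem _ hJ J' hJJ' hJ' := KK_up h hJ J' hJJ' hJ'
  ker_mem := KK_mem h
  tan := KK_tan h

lemma nonempty_limitRing : Nonempty (LimitRing 𝒪 (MvPolynomial X 𝒪) (KK x0 𝓕)) := by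
  obtain ⟨d, y, hy, hsurj⟩ := LevelMin.exists_generators (isLevelFamily h)
  have haug := isAug_ker_aug x0
  refine exists_limitRing (RingHom.ker (aug x0)) (KK x0 𝓕) haug.ne_top haug.surj haug.loc
    (KK_mem h) (fun _ hJ => KK_le h hJ) (fun _ hJ => KK_pow h hJ)
    (fun _ hJ _ hJ' => KK_inf h hJ hJ') (fun _ hJ J' hJJ' hJ' => KK_up h hJ J' hJJ' hJ')
    y hy ?_
  intro J hJ b hb
  obtain ⟨p, hp⟩ := hsurj J hJ (Ideal.Quotient.mk J b)
  have hp' : aeval y p - b ∈ J := Ideal.Quotient.eq.mp hp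
  obtain ⟨c, hc⟩ := exists_sub_mem_span y p
  have hspan : Ideal.span (Set.range y) ≤ RingHom.ker (aug x0) := by
    rw [Ideal.span_le]
    rintro _ ⟨i, rfl⟩
    exact hy i
  have hcM : algebraMap 𝒪 (MvPolynomial X 𝒪) c ∈ RingHom.ker (aug x0) := by
    have h1 := (RingHom.ker (aug x0)).add_mem hb (KK_le h hJ hp')
    have h2 := (RingHom.ker (aug x0)).sub_mem h1 (hspan hc)
    convert h2 using 1
    ring
  have hcm : c ∈ maximalIdeal 𝒪 := by
    rw [RingHom.mem_ker, AlgHom.commutes, IsLocalRing.ResidueField.algebraMap_eq,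
      IsLocalRing.residue_eq_zero_iff] at hcM
    exact hcM
  have hdecomp : b = -(aeval y p - b) + algebraMap 𝒪 (MvPolynomial X 𝒪) c +
      (aeval y p - algebraMap 𝒪 (MvPolynomial X 𝒪) c) := by ring
  rw [hdecomp]
  refine Ideal.add_mem _ (Ideal.add_mem _ ?_ ?_) ?_
  · exact (le_sup_left.trans (le_sup_left.trans le_sup_left) : J ≤ _) (J.neg_mem hp')
  · exact (le_sup_right.trans le_sup_left :
      (maximalIdeal 𝒪).map (algebraMap 𝒪 (MvPolynomial X 𝒪)) ≤ _) (Ideal.mem_map_of_mem _ hcm)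
  · exact (le_sup_right : Ideal.span (Set.range y) ≤ _) hc

end Main

end AbstractRep

open AbstractRep MvPolynomial IsLocalRing GaloisRep in
/-- **Abstract representability.** -/
theorem representable_of_isRigidFunctor (𝒪 : Type) [CommRing 𝒪] [IsDomain 𝒪]
    [IsDiscreteValuationRing 𝒪] [IsAdicComplete (maximalIdeal 𝒪) 𝒪] [Finite (ResidueField 𝒪)]
    (X : Type) (x0 : X → 𝒪)
    (𝓕 : ∀ ⦃A : Type⦄ [CommRing A] [IsLocalRing A] [Algebra 𝒪 A], (X → A) → Prop)
    (h : IsRigidFunctor 𝒪 X x0 𝓕) : Representable 𝒪 X 𝓕 := by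
  obtain ⟨L⟩ := nonempty_limitRing h
  refine ⟨L.R, inferInstance, inferInstance, inferInstance, inferInstance, inferInstance,
    inferInstance, fun i => L.ι (MvPolynomial.X i), L.residue_surjective, ?_, ?_, ?_⟩
  · -- (a)
    intro B _ _ _ hB q
    obtain ⟨n, hn⟩ := testAlg_exists_pow_eq_bot hB
    refine point_of_le_ker h (L.comap_mem n) hB (q.comp L.ι) ?_
    intro b hb
    rw [Ideal.mem_comap] at hb
    have h1 := algHom_map_maximalIdeal_pow hB.isLocalHom hB.residue_surjective q (n + 1) hb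
    have h2 := Ideal.pow_le_pow_right (Nat.le_succ n) h1
    rw [hn] at h2
    exact h2
  · -- (b)
    intro A _ _ _ _ _ _ hres x hx
    have hstep : ∀ n : ℕ, ∃ φ : L.R →ₐ[𝒪] A ⧸ maximalIdeal A ^ n,
        φ.comp L.ι = (Ideal.Quotient.mkₐ 𝒪 (maximalIdeal A ^ n)).comp (aeval x) ∧
        ∃ N : ℕ, ∀ z ∈ maximalIdeal L.R ^ N, φ z = 0 := by
      intro n
      have hN : ∃ N : ℕ, (maximalIdeal L.R ^ N).comap L.ι ≤
          RingHom.ker ((Ideal.Quotient.mkₐ 𝒪 (maximalIdeal A ^ n)).comp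
            (aeval x : MvPolynomial X 𝒪 →ₐ[𝒪] A)) := by
        cases n with
        | zero =>
          refine ⟨0, fun b _ => ?_⟩
          rw [RingHom.mem_ker]
          apply Ideal.Quotient.eq_zero_iff_mem.mpr
          simp
        | succ m =>
          have hadm := isAdm_maximalIdeal_pow (𝒪 := 𝒪) hres m
          have haug := isAug_maximalIdeal (𝒪 := 𝒪) hres
          haveI := haug.isLocalRing hadm.le hadm.pow
          have htest := haug.testAlg hadm
          have hpt := hx _ htest (Ideal.Quotient.mkₐ 𝒪 (maximalIdeal A ^ (m + 1)))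
            (Ideal.Quotient.mkₐ_surjective _ _)
          have hmem := ker_aeval_mem_KK h htest hpt
          obtain ⟨N, hN⟩ := L.cofinal _ hmem
          refine ⟨N, hN.trans (le_of_eq ?_)⟩
          congr 1
          apply MvPolynomial.algHom_ext
          intro i
          simp
      obtain ⟨N, hN⟩ := hN
      obtain ⟨φ, hφ, hφN⟩ := LimitRing_exists_lift L _ N hN
      exact ⟨φ, hφ, N, hφN⟩
    choose φ hφ hφN using hstep
    have hcompat : ∀ {m n : ℕ} (hle : m ≤ n),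
        (Ideal.Quotient.factorₐ 𝒪 (Ideal.pow_le_pow_right hle)).comp (φ n) = φ m := by
      intro m n hle
      obtain ⟨N, hN⟩ := hφN n
      obtain ⟨N', hN'⟩ := hφN m
      refine LimitRing_lift_unique L _ _ ?_ (N := N) (N' := N') ?_ hN'
      · rw [AlgHom.comp_assoc, hφ n, hφ m]
        apply AlgHom.ext
        intro b
        rfl
      · intro z hz
        rw [AlgHom.comp_apply, hN z hz, map_zero]
    refine ⟨IsAdicComplete.liftAlgHom (maximalIdeal A) φ hcompat, ?_⟩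
    funext i
    apply eq_of_forall_sub_mem_pow (maximalIdeal A)
    intro n
    rw [← Ideal.Quotient.eq]
    have h1 := IsAdicComplete.mk_liftAlgHom (maximalIdeal A) φ hcompat n
      (L.ι (MvPolynomial.X i))
    have h2 := congrArg (fun ψ => ψ (MvPolynomial.X i)) (hφ n)
    simp only [AlgHom.comp_apply, aeval_X] at h2
    rw [Function.comp_apply, h1, h2]
    rfl
  · -- (c)
    intro A _ _ _ _ _ hloc hres φ φ' hφφ'
    have hι : φ.comp L.ι = φ'.comp L.ι := by
      apply MvPolynomial.algHom_ext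
      intro i
      exact congrFun hφφ' i
    apply AlgHom.ext
    intro z
    apply eq_of_forall_sub_mem_pow (maximalIdeal A)
    intro n
    obtain ⟨b, hb⟩ := L.dense n z
    have h1 := algHom_map_maximalIdeal_pow hloc hres φ n hb
    have h2 := algHom_map_maximalIdeal_pow hloc hres φ' n hb
    have h3 : φ (L.ι b) = φ' (L.ι b) := congrArg (fun ψ => ψ b) hι
    have := Ideal.sub_mem _ h1 h2
    rw [map_sub, map_sub, h3] at this
    convert this using 1
    ring

end Fermat.Agent.S53
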