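import Fermat.Agent.S53.RigidB

/-!
# S53: from `Representable` to `DeformationRingData`
-/

set_option autoImplicit false
set_option linter.style.haveILetI false
set_option linter.unusedSectionVars false

namespace Fermat.Agent.S53.Assembly

open IsLocalRing GaloisRep Module Fermat.Agent.S53 Fermat.Agent.S53.RigidB

section general

variable {𝒪 : Type} [CommRing 𝒪]

lemma evalGA_mapMat {A B : Type} [CommRing A] [CommRing B] [Algebra 𝒪 A] [Algebra 𝒪 B]
    (φ : A →ₐ[𝒪] B) (r : GQ →* M2 A) (a : GQ →₀ 𝒪) (i j : Fin 2) :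
    evalGA (mapMat (φ : A →+* B) r) a i j = φ (evalGA r a i j) := by
  rw [evalGA_apply, evalGA_apply]
  unfold Finsupp.sum
  rw [map_sum]
  refine Finset.sum_congr rfl fun g _ => ?_
  rw [map_mul, AlgHom.commutes]
  rfl

lemma isNF_mapMat {A B : Type} [CommRing A] [CommRing B] [Algebra 𝒪 A] [Algebra 𝒪 B]
    (φ : A →ₐ[𝒪] B) {r : GQ →* M2 A} {a b : GQ →₀ 𝒪} (h : IsNF a b r) :
    IsNF a b (mapMat (φ : A →+* B) r) :=
  ⟨by rw [evalGA_mapMat, h.a10, map_zero], by rw [evalGA_mapMat, h.b00, map_zero],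
    by rw [evalGA_mapMat, h.b10, map_one]⟩

lemma isLift_mapMat {A B : Type} [CommRing A] [CommRing B] [IsLocalRing A] [IsLocalRing B]
    [Algebra 𝒪 A] [Algebra 𝒪 B] (φ : A →ₐ[𝒪] B) (hφ : IsLocalHom (φ : A →+* B))
    {rt : GQ → M2 𝒪} {r : GQ →* M2 A} (h : IsLift rt r) :
    IsLift rt (mapMat (φ : A →+* B) r) := fun σ i j => by
  have h1 : mapMat (φ : A →+* B) r σ i j - algebraMap 𝒪 B (rt σ i j) =
      (φ : A →+* B) (r σ i j - algebraMap 𝒪 A (rt σ i j)) := by
    rw [map_sub, mapMat_apply]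
    congr 1
    exact (φ.commutes _).symm
  rw [h1]
  exact map_nonunit (φ : A →+* B) _ (h σ i j)

lemma ofMat_isEquiv_of_eq {A : Type} [CommRing A] [IsLocalRing A] {r r' : GQ →* M2 A}
    (hr : MatCont r) (hr' : MatCont r') (h : r = r') : (ofMat r hr).IsEquiv (ofMat r' hr') := by
  subst h
  exact ⟨GaloisRepAdic.Equiv.refl _⟩

end general

section quotient

variable {𝒪 : Type} [CommRing 𝒪] [IsLocalRing 𝒪]
variable (A : Type) [CommRing A] [IsLocalRing A] [IsNoetherianRing A] [Algebra 𝒪 A]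
  [IsLocalHom (algebraMap 𝒪 A)]

lemma pow_succ_ne_top (n : ℕ) : maximalIdeal A ^ (n + 1) ≠ ⊤ := fun h =>
  (Ideal.IsPrime.ne_top (inferInstance : (maximalIdeal A).IsPrime))
    (top_le_iff.mp (h ▸ Ideal.pow_le_self (Nat.succ_ne_zero n)))

instance instNontrivialQuot (n : ℕ) : Nontrivial (A ⧸ maximalIdeal A ^ (n + 1)) :=
  Ideal.Quotient.nontrivial_iff.mpr (pow_succ_ne_top A n)

instance instIsLocalRingQuot (n : ℕ) : IsLocalRing (A ⧸ maximalIdeal A ^ (n + 1)) :=
  IsLocalRing.of_surjective' (Ideal.Quotient.mk _) Ideal.Quotient.mk_surjective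

lemma maximalIdeal_quot_pow (n : ℕ) :
    maximalIdeal (A ⧸ maximalIdeal A ^ (n + 1)) ^ (n + 1) = ⊥ := by
  rw [← IsLocalRing.map_maximalIdeal_of_surjective (Ideal.Quotient.mk (maximalIdeal A ^ (n + 1)))
    Ideal.Quotient.mk_surjective, ← Ideal.map_pow, Ideal.map_quotient_self]

lemma isLocalHom_mk (n : ℕ) : IsLocalHom (Ideal.Quotient.mk (maximalIdeal A ^ (n + 1))) :=
  IsLocalHom.of_surjective _ Ideal.Quotient.mk_surjective

lemma isArtinianTestAlgebra_quot
    (hsurj : Function.Surjective (IsLocalRing.residue A ∘ algebraMap 𝒪 A)) (n : ℕ) :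
    IsArtinianTestAlgebra 𝒪 (A ⧸ maximalIdeal A ^ (n + 1)) where
  isLocalHom := by
    haveI := isLocalHom_mk A n
    exact RingHom.isLocalHom_comp (Ideal.Quotient.mk (maximalIdeal A ^ (n + 1))) (algebraMap 𝒪 A)
  residue_surjective := by
    intro x
    obtain ⟨y, rfl⟩ := IsLocalRing.residue_surjective x
    obtain ⟨z, rfl⟩ := Ideal.Quotient.mk_surjective y
    obtain ⟨c, hc⟩ := hsurj (IsLocalRing.residue A z)
    refine ⟨c, ?_⟩
    have h1 : algebraMap 𝒪 A c - z ∈ maximalIdeal A := by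
      rw [← IsLocalRing.residue_eq_zero_iff, map_sub, sub_eq_zero]
      exact hc
    haveI := isLocalHom_mk A n
    have h2 := map_nonunit (Ideal.Quotient.mk (maximalIdeal A ^ (n + 1))) _ h1
    rw [← IsLocalRing.residue_eq_zero_iff, map_sub, map_sub, sub_eq_zero] at h2
    exact h2
  isArtinian := by
    rw [isArtinianRing_iff_isNilpotent_maximalIdeal]
    exact ⟨n + 1, maximalIdeal_quot_pow A n⟩

lemma eq_of_forall_mk_eq [IsAdicComplete (maximalIdeal A) A] {x y : A}
    (h : ∀ n, Ideal.Quotient.mk (maximalIdeal A ^ (n + 1)) x =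
      Ideal.Quotient.mk (maximalIdeal A ^ (n + 1)) y) : x = y := by
  rw [IsHausdorff.eq_iff_smodEq (I := maximalIdeal A)]
  intro n
  rw [SModEq.sub_mem, smul_eq_mul, Ideal.mul_top]
  exact Ideal.pow_le_pow_right (Nat.le_succ n) ((Ideal.Quotient.mk_eq_mk_iff_sub_mem _ _).mp (h n))

end quotient

/-- an `𝒪`-algebra homomorphism between local `𝒪`-algebras with residue field `k` is local -/
lemma isLocalHom_of_algHom {𝒪 : Type} [CommRing 𝒪] [IsLocalRing 𝒪]
    {R A : Type} [CommRing R] [IsLocalRing R] [Algebra 𝒪 R]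
    [CommRing A] [IsLocalRing A] [Algebra 𝒪 A] [IsLocalHom (algebraMap 𝒪 A)]
    (hsurj : Function.Surjective (IsLocalRing.residue A ∘ algebraMap 𝒪 A))
    (φ : R →ₐ[𝒪] A) : IsLocalHom (φ : R →+* A) := by
  refine ⟨fun z hz => ?_⟩
  by_contra hnz
  have hzm : z ∈ maximalIdeal R := hnz
  obtain ⟨c, hc⟩ := hsurj (IsLocalRing.residue A (φ z))
  have h1 : φ z - algebraMap 𝒪 A c ∈ maximalIdeal A := by
    rw [← IsLocalRing.residue_eq_zero_iff, map_sub, sub_eq_zero]
    exact hc.symm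
  have hcA : IsUnit (algebraMap 𝒪 A c) := by
    by_contra hcn
    have h2 : algebraMap 𝒪 A c ∈ maximalIdeal A := hcn
    have h3 : φ z ∈ maximalIdeal A := by
      have := Ideal.add_mem _ h1 h2
      rwa [sub_add_cancel] at this
    exact h3 hz
  have hc𝒪 : IsUnit c := isUnit_of_map_unit (algebraMap 𝒪 A) c hcA
  have hcR : IsUnit (algebraMap 𝒪 R c) := hc𝒪.map _
  have h4 : IsUnit (z - algebraMap 𝒪 R c) := by
    by_contra hn
    have h5 : z - algebraMap 𝒪 R c ∈ maximalIdeal R := hn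
    have h6 : algebraMap 𝒪 R c ∈ maximalIdeal R := by
      have := Ideal.sub_mem _ hzm h5
      rwa [sub_sub_cancel] at this
    exact h6 hcR
  have h7 : IsUnit (φ (z - algebraMap 𝒪 R c)) := h4.map φ
  rw [map_sub, AlgHom.commutes] at h7
  exact h1 h7

section limit

variable {𝒪 : Type} [CommRing 𝒪] [IsLocalRing 𝒪]
  {𝒟 : ∀ ⦃A : Type⦄ [CommRing A] [IsLocalRing A] [Algebra 𝒪 A], GaloisRepAdic A → Prop}
  {rt : GQ → M2 𝒪} {a b : GQ →₀ 𝒪}
  {R : Type} [CommRing R] [IsLocalRing R] [IsNoetherianRing R]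
  [IsAdicComplete (maximalIdeal R) R] [Algebra 𝒪 R] [IsLocalHom (algebraMap 𝒪 R)]

/-- a family of coordinates all of whose truncations are points comes from a normalised lift -/
lemma exists_rep_of_forall_pts (xu : XG → R)
    (h : ∀ n : ℕ, Pts 𝒟 rt a b
      ((Ideal.Quotient.mkₐ 𝒪 (maximalIdeal R ^ (n + 1))) ∘ xu)) :
    ∃ ru : GQ →* M2 R, (∀ σ i j, ru σ i j = xu (σ, i, j)) ∧ MatCont ru ∧ IsLift rt ru ∧
      IsNF a b ru := by
  choose rn hrn hgood using h
  let ru0 : GQ → M2 R := fun σ => Matrix.of fun i j => xu (σ, i, j)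
  have hmap : ∀ n σ, (Ideal.Quotient.mk (maximalIdeal R ^ (n + 1))).mapMatrix (ru0 σ) = rn n σ := by
    intro n σ
    ext i j
    exact (hrn n σ i j).symm
  have hext : ∀ M N : M2 R, (∀ n, (Ideal.Quotient.mk (maximalIdeal R ^ (n + 1))).mapMatrix M =
      (Ideal.Quotient.mk (maximalIdeal R ^ (n + 1))).mapMatrix N) → M = N := by
    intro M N hMN
    ext i j
    exact eq_of_forall_mk_eq R fun n => congrFun (congrFun (hMN n) i) j
  let ru : GQ →* M2 R :=
    { toFun := ru0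
      map_one' := hext _ _ fun n => by rw [hmap, map_one, map_one]
      map_mul' := fun σ τ => hext _ _ fun n => by rw [hmap, map_mul, map_mul, hmap, hmap] }
  have hmapMat : ∀ n, mapMat ((Ideal.Quotient.mkₐ 𝒪 (maximalIdeal R ^ (n + 1)) :
      R →ₐ[𝒪] _) : R →+* _) ru = rn n := fun n => MonoidHom.ext fun σ => hmap n σ
  refine ⟨ru, fun σ i j => rfl, ?_, ?_, ?_, ?_, ?_⟩
  · -- continuity
    intro n
    cases n with
    | zero =>
      exact ⟨⊥, inferInstance, fun σ _ i j => by simp⟩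
    | succ m =>
      obtain ⟨L, hL, hLσ⟩ := (hgood m).cont (m + 1)
      refine ⟨L, hL, fun σ hσ i j => ?_⟩
      have h1 := hLσ σ hσ i j
      rw [maximalIdeal_quot_pow, Ideal.mem_bot, ← hmap] at h1
      rw [← Ideal.Quotient.eq_zero_iff_mem, ← h1]
      have h2 : (Ideal.Quotient.mk (maximalIdeal R ^ (m + 1))).mapMatrix (ru0 σ) - 1 =
          (Ideal.Quotient.mk (maximalIdeal R ^ (m + 1))).mapMatrix (ru0 σ - 1) := by
        rw [map_sub, map_one]
      rw [h2]
      rfl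
  · -- lift
    intro σ i j
    have h1 := (hgood 0).lift σ i j
    by_contra hn
    have h2 : IsUnit (ru σ i j - algebraMap 𝒪 R (rt σ i j)) := by
      by_contra h3; exact hn h3
    have h3 := h2.map (Ideal.Quotient.mk (maximalIdeal R ^ (0 + 1)))
    rw [map_sub] at h3
    rw [← hmap] at h1
    exact h1 h3
  · apply eq_of_forall_mk_eq R
    intro n
    have := (hgood n).nf.a10
    rw [← hmapMat, evalGA_mapMat] at this
    rw [map_zero]; exact this
  · apply eq_of_forall_mk_eq R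
    intro n
    have := (hgood n).nf.b00
    rw [← hmapMat, evalGA_mapMat] at this
    rw [map_zero]; exact this
  · apply eq_of_forall_mk_eq R
    intro n
    have := (hgood n).nf.b10
    rw [← hmapMat, evalGA_mapMat] at this
    rw [map_one]; exact this

end limit

/-- existence of the normal form, in the shape used below -/
theorem exists_conj_isNF {𝒪 : Type} [CommRing 𝒪] [IsLocalRing 𝒪] {A : Type} [CommRing A]
    [IsLocalRing A] [IsAdicComplete (maximalIdeal A) A]
    [Algebra 𝒪 A] [IsLocalHom (algebraMap 𝒪 A)] {rt : GQ → M2 𝒪} {a b : GQ →₀ 𝒪}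
    (hf : IsFrame rt a b) {r : GQ →* M2 A} (hl : IsLift rt r) (hc : MatCont r) :
    ∃ (r' : GQ →* M2 A) (u : M2 A), IsUnit u.det ∧ (∀ σ, u * r σ = r' σ * u) ∧ IsLift rt r' ∧
      IsNF a b r' ∧ MatCont r' := by
  obtain ⟨M, hnf, hlift, hcont⟩ := exists_conjMat_isNF hf hl
  refine ⟨conjMat M r, (M : M2 A), ?_, fun σ => ?_, hlift, hnf, hcont hc⟩
  · exact (Matrix.isUnit_iff_isUnit_det _).mp M.isUnit
  · have h : ((M⁻¹ : GL (Fin 2) A) : M2 A) * (M : M2 A) = 1 := by
      rw [← Units.val_mul, inv_mul_cancel, Units.val_one]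
    rw [conjMat_apply, mul_assoc, h, mul_one]

section main

variable {𝒪 : Type} [CommRing 𝒪] [IsDomain 𝒪] [IsDiscreteValuationRing 𝒪]
  [IsAdicComplete (maximalIdeal 𝒪) 𝒪]
  {𝒟 : ∀ ⦃A : Type⦄ [CommRing A] [IsLocalRing A] [Algebra 𝒪 A], GaloisRepAdic A → Prop}
  {rt : GQ → M2 𝒪} {a b : GQ →₀ 𝒪}

theorem nonempty_deformationRingData_of_representable
    (ρbar : ResidualGaloisRep (ResidueField 𝒪)) (bbar : Basis (Fin 2) (ResidueField 𝒪) ρbar.V)
    (habs : ρbar.IsAbsolutelyIrreducible)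
    (h𝒟 : IsDeformationCondition 𝒪 𝒟)
    (hrt : ∀ σ i j, IsLocalRing.residue 𝒪 (rt σ i j) = resMat ρbar bbar σ i j)
    (hf : IsFrame rt a b)
    (hrep : Representable 𝒪 XG (Pts 𝒟 rt a b)) :
    Nonempty (DeformationRingData 𝒪 ρbar 𝒟) := by
  obtain ⟨R, _, _, _, _, _, _, xu, hsurj, hA, hB, hC⟩ := hrep
  -- the universal matrix representation
  obtain ⟨ru, hru, hcont, hlift, hnf⟩ := exists_rep_of_forall_pts (𝒟 := 𝒟) (rt := rt) (a := a)
    (b := b) xu fun n => hA _ (isArtinianTestAlgebra_quot R hsurj n) _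
  have hgoodB : ∀ (B : Type) [CommRing B] [IsLocalRing B] [Algebra 𝒪 B],
      IsArtinianTestAlgebra 𝒪 B → ∀ q : R →ₐ[𝒪] B, IsGood 𝒟 rt a b (mapMat (q : R →+* B) ru) := by
    intro B _ _ _ hBt q
    obtain ⟨r', hr', hg⟩ := hA B hBt q
    have : r' = mapMat (q : R →+* B) ru := MonoidHom.ext fun σ => by
      ext i j
      rw [hr', mapMat_apply, hru]
      rfl
    exact this ▸ hg
  refine ⟨{ R := R
            residue_surjective := hsurj
            absIrr := habs
            ρ := ofMat ru hcont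
            isOfType := ?_
            residual_isEquiv := ?_
            universal := ?_ }⟩
  · -- type
    refine (h𝒟.iff_forall_surjective inferInstance hsurj (ofMat ru hcont)).mpr ?_
    intro B _ _ _ hBt q hq _
    exact h𝒟.of_isEquiv hBt (IsEquiv.symm' (baseChangeAlong_ofMat_isEquiv ru hcont _ hq))
      (hgoodB B hBt q).type
  · exact residual_isEquiv_of_isLift ρbar bbar hrt hlift hcont _
      fun c => IsLocalRing.ResidueField.map_residue _ _
  · intro A _ _ _ _ _ _ hAsurj ρA hρA hres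
    obtain ⟨bA, hbA⟩ := exists_basis_of_residual_isEquiv ρbar bbar ρA _ hres
    have hl1 : IsLift rt (matOfBasis ρA bA) := fun σ i j => by
      rw [← IsLocalRing.residue_eq_zero_iff, map_sub, sub_eq_zero, hbA, ← hrt,
        IsLocalRing.ResidueField.map_residue]
    obtain ⟨r2, u, hu, hconj, hl2, hn2, hc2⟩ :=
      exists_conj_isNF hf hl1 (matCont_matOfBasis ρA bA)
    have e12 : ρA.IsEquiv (ofMat r2 hc2) :=
      IsEquiv.trans' (isEquiv_ofMat_matOfBasis ρA bA) (isEquiv_of_conj _ hc2 u hu hconj)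
    obtain ⟨φ, hφ⟩ := hB A hAsurj (fun p => r2 p.1 p.2.1 p.2.2) (by
      intro B _ _ _ hBt q hqs
      have hq : IsLocalHom (q : A →+* B) := IsLocalHom.of_surjective _ hqs
      refine ⟨mapMat (q : A →+* B) r2, fun σ i j => rfl, hc2.mapMat _ hq, isLift_mapMat q hq hl2,
        isNF_mapMat q hn2, ?_⟩
      have h1 := (h𝒟.iff_forall_surjective inferInstance hAsurj ρA).mp hρA hBt q hq hqs
      obtain ⟨e⟩ := e12
      exact h𝒟.of_isEquiv hBt (IsEquiv.trans' ⟨e.baseChangeAlong _ hq⟩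
        (baseChangeAlong_ofMat_isEquiv r2 hc2 _ hq)) h1)
    have key : ∀ (ψ : R →ₐ[𝒪] A) (hψ : IsLocalHom (ψ : R →+* A)),
        ((ofMat ru hcont).baseChangeAlong (ψ : R →+* A) hψ).IsEquiv ρA →
        mapMat (ψ : R →+* A) ru = r2 := by
      intro ψ hψ he
      exact eq_of_isGood_of_isEquiv hf (isLift_mapMat ψ hψ hlift) hl2 (isNF_mapMat ψ hnf) hn2
        (hcont.mapMat _ hψ) hc2
        (IsEquiv.trans' (IsEquiv.symm' (baseChangeAlong_ofMat_isEquiv ru hcont _ hψ))
          (IsEquiv.trans' he e12))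
    have hφloc : IsLocalHom (φ : R →+* A) := isLocalHom_of_algHom hAsurj φ
    have hφr : mapMat (φ : R →+* A) ru = r2 := MonoidHom.ext fun σ => by
      ext i j
      rw [mapMat_apply, hru]
      exact congrFun hφ (σ, i, j)
    refine ⟨φ, ⟨hφloc, ?_⟩, ?_⟩
    · exact IsEquiv.trans' (baseChangeAlong_ofMat_isEquiv ru hcont _ hφloc)
        (IsEquiv.trans' (ofMat_isEquiv_of_eq _ hc2 hφr) (IsEquiv.symm' e12))
    · rintro ψ ⟨hψ, he⟩
      apply hC A hAsurj
      funext ⟨σ, i, j⟩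
      have h1 := key ψ hψ he
      have h2 : mapMat (ψ : R →+* A) ru σ i j = mapMat (φ : R →+* A) ru σ i j := by
        rw [h1, hφr]
      rw [mapMat_apply, mapMat_apply, hru] at h2
      exact h2

end main

end Fermat.Agent.S53.Assembly
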