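import Mathlib

/-!
# Burnside's theorem for `2 × 2` matrices, and descent of the spanning property
-/

set_option autoImplicit false

namespace Fermat.Agent.S53

open Matrix

variable {G : Type*} [Monoid G]

/-- A matrix representation without non-trivial invariant subspace. -/
def MatIrred {K : Type*} [Field K] (S : G →* Matrix (Fin 2) (Fin 2) K) : Prop :=
  ∀ W : Submodule K (Fin 2 → K), (∀ g, ∀ x ∈ W, (S g) *ᵥ x ∈ W) → W = ⊥ ∨ W = ⊤

section Burnside

variable {K : Type*} [Field K] (S : G →* Matrix (Fin 2) (Fin 2) K)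

/-- the algebra generated by the image of `S` -/
noncomputable def matAlg : Subalgebra K (Matrix (Fin 2) (Fin 2) K) :=
  Algebra.adjoin K (Set.range S)

theorem matAlg_toSubmodule : Subalgebra.toSubmodule (matAlg S) = Submodule.span K (Set.range S) := by
  rw [matAlg, Algebra.adjoin_eq_span]
  congr 1
  have : (Submonoid.closure (Set.range S) : Submonoid _) = MonoidHom.mrange S := by
    rw [← MonoidHom.coe_mrange, Submonoid.closure_eq]
  rw [this, MonoidHom.coe_mrange]

theorem mem_matAlg (g : G) : S g ∈ matAlg S := Algebra.subset_adjoin ⟨g, rfl⟩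

variable {S}

theorem matIrred_transitive (h : MatIrred S) {u : Fin 2 → K} (hu : u ≠ 0) (w : Fin 2 → K) :
    ∃ A ∈ matAlg S, A *ᵥ u = w := by
  let ev : Matrix (Fin 2) (Fin 2) K →ₗ[K] (Fin 2 → K) :=
    { toFun := fun A => A *ᵥ u
      map_add' := fun A B => Matrix.add_mulVec A B u
      map_smul' := fun c A => Matrix.smul_mulVec c A u }
  let W : Submodule K (Fin 2 → K) := (Subalgebra.toSubmodule (matAlg S)).map ev
  have hW : ∀ g, ∀ x ∈ W, (S g) *ᵥ x ∈ W := by
    rintro g x ⟨A, hA, rfl⟩
    refine ⟨S g * A, (matAlg S).mul_mem (mem_matAlg S g) hA, ?_⟩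
    show (S g * A) *ᵥ u = S g *ᵥ (A *ᵥ u)
    rw [Matrix.mulVec_mulVec]
  have huW : u ∈ W := ⟨1, (matAlg S).one_mem, by show (1 : Matrix _ _ K) *ᵥ u = u; simp⟩
  rcases h W hW with h0 | h1
  · exact absurd ((Submodule.mem_bot K).mp (h0 ▸ huW)) hu
  · have : w ∈ W := h1 ▸ Submodule.mem_top
    obtain ⟨A, hA, hAw⟩ := this
    exact ⟨A, hA, hAw⟩

theorem matIrred_cotransitive (h : MatIrred S) {φ : Fin 2 → K} (hφ : φ ≠ 0) (z : Fin 2 → K) :
    ∃ A ∈ matAlg S, φ ᵥ* A = z := by
  let ev : Matrix (Fin 2) (Fin 2) K →ₗ[K] (Fin 2 → K) :=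
    { toFun := fun A => φ ᵥ* A
      map_add' := fun A B => Matrix.vecMul_add A B φ
      map_smul' := fun c A => Matrix.vecMul_smul φ c A }
  let Y : Submodule K (Fin 2 → K) := (Subalgebra.toSubmodule (matAlg S)).map ev
  by_cases hY : Y = ⊤
  · have : z ∈ Y := hY ▸ Submodule.mem_top
    obtain ⟨A, hA, hAz⟩ := this
    exact ⟨A, hA, hAz⟩
  · exfalso
    obtain ⟨f, hf0, hfY⟩ := Submodule.exists_le_ker_of_lt_top Y (lt_top_iff_ne_top.mpr hY)
    -- `f` is the dot product with a vector `x`
    let x : Fin 2 → K := fun i => f (Pi.single i 1)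
    have hfx : ∀ y : Fin 2 → K, f y = y ⬝ᵥ x := by
      intro y
      have hy : y = ∑ i, y i • (Pi.single i (1 : K) : Fin 2 → K) := by
        ext j
        simp [Pi.single_apply]
      conv_lhs => rw [hy]
      rw [map_sum]
      simp [dotProduct, x]
    have hx : x ≠ 0 := by
      intro hx
      apply hf0
      ext y
      simp [hfx, hx]
    apply hφ
    ext i
    obtain ⟨A, hA, hAx⟩ := matIrred_transitive h hx (Pi.single i 1)
    have h1 : f (φ ᵥ* A) = 0 := hfY ⟨A, hA, rfl⟩
    rw [hfx, ← Matrix.dotProduct_mulVec, hAx] at h1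
    simpa using h1

theorem exists_rankOne_of_det_eq_zero {T : Matrix (Fin 2) (Fin 2) K} (hT : T ≠ 0)
    (hdet : T.det = 0) : ∃ u φ : Fin 2 → K, u ≠ 0 ∧ φ ≠ 0 ∧ T = vecMulVec u φ := by
  have hex : ∃ i j, T i j ≠ 0 := by
    by_contra hcon
    push Not at hcon
    exact hT (by ext i j; exact hcon i j)
  obtain ⟨i, j, hij⟩ := hex
  rw [Matrix.det_fin_two] at hdet
  refine ⟨fun i' => T i' j, fun j' => T i j' / T i j, ?_, ?_, ?_⟩
  · intro h0
    exact hij (congrFun h0 i)
  · intro h0
    have := congrFun h0 j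
    simp [hij] at this
  · ext i' j'
    rw [vecMulVec_apply]
    field_simp
    fin_cases i <;> fin_cases j <;> fin_cases i' <;> fin_cases j' <;>
      simp at hdet ⊢ <;>
      first
        | ring1
        | linear_combination hdet
        | linear_combination -hdet

theorem burnside_matAlg [IsAlgClosed K] (h : MatIrred S) : matAlg S = ⊤ := by
  -- an element sending `e₀` to `e₁`
  have he0 : (Pi.single 0 1 : Fin 2 → K) ≠ 0 := by
    intro h0
    have := congrFun h0 0
    simp at this
  obtain ⟨A, hA, hAe⟩ := matIrred_transitive h he0 (Pi.single 1 1)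
  -- an eigenvalue of `A`
  obtain ⟨μ, hμ⟩ := Module.End.exists_eigenvalue (Matrix.toLin' A)
  obtain ⟨v, hv⟩ := hμ.exists_hasEigenvector
  have hv0 : v ≠ 0 := hv.2
  have hAv : A *ᵥ v = μ • v := by
    have := hv.apply_eq_smul
    simpa using this
  set T : Matrix (Fin 2) (Fin 2) K := A - μ • 1 with hTdef
  have hTmem : T ∈ matAlg S :=
    (matAlg S).sub_mem hA ((matAlg S).smul_mem (matAlg S).one_mem μ)
  have hTv : T *ᵥ v = 0 := by
    rw [hTdef, Matrix.sub_mulVec, hAv, Matrix.smul_mulVec, Matrix.one_mulVec, sub_self]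
  have hdet : T.det = 0 := Matrix.exists_mulVec_eq_zero_iff.mp ⟨v, hv0, hTv⟩
  have hT0 : T ≠ 0 := by
    intro h0
    have h1 : T *ᵥ (Pi.single 0 1 : Fin 2 → K) = 0 := by rw [h0, Matrix.zero_mulVec]
    rw [hTdef, Matrix.sub_mulVec, hAe, Matrix.smul_mulVec, Matrix.one_mulVec] at h1
    have := congrFun h1 1
    simp at this
  obtain ⟨u, φ, hu, hφ, hTuφ⟩ := exists_rankOne_of_det_eq_zero hT0 hdet
  have hrank : ∀ w z : Fin 2 → K, vecMulVec w z ∈ matAlg S := by
    intro w z
    obtain ⟨A₁, hA₁, h₁⟩ := matIrred_transitive h hu w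
    obtain ⟨A₂, hA₂, h₂⟩ := matIrred_cotransitive h hφ z
    have : vecMulVec w z = A₁ * T * A₂ := by
      rw [hTuφ, Matrix.mul_vecMulVec, Matrix.vecMulVec_mul, h₁, h₂]
    rw [this]
    exact (matAlg S).mul_mem ((matAlg S).mul_mem hA₁ hTmem) hA₂
  rw [eq_top_iff]
  intro M _
  have hM : M = ∑ i, vecMulVec (Pi.single i 1) (M i) := by
    ext a b
    simp [Matrix.sum_apply, vecMulVec_apply, Pi.single_apply]
  rw [hM]
  exact (matAlg S).sum_mem fun i _ => hrank _ _

/-- **Burnside** for `2 × 2` matrices. -/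
theorem burnside [IsAlgClosed K] (h : MatIrred S) : Submodule.span K (Set.range S) = ⊤ := by
  rw [← matAlg_toSubmodule, burnside_matAlg h]
  simp

end Burnside

section Descent

variable {k K : Type*} [Field k] [Field K] (ι : k →+* K) (rb : G →* Matrix (Fin 2) (Fin 2) k)

/-- Descent of the spanning property along a field extension. -/
theorem span_eq_top_of_map
    (h : Submodule.span K (Set.range fun g => (rb g).map ι) = ⊤) :
    Submodule.span k (Set.range rb) = ⊤ := by
  by_contra hne
  obtain ⟨f, hf0, hf⟩ := Submodule.exists_le_ker_of_lt_top _ (lt_top_iff_ne_top.mpr hne)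
  let c : Fin 2 → Fin 2 → k := fun i j => f (Matrix.single i j 1)
  have hfc : ∀ M : Matrix (Fin 2) (Fin 2) k, f M = ∑ i, ∑ j, M i j * c i j := by
    intro M
    conv_lhs => rw [Matrix.matrix_eq_sum_single M]
    rw [map_sum]
    refine Finset.sum_congr rfl fun i _ => ?_
    rw [map_sum]
    refine Finset.sum_congr rfl fun j _ => ?_
    have : Matrix.single i j (M i j) = M i j • Matrix.single i j (1 : k) := by
      rw [Matrix.smul_single, smul_eq_mul, mul_one]
    rw [this, map_smul, smul_eq_mul]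
  let F : Matrix (Fin 2) (Fin 2) K →ₗ[K] K :=
    { toFun := fun M => ∑ i, ∑ j, M i j * ι (c i j)
      map_add' := by
        intro M N
        simp only [Matrix.add_apply, add_mul, Finset.sum_add_distrib]
      map_smul' := by
        intro a M
        simp only [Matrix.smul_apply, smul_eq_mul, RingHom.id_apply, Finset.mul_sum, mul_assoc] }
  have hF : ∀ M ∈ Submodule.span K (Set.range fun g => (rb g).map ι), F M = 0 := by
    intro M hM
    induction hM using Submodule.span_induction with
    | mem x hx =>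
      obtain ⟨g, rfl⟩ := hx
      have h1 : f (rb g) = 0 := hf (Submodule.subset_span ⟨g, rfl⟩)
      rw [hfc] at h1
      have h2 := congrArg ι h1
      simp only [map_sum, map_mul, map_zero] at h2
      exact h2
    | zero => exact map_zero F
    | add x y _ _ hx hy => rw [map_add, hx, hy, add_zero]
    | smul a x _ hx => rw [map_smul, hx, smul_zero]
  apply hf0
  ext M
  rw [hfc, LinearMap.zero_apply]
  have hc : ∀ i j, c i j = 0 := by
    intro i j
    have h1 := hF (Matrix.single i j 1) (h ▸ Submodule.mem_top)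
    have h2 : F (Matrix.single i j 1) = ι (c i j) := by
      show ∑ i', ∑ j', (Matrix.single i j (1 : K)) i' j' * ι (c i' j') = ι (c i j)
      fin_cases i <;> fin_cases j <;> simp [Matrix.single_apply]
    rw [h2] at h1
    exact (map_eq_zero ι).mp h1
  simp [hc]

end Descent

section Comb

variable {𝒪 k : Type*} [CommRing 𝒪] [Field k] (π : 𝒪 →+* k) (hπ : Function.Surjective π)
  (rb : G →* Matrix (Fin 2) (Fin 2) k)

include hπ in
/-- every matrix is an `𝒪`-combination of the `rb g` -/
theorem exists_comb (h : Submodule.span k (Set.range rb) = ⊤) (M : Matrix (Fin 2) (Fin 2) k) :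
    ∃ a : G →₀ 𝒪, (a.sum fun g c => π c • rb g) = M := by
  have hM : M ∈ Submodule.span k (Set.range rb) := h ▸ Submodule.mem_top
  obtain ⟨c, hc⟩ := (Finsupp.mem_span_range_iff_exists_finsupp).mp hM
  obtain ⟨a, ha⟩ := Finsupp.mapRange_surjective π (map_zero π) hπ c
  refine ⟨a, ?_⟩
  rw [← hc, ← ha, Finsupp.sum_mapRange_index]
  intro g
  simp

end Comb

/-- Burnside + descent: if the base change of `rb` to an algebraically closed field has no
invariant line then the `rb g` span all `2 × 2` matrices. -/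
theorem span_eq_top_of_matIrred_map {k K : Type*} [Field k] [Field K] [IsAlgClosed K]
    (ι : k →+* K) (rb : G →* Matrix (Fin 2) (Fin 2) k)
    (h : MatIrred ((ι.mapMatrix (m := Fin 2)).toMonoidHom.comp rb)) :
    Submodule.span k (Set.range rb) = ⊤ := by
  apply span_eq_top_of_map ι rb
  have := burnside h
  exact this

end Fermat.Agent.S53
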