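import Mathlib

/-!
# Normal forms for lifts of an absolutely irreducible `2 × 2` matrix representation
-/

set_option autoImplicit false

namespace Fermat.Agent.S53.NF

open Matrix IsLocalRing Polynomial

abbrev M2 (A : Type*) := Matrix (Fin 2) (Fin 2) A

/-- entrywise congruence of matrices modulo an ideal -/
def MatCongr {A : Type*} [CommRing A] (I : Ideal A) (X Y : M2 A) : Prop :=
  ∀ i j, X i j - Y i j ∈ I

namespace MatCongr

variable {A : Type*} [CommRing A] {I : Ideal A} {X Y Z X' Y' : M2 A}

theorem refl (X : M2 A) : MatCongr I X X := fun i j => by simp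

theorem symm (h : MatCongr I X Y) : MatCongr I Y X := fun i j => by
  have := I.neg_mem (h i j)
  simpa using this

theorem trans (h : MatCongr I X Y) (h' : MatCongr I Y Z) : MatCongr I X Z := fun i j => by
  have := I.add_mem (h i j) (h' i j)
  simpa using this

theorem add (h : MatCongr I X Y) (h' : MatCongr I X' Y') : MatCongr I (X + X') (Y + Y') :=
  fun i j => by
    have := I.add_mem (h i j) (h' i j)
    rw [Matrix.add_apply, Matrix.add_apply]
    convert this using 1
    ring

theorem mul (h : MatCongr I X Y) (h' : MatCongr I X' Y') : MatCongr I (X * X') (Y * Y') :=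
  fun i j => by
    rw [Matrix.mul_apply, Matrix.mul_apply, ← Finset.sum_sub_distrib]
    refine I.sum_mem fun l _ => ?_
    have h1 : X i l * X' l j - Y i l * Y' l j =
        (X i l - Y i l) * X' l j + Y i l * (X' l j - Y' l j) := by ring
    rw [h1]
    exact I.add_mem (I.mul_mem_right _ (h i l)) (I.mul_mem_left _ (h' l j))

theorem smul {R : Type*} [CommRing R] [Algebra R A] (c : R) (h : MatCongr I X Y) :
    MatCongr I (c • X) (c • Y) := fun i j => by
  rw [Matrix.smul_apply, Matrix.smul_apply, ← smul_sub, Algebra.smul_def]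
  exact I.mul_mem_left _ (h i j)

theorem map {B : Type*} [CommRing B] {J : Ideal B} (φ : A →+* B) (hφ : I ≤ J.comap φ)
    (h : MatCongr I X Y) : MatCongr J (X.map φ) (Y.map φ) := fun i j => by
  rw [Matrix.map_apply, Matrix.map_apply, ← map_sub]
  exact hφ (h i j)

end MatCongr

section Comb

variable {G : Type*} {𝒪 : Type*} [CommRing 𝒪] {A : Type*} [CommRing A] [Algebra 𝒪 A]

/-- evaluate an `𝒪`-linear combination of group elements -/
noncomputable def comb (r : G → M2 A) (a : G →₀ 𝒪) : M2 A :=
  a.sum fun g c => c • r g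

theorem comb_apply (r : G → M2 A) (a : G →₀ 𝒪) (i j : Fin 2) :
    comb r a i j = a.sum fun g c => c • r g i j := by
  unfold comb Finsupp.sum
  rw [Matrix.sum_apply]
  rfl

theorem mul_comb (M : M2 A) (r : G → M2 A) (a : G →₀ 𝒪) :
    M * comb r a = comb (fun g => M * r g) a := by
  unfold comb Finsupp.sum
  rw [Finset.mul_sum]
  refine Finset.sum_congr rfl fun g _ => ?_
  rw [Matrix.mul_smul]

theorem comb_mul (M : M2 A) (r : G → M2 A) (a : G →₀ 𝒪) :
    comb r a * M = comb (fun g => r g * M) a := by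
  unfold comb Finsupp.sum
  rw [Finset.sum_mul]
  refine Finset.sum_congr rfl fun g _ => ?_
  rw [Matrix.smul_mul]

theorem comb_congr {I : Ideal A} {r r' : G → M2 A} (h : ∀ g, MatCongr I (r g) (r' g))
    (a : G →₀ 𝒪) : MatCongr I (comb r a) (comb r' a) := by
  intro i j
  rw [comb_apply, comb_apply]
  unfold Finsupp.sum
  rw [← Finset.sum_sub_distrib]
  refine I.sum_mem fun g _ => ?_
  rw [← smul_sub, Algebra.smul_def]
  exact I.mul_mem_left _ (h g i j)

theorem comb_map {B : Type*} [CommRing B] [Algebra 𝒪 B] (φ : A →ₐ[𝒪] B) (r : G → M2 A)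
    (a : G →₀ 𝒪) : comb (fun g => (r g).map φ) a = (comb r a).map φ := by
  ext i j
  rw [Matrix.map_apply, comb_apply, comb_apply]
  unfold Finsupp.sum
  rw [map_sum]
  refine Finset.sum_congr rfl fun g _ => ?_
  show a g • φ (r g i j) = φ (a g • r g i j)
  rw [map_smul]

/-- The normal form condition: three `𝒪`-linear equations in the matrix entries. -/
structure IsNF (a b : G →₀ 𝒪) (r : G → M2 A) : Prop where
  a10 : comb r a 1 0 = 0
  b00 : comb r b 0 0 = 0
  b10 : comb r b 1 0 = 1

theorem IsNF.map {B : Type*} [CommRing B] [Algebra 𝒪 B] (φ : A →ₐ[𝒪] B) {a b : G →₀ 𝒪}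
    {r : G → M2 A} (h : IsNF a b r) : IsNF a b (fun g => (r g).map φ) where
  a10 := by rw [comb_map, Matrix.map_apply, h.a10, map_zero]
  b00 := by rw [comb_map, Matrix.map_apply, h.b00, map_zero]
  b10 := by rw [comb_map, Matrix.map_apply, h.b10, map_one]

theorem IsNF.of_map_injective {B : Type*} [CommRing B] [Algebra 𝒪 B] (φ : A →ₐ[𝒪] B)
    (hφ : Function.Injective φ) {a b : G →₀ 𝒪}
    {r : G → M2 A} (h : IsNF a b (fun g => (r g).map φ)) : IsNF a b r where
  a10 := by
    have := h.a10
    rw [comb_map, Matrix.map_apply] at this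
    exact hφ (by rw [this, map_zero])
  b00 := by
    have := h.b00
    rw [comb_map, Matrix.map_apply] at this
    exact hφ (by rw [this, map_zero])
  b10 := by
    have := h.b10
    rw [comb_map, Matrix.map_apply] at this
    exact hφ (by rw [this, map_one])

end Comb

/-- the matrix units used for the rigidification -/
def E11 (A : Type*) [CommRing A] : M2 A := !![1, 0; 0, 0]
def E21 (A : Type*) [CommRing A] : M2 A := !![0, 0; 1, 0]

section Unique

variable {G : Type*} {𝒪 : Type*} [CommRing 𝒪] {A : Type*} [CommRing A] [Algebra 𝒪 A]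
  [IsLocalRing A]

/-- **Uniqueness of the normal form.** -/
theorem eq_of_isNF_of_intertwine {r r' : G → M2 A} {a b : G →₀ 𝒪}
    (ha : MatCongr (maximalIdeal A) (comb r a) (E11 A))
    (ha' : MatCongr (maximalIdeal A) (comb r' a) (E11 A))
    (hNF : IsNF a b r) (hNF' : IsNF a b r') (M : M2 A) (hM : IsUnit M.det)
    (hint : ∀ g, M * r g = r' g * M) : r = r' ∧ ∃ c : A, IsUnit c ∧ M = c • 1 := by
  have hinta : M * comb r a = comb r' a * M := by
    rw [mul_comb, comb_mul]; congr 1; funext g; exact hint g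
  have hintb : M * comb r b = comb r' b * M := by
    rw [mul_comb, comb_mul]; congr 1; funext g; exact hint g
  -- entry (1,0) of the first relation
  have h10 := congrFun (congrFun hinta 1) 0
  rw [Matrix.mul_apply, Matrix.mul_apply, Fin.sum_univ_two, Fin.sum_univ_two, hNF.a10,
    hNF'.a10] at h10
  have hunit : IsUnit (comb r a 0 0 - comb r' a 1 1) := by
    have h1 : comb r a 0 0 - 1 ∈ maximalIdeal A := by simpa [E11] using ha 0 0
    have h2 : comb r' a 1 1 ∈ maximalIdeal A := by simpa [E11] using ha' 1 1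
    have h3 : (1 : A) - (comb r a 0 0 - comb r' a 1 1) ∈ maximalIdeal A := by
      have := (maximalIdeal A).sub_mem h2 h1
      convert this using 1
      ring
    by_contra hcon
    have h4 : comb r a 0 0 - comb r' a 1 1 ∈ maximalIdeal A := (mem_maximalIdeal _).mpr hcon
    have h5 := (maximalIdeal A).add_mem h3 h4
    rw [sub_add_cancel] at h5
    exact (Ideal.ne_top_iff_one _).mp (maximalIdeal.isMaximal A).ne_top h5
  have hM10 : M 1 0 = 0 := by
    have : (comb r a 0 0 - comb r' a 1 1) * M 1 0 = 0 := by linear_combination h10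
    exact (hunit.mul_right_eq_zero).mp this
  -- the second relation
  have k00 := congrFun (congrFun hintb 0) 0
  have k10 := congrFun (congrFun hintb 1) 0
  rw [Matrix.mul_apply, Matrix.mul_apply, Fin.sum_univ_two, Fin.sum_univ_two, hNF.b00, hNF.b10,
    hNF'.b00, hM10] at k00
  rw [Matrix.mul_apply, Matrix.mul_apply, Fin.sum_univ_two, Fin.sum_univ_two, hNF.b00, hNF.b10,
    hNF'.b10, hM10] at k10
  have hM01 : M 0 1 = 0 := by linear_combination k00
  have hM11 : M 1 1 = M 0 0 := by linear_combination k10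
  have hMc : M = M 0 0 • (1 : M2 A) := by
    ext i j
    fin_cases i <;> fin_cases j <;> simp [hM10, hM01, hM11]
  have hc : IsUnit (M 0 0) := by
    rw [Matrix.det_fin_two, hM10, hM01, hM11] at hM
    simp only [mul_zero, sub_zero] at hM
    exact isUnit_of_mul_isUnit_left hM
  refine ⟨?_, M 0 0, hc, hMc⟩
  funext g
  have h1 := hint g
  rw [hMc, Matrix.smul_mul, Matrix.mul_smul, Matrix.one_mul, Matrix.mul_one] at h1
  ext i j
  have h2 := congrFun (congrFun h1 i) j
  rw [Matrix.smul_apply, Matrix.smul_apply, smul_eq_mul, smul_eq_mul] at h2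
  exact hc.mul_left_cancel h2

end Unique

section Exist

variable {A : Type*} [CommRing A] [IsLocalRing A]

theorem isUnit_of_sub_one_mem {x : A} (h : x - 1 ∈ maximalIdeal A) : IsUnit x := by
  by_contra hx
  have hx' : x ∈ maximalIdeal A := (mem_maximalIdeal _).mpr hx
  have h1 := (maximalIdeal A).sub_mem hx' h
  rw [sub_sub_cancel] at h1
  exact (Ideal.ne_top_iff_one _).mp (maximalIdeal.isMaximal A).ne_top h1

/-- An eigenvalue near `1` of a matrix congruent to `E11`. -/
theorem exists_eigenvalue_near_one [HenselianRing A (maximalIdeal A)] (R : M2 A)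
    (hR : MatCongr (maximalIdeal A) R (E11 A)) :
    ∃ lam : A, lam - 1 ∈ maximalIdeal A ∧
      lam ^ 2 - (R 0 0 + R 1 1) * lam + (R 0 0 * R 1 1 - R 0 1 * R 1 0) = 0 := by
  have h00 : R 0 0 - 1 ∈ maximalIdeal A := by simpa [E11] using hR 0 0
  have h01 : R 0 1 ∈ maximalIdeal A := by simpa [E11] using hR 0 1
  have h11 : R 1 1 ∈ maximalIdeal A := by simpa [E11] using hR 1 1
  set t : A := R 0 0 + R 1 1 with ht
  set d : A := R 0 0 * R 1 1 - R 0 1 * R 1 0 with hd
  let f : A[X] := X ^ 2 - (C t * X - C d)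
  have hmonic : f.Monic := by
    show (X ^ 2 - (C t * X - C d) : A[X]).Monic
    monicity!
  have heval : ∀ x : A, f.eval x = x ^ 2 - t * x + d := by
    intro x
    simp only [f, eval_sub, eval_pow, eval_X, eval_mul, eval_C]
    ring
  have hder : f.derivative.eval 1 = 2 - t := by
    simp only [f, derivative_sub, derivative_X_pow, derivative_mul, derivative_C, derivative_X,
      eval_sub, eval_mul, eval_C, eval_pow, eval_X, eval_add, eval_one, eval_zero]
    simp
  have h1 : f.eval 1 ∈ maximalIdeal A := by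
    rw [heval]
    have : (1 : A) ^ 2 - t * 1 + d = (R 0 0 - 1) * (R 1 1 - 1) - R 0 1 * R 1 0 := by
      rw [ht, hd]; ring
    rw [this]
    exact (maximalIdeal A).sub_mem ((maximalIdeal A).mul_mem_right _ h00)
      ((maximalIdeal A).mul_mem_right _ h01)
  have h2 : IsUnit (f.derivative.eval 1) := by
    rw [hder]
    apply isUnit_of_sub_one_mem
    have : (2 : A) - t - 1 = -(R 0 0 - 1) - R 1 1 := by rw [ht]; ring
    rw [this]
    exact (maximalIdeal A).sub_mem ((maximalIdeal A).neg_mem h00) h11
  obtain ⟨lam, hroot, hlam⟩ := HenselianRing.is_henselian (I := maximalIdeal A) f hmonic 1 h1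
    (h2.map (Ideal.Quotient.mk (maximalIdeal A)))
  refine ⟨lam, hlam, ?_⟩
  have := hroot
  rw [Polynomial.IsRoot, heval] at this
  exact this

variable {G : Type*} {𝒪 : Type*} [CommRing 𝒪] [Algebra 𝒪 A]

/-- **Existence of the normal form.** -/
theorem exists_conj_isNF [HenselianRing A (maximalIdeal A)] (r : G → M2 A) (a b : G →₀ 𝒪)
    (ha : MatCongr (maximalIdeal A) (comb r a) (E11 A))
    (hb : MatCongr (maximalIdeal A) (comb r b) (E21 A)) :
    ∃ M N : M2 A, M * N = 1 ∧ N * M = 1 ∧ MatCongr (maximalIdeal A) M 1 ∧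
      MatCongr (maximalIdeal A) N 1 ∧ IsNF a b (fun g => N * r g * M) := by
  obtain ⟨lam, hlam, hroot⟩ := exists_eigenvalue_near_one (comb r a) ha
  set Ra := comb r a with hRa
  set Rb := comb r b with hRb
  have a10 : Ra 1 0 ∈ maximalIdeal A := by simpa [E11] using ha 1 0
  have a11 : Ra 1 1 ∈ maximalIdeal A := by simpa [E11] using ha 1 1
  have b00 : Rb 0 0 ∈ maximalIdeal A := by simpa [E21] using hb 0 0
  have b01 : Rb 0 1 ∈ maximalIdeal A := by simpa [E21] using hb 0 1
  have b10 : Rb 1 0 - 1 ∈ maximalIdeal A := by simpa [E21] using hb 1 0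
  have b11 : Rb 1 1 ∈ maximalIdeal A := by simpa [E21] using hb 1 1
  have hu : IsUnit (lam - Ra 1 1) := by
    apply isUnit_of_sub_one_mem
    have : lam - Ra 1 1 - 1 = (lam - 1) - Ra 1 1 := by ring
    rw [this]
    exact (maximalIdeal A).sub_mem hlam a11
  obtain ⟨u, hu⟩ := hu
  set t : A := Ra 1 0 * ↑u⁻¹ with ht
  have htm : t ∈ maximalIdeal A := (maximalIdeal A).mul_mem_right _ a10
  have hut : (lam - Ra 1 1) * t = Ra 1 0 := by
    rw [ht, ← hu]
    rw [mul_comm, mul_assoc, Units.inv_mul, mul_one]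
  set w0 : A := Rb 0 0 + Rb 0 1 * t with hw0
  set w1 : A := Rb 1 0 + Rb 1 1 * t with hw1
  have hw0m : w0 ∈ maximalIdeal A :=
    (maximalIdeal A).add_mem b00 ((maximalIdeal A).mul_mem_right _ b01)
  have hw1m : w1 - 1 ∈ maximalIdeal A := by
    have : w1 - 1 = (Rb 1 0 - 1) + Rb 1 1 * t := by rw [hw1]; ring
    rw [this]
    exact (maximalIdeal A).add_mem b10 ((maximalIdeal A).mul_mem_right _ b11)
  set M : M2 A := !![1, w0; t, w1] with hM
  have hdet : IsUnit M.det := by
    apply isUnit_of_sub_one_mem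
    rw [Matrix.det_fin_two]
    have : M 0 0 * M 1 1 - M 0 1 * M 1 0 - 1 = (w1 - 1) - w0 * t := by
      simp [hM]
      ring
    rw [this]
    exact (maximalIdeal A).sub_mem hw1m ((maximalIdeal A).mul_mem_right _ hw0m)
  have hMN : M * M⁻¹ = 1 := Matrix.mul_nonsing_inv M hdet
  have hNM : M⁻¹ * M = 1 := Matrix.nonsing_inv_mul M hdet
  have hM1 : MatCongr (maximalIdeal A) M 1 := by
    intro i j
    fin_cases i <;> fin_cases j <;> simp [hM, hw0m, htm, hw1m]
  have hN1 : MatCongr (maximalIdeal A) M⁻¹ 1 := by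
    have h1 := MatCongr.mul (MatCongr.refl (I := maximalIdeal A) M⁻¹) hM1.symm
    rw [Matrix.mul_one, hNM] at h1
    exact h1
  -- the eigenvector relation
  have hRaM : ∀ i, (Ra * M) i 0 = lam * M i 0 := by
    intro i
    rw [Matrix.mul_apply, Fin.sum_univ_two]
    fin_cases i
    · simp only [hM, Fin.zero_eta, Fin.isValue, of_apply, cons_val', cons_val_zero,
        cons_val_fin_one, cons_val_one, mul_one]
      -- `Ra 0 0 + Ra 0 1 * t = lam`
      have h1 : (lam - Ra 1 1) * (Ra 0 0 + Ra 0 1 * t - lam) = 0 := by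
        linear_combination (-1 : A) * hroot + Ra 0 1 * hut
      have h2 := (IsUnit.mul_right_eq_zero (hu ▸ u.isUnit)).mp h1
      linear_combination h2
    · simp only [hM, Fin.mk_one, Fin.isValue, of_apply, cons_val', cons_val_zero,
        cons_val_fin_one, cons_val_one, mul_one]
      linear_combination (-1 : A) * hut
  have hRbM : ∀ i, (Rb * M) i 0 = M i 1 := by
    intro i
    rw [Matrix.mul_apply, Fin.sum_univ_two]
    fin_cases i <;> simp [hM, hw0, hw1]
  have hcomb : ∀ c : G →₀ 𝒪, comb (fun g => M⁻¹ * r g * M) c = M⁻¹ * (comb r c * M) := by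
    intro c
    rw [comb_mul, mul_comb]
    congr 1
    funext g
    rw [Matrix.mul_assoc]
  refine ⟨M, M⁻¹, hMN, hNM, hM1, hN1, ?_, ?_, ?_⟩
  · rw [hcomb, Matrix.mul_apply]
    simp only [← hRa, hRaM]
    have h1 := congrFun (congrFun hNM 1) 0
    rw [Matrix.mul_apply] at h1
    simp only [Fin.sum_univ_two] at h1 ⊢
    simp only [Matrix.one_apply_ne (show (1 : Fin 2) ≠ 0 by decide)] at h1
    linear_combination lam * h1
  · rw [hcomb, Matrix.mul_apply]
    simp only [← hRb, hRbM]
    have h1 := congrFun (congrFun hNM 0) 1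
    rw [Matrix.mul_apply] at h1
    simpa using h1
  · rw [hcomb, Matrix.mul_apply]
    simp only [← hRb, hRbM]
    have h1 := congrFun (congrFun hNM 1) 1
    rw [Matrix.mul_apply] at h1
    simpa using h1

end Exist

end Fermat.Agent.S53.NF
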