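import Fermat.Agent.S53.Defs
import Fermat.Agent.S53.Burnside
import Fermat.Agent.S53.NormalForm

/-!
# Normal forms and frames, in the vocabulary of `Fermat.Agent.S53.Defs`
-/

set_option autoImplicit false

namespace Fermat.Agent.S53

open IsLocalRing Matrix

section

variable {𝒪 : Type} [CommRing 𝒪] {A : Type} [CommRing A] [Algebra 𝒪 A]

theorem evalGA_eq_comb (r : GQ →* M2 A) (a : GQ →₀ 𝒪) : evalGA r a = NF.comb (fun g => r g) a := by
  unfold evalGA NF.comb
  refine Finsupp.sum_congr fun g _ => ?_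
  ext i j
  show algebraMap 𝒪 A (a g) • r g i j = a g • r g i j
  rw [Algebra.smul_def (a g), smul_eq_mul]

theorem isNF_iff (a b : GQ →₀ 𝒪) (r : GQ →* M2 A) : IsNF a b r ↔ NF.IsNF a b (fun g => r g) := by
  constructor
  · intro h
    exact ⟨by rw [← evalGA_eq_comb]; exact h.a10, by rw [← evalGA_eq_comb]; exact h.b00,
      by rw [← evalGA_eq_comb]; exact h.b10⟩
  · intro h
    exact ⟨by rw [evalGA_eq_comb]; exact h.a10, by rw [evalGA_eq_comb]; exact h.b00,
      by rw [evalGA_eq_comb]; exact h.b10⟩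

end

section

variable {𝒪 : Type} [CommRing 𝒪] [IsLocalRing 𝒪] {A : Type} [CommRing A] [IsLocalRing A]
  [Algebra 𝒪 A] [IsLocalHom (algebraMap 𝒪 A)]

theorem algebraMap_mem_maximalIdeal {x : 𝒪} (hx : x ∈ maximalIdeal 𝒪) :
    algebraMap 𝒪 A x ∈ maximalIdeal A :=
  map_nonunit (algebraMap 𝒪 A) x hx

omit [IsLocalRing 𝒪] [IsLocalHom (algebraMap 𝒪 A)] in
/-- For a lift `r` of `rt`, `r(c) ≡ image of rt(c)` modulo the maximal ideal. -/
theorem comb_congr_of_isLift {rt : GQ → M2 𝒪} {r : GQ →* M2 A} (hr : IsLift rt r)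
    (c : GQ →₀ 𝒪) :
    NF.MatCongr (maximalIdeal A) (NF.comb (fun g => r g) c)
      ((c.sum fun g x => x • rt g).map (algebraMap 𝒪 A)) := by
  have h1 : NF.MatCongr (maximalIdeal A) (NF.comb (fun g => r g) c)
      (NF.comb (fun g => (rt g).map (algebraMap 𝒪 A)) c) :=
    NF.comb_congr (fun g i j => hr g i j) c
  have h2 : NF.comb (fun g => (rt g).map (algebraMap 𝒪 A)) c =
      (c.sum fun g x => x • rt g).map (algebraMap 𝒪 A) := by
    have := NF.comb_map (𝒪 := 𝒪) (Algebra.ofId 𝒪 A) rt c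
    exact this
  rw [h2] at h1
  exact h1

theorem comb_a_congr {rt : GQ → M2 𝒪} {a b : GQ →₀ 𝒪} (hF : IsFrame rt a b) {r : GQ →* M2 A}
    (hr : IsLift rt r) : NF.MatCongr (maximalIdeal A) (NF.comb (fun g => r g) a) (NF.E11 A) := by
  refine (comb_congr_of_isLift hr a).trans ?_
  intro i j
  have h := algebraMap_mem_maximalIdeal (A := A) (hF.ha i j)
  rw [map_sub] at h
  rw [Matrix.map_apply]
  convert h using 2
  fin_cases i <;> fin_cases j <;> simp [NF.E11]

theorem comb_b_congr {rt : GQ → M2 𝒪} {a b : GQ →₀ 𝒪} (hF : IsFrame rt a b) {r : GQ →* M2 A}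
    (hr : IsLift rt r) : NF.MatCongr (maximalIdeal A) (NF.comb (fun g => r g) b) (NF.E21 A) := by
  refine (comb_congr_of_isLift hr b).trans ?_
  intro i j
  have h := algebraMap_mem_maximalIdeal (A := A) (hF.hb i j)
  rw [map_sub] at h
  rw [Matrix.map_apply]
  convert h using 2
  fin_cases i <;> fin_cases j <;> simp [NF.E21]

/-- **Uniqueness of the normal form** (vocabulary of `Defs`). -/
theorem eq_of_isNF {rt : GQ → M2 𝒪} {a b : GQ →₀ 𝒪} (hF : IsFrame rt a b) {r r' : GQ →* M2 A}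
    (hr : IsLift rt r) (hr' : IsLift rt r') (hn : IsNF a b r) (hn' : IsNF a b r')
    (M : M2 A) (hM : IsUnit M.det) (hint : ∀ σ, M * r σ = r' σ * M) : r = r' := by
  have := (NF.eq_of_isNF_of_intertwine (comb_a_congr hF hr) (comb_a_congr hF hr')
    ((isNF_iff a b r).mp hn) ((isNF_iff a b r').mp hn') M hM hint).1
  ext σ : 1
  exact congrFun this σ

/-- the intertwiner between two normal forms is a scalar -/
theorem scalar_of_isNF {rt : GQ → M2 𝒪} {a b : GQ →₀ 𝒪} (hF : IsFrame rt a b) {r r' : GQ →* M2 A}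
    (hr : IsLift rt r) (hr' : IsLift rt r') (hn : IsNF a b r) (hn' : IsNF a b r')
    (M : M2 A) (hM : IsUnit M.det) (hint : ∀ σ, M * r σ = r' σ * M) :
    ∃ c : A, IsUnit c ∧ M = c • 1 :=
  (NF.eq_of_isNF_of_intertwine (comb_a_congr hF hr) (comb_a_congr hF hr')
    ((isNF_iff a b r).mp hn) ((isNF_iff a b r').mp hn') M hM hint).2

omit [IsLocalRing 𝒪] [IsLocalHom (algebraMap 𝒪 A)] in
theorem isLift_conjMat {rt : GQ → M2 𝒪} {r : GQ →* M2 A} (hr : IsLift rt r) (M : GL (Fin 2) A)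
    (hM : NF.MatCongr (maximalIdeal A) (M : M2 A) 1)
    (hM' : NF.MatCongr (maximalIdeal A) ((M⁻¹ : GL (Fin 2) A) : M2 A) 1) :
    IsLift rt (conjMat M r) := by
  intro σ i j
  have h1 : NF.MatCongr (maximalIdeal A) (conjMat M r σ) (1 * r σ * 1) :=
    (hM.mul (NF.MatCongr.refl _)).mul hM'
  rw [one_mul, mul_one] at h1
  have := (maximalIdeal A).add_mem (h1 i j) (hr σ i j)
  rwa [sub_add_sub_cancel] at this

omit [Algebra 𝒪 A] [IsLocalHom (algebraMap 𝒪 A)] in
theorem matCont_conjMat {r : GQ →* M2 A} (hr : MatCont r) (M : GL (Fin 2) A) :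
    MatCont (conjMat M r) := by
  intro n
  obtain ⟨L, hL, h⟩ := hr n
  refine ⟨L, hL, fun σ hσ => ?_⟩
  have h1 : NF.MatCongr (maximalIdeal A ^ n) (r σ) 1 := fun i j => h σ hσ i j
  have h2 : NF.MatCongr (maximalIdeal A ^ n) (conjMat M r σ)
      ((M : M2 A) * 1 * ((M⁻¹ : GL (Fin 2) A) : M2 A)) :=
    ((NF.MatCongr.refl _).mul h1).mul (NF.MatCongr.refl _)
  rw [mul_one, ← Units.val_mul, mul_inv_cancel, Units.val_one] at h2
  exact fun i j => h2 i j

/-- **Existence of the normal form** (vocabulary of `Defs`). -/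
theorem exists_conjMat_isNF [HenselianRing A (maximalIdeal A)] {rt : GQ → M2 𝒪} {a b : GQ →₀ 𝒪}
    (hF : IsFrame rt a b) {r : GQ →* M2 A} (hr : IsLift rt r) :
    ∃ M : GL (Fin 2) A, IsNF a b (conjMat M r) ∧ IsLift rt (conjMat M r) ∧
      (MatCont r → MatCont (conjMat M r)) := by
  obtain ⟨M, N, hMN, hNM, hM1, hN1, hNF⟩ :=
    NF.exists_conj_isNF (fun g => r g) a b (comb_a_congr hF hr) (comb_b_congr hF hr)
  let U : GL (Fin 2) A := ⟨N, M, hNM, hMN⟩
  refine ⟨U, (isNF_iff a b _).mpr hNF, isLift_conjMat hr U hN1 hM1, fun h => matCont_conjMat h U⟩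

end

section Frame

variable {𝒪 : Type} [CommRing 𝒪] [IsLocalRing 𝒪]

/-- Existence of a frame, from the spanning property. -/
theorem exists_isFrame_of_span (rb : GQ →* M2 (ResidueField 𝒪))
    (hspan : Submodule.span (ResidueField 𝒪) (Set.range rb) = ⊤)
    (rt : GQ → M2 𝒪) (hrt : ∀ σ i j, residue 𝒪 (rt σ i j) = rb σ i j) :
    ∃ a b : GQ →₀ 𝒪, IsFrame rt a b := by
  have key : ∀ (E : M2 𝒪), ∃ c : GQ →₀ 𝒪, ∀ i j,
      (c.sum fun g x => x • rt g) i j - E i j ∈ maximalIdeal 𝒪 := by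
    intro E
    obtain ⟨c, hc⟩ := exists_comb (residue 𝒪) (residue_surjective) rb hspan (E.map (residue 𝒪))
    refine ⟨c, fun i j => ?_⟩
    rw [← residue_eq_zero_iff, map_sub, sub_eq_zero]
    have h1 := congrFun (congrFun hc i) j
    rw [Matrix.map_apply] at h1
    rw [← h1]
    unfold Finsupp.sum
    rw [Matrix.sum_apply, Matrix.sum_apply, map_sum]
    refine Finset.sum_congr rfl fun g _ => ?_
    show residue 𝒪 (c g • rt g i j) = residue 𝒪 (c g) • rb g i j
    rw [smul_eq_mul, smul_eq_mul, map_mul, hrt]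
  obtain ⟨a, ha⟩ := key (Matrix.single 0 0 1)
  obtain ⟨b, hb⟩ := key (Matrix.single 1 0 1)
  exact ⟨a, b, ha, hb⟩

/-- Existence of a frame for an absolutely irreducible `rb` (matrix form). -/
theorem exists_isFrame (rb : GQ →* M2 (ResidueField 𝒪)) {K : Type*} [Field K] [IsAlgClosed K]
    (ι : ResidueField 𝒪 →+* K)
    (hirr : MatIrred ((ι.mapMatrix (m := Fin 2)).toMonoidHom.comp rb))
    (rt : GQ → M2 𝒪) (hrt : ∀ σ i j, residue 𝒪 (rt σ i j) = rb σ i j) :
    ∃ a b : GQ →₀ 𝒪, IsFrame rt a b :=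
  exists_isFrame_of_span rb (span_eq_top_of_matIrred_map ι rb hirr) rt hrt

end Frame

end Fermat.Agent.S53
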