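import Fermat.Agent.S53.Interface

/-!
# S53: basic facts on Artinian test algebras
-/

set_option autoImplicit false
set_option linter.style.haveILetI false
set_option linter.unusedSectionVars false

namespace Fermat.Agent.S53

open IsLocalRing GaloisRep

section TestAlg

variable {𝒪 : Type} [CommRing 𝒪] [IsLocalRing 𝒪]

/-- elementary form of residue surjectivity -/
lemma exists_sub_mem_of_residue_surjective {A : Type} [CommRing A] [IsLocalRing A] [Algebra 𝒪 A]
    (h : Function.Surjective (IsLocalRing.residue A ∘ algebraMap 𝒪 A)) (a : A) :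
    ∃ c : 𝒪, a - algebraMap 𝒪 A c ∈ maximalIdeal A := by
  obtain ⟨c, hc⟩ := h (IsLocalRing.residue A a)
  refine ⟨c, ?_⟩
  rw [← IsLocalRing.residue_eq_zero_iff, map_sub, sub_eq_zero]
  exact hc.symm

lemma residue_surjective_of_exists_sub_mem {A : Type} [CommRing A] [IsLocalRing A] [Algebra 𝒪 A]
    (h : ∀ a : A, ∃ c : 𝒪, a - algebraMap 𝒪 A c ∈ maximalIdeal A) :
    Function.Surjective (IsLocalRing.residue A ∘ algebraMap 𝒪 A) := by
  intro y
  obtain ⟨a, rfl⟩ := IsLocalRing.residue_surjective y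
  obtain ⟨c, hc⟩ := h a
  refine ⟨c, ?_⟩
  rw [← IsLocalRing.residue_eq_zero_iff, map_sub, sub_eq_zero] at hc
  exact hc.symm

/-- An `𝒪`-algebra homomorphism into a local `𝒪`-algebra with residue field `k` is local. -/
lemma algHom_map_maximalIdeal {R A : Type} [CommRing R] [IsLocalRing R] [Algebra 𝒪 R]
    [CommRing A] [IsLocalRing A] [Algebra 𝒪 A] (hloc : IsLocalHom (algebraMap 𝒪 A))
    (hres : Function.Surjective (IsLocalRing.residue A ∘ algebraMap 𝒪 A))
    (q : R →ₐ[𝒪] A) {z : R} (hz : z ∈ maximalIdeal R) : q z ∈ maximalIdeal A := by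
  by_contra hq
  obtain ⟨c, hc⟩ := exists_sub_mem_of_residue_surjective hres (q z)
  have hu : IsUnit (q z) := by
    by_contra h
    exact hq ((IsLocalRing.mem_maximalIdeal _).mpr h)
  have hcu : IsUnit (algebraMap 𝒪 A c) := by
    by_contra h
    have h1 : algebraMap 𝒪 A c ∈ maximalIdeal A := (IsLocalRing.mem_maximalIdeal _).mpr h
    have h2 := (maximalIdeal A).add_mem hc h1
    rw [sub_add_cancel] at h2
    exact hq h2
  have hc' : IsUnit c := hloc.map_nonunit c hcu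
  have h3 : IsUnit (z - algebraMap 𝒪 R c) := by
    by_contra h
    have h1 : z - algebraMap 𝒪 R c ∈ maximalIdeal R := (IsLocalRing.mem_maximalIdeal _).mpr h
    have h2 := (maximalIdeal R).sub_mem hz h1
    rw [sub_sub_cancel] at h2
    exact (IsLocalRing.mem_maximalIdeal _).mp h2 (hc'.map (algebraMap 𝒪 R))
  have h4 : IsUnit (q (z - algebraMap 𝒪 R c)) := h3.map q
  rw [map_sub, AlgHom.commutes] at h4
  exact (IsLocalRing.mem_maximalIdeal _).mp hc h4

lemma algHom_isLocalHom {R A : Type} [CommRing R] [IsLocalRing R] [Algebra 𝒪 R]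
    [CommRing A] [IsLocalRing A] [Algebra 𝒪 A] (hloc : IsLocalHom (algebraMap 𝒪 A))
    (hres : Function.Surjective (IsLocalRing.residue A ∘ algebraMap 𝒪 A))
    (q : R →ₐ[𝒪] A) : IsLocalHom (q : R →+* A) := by
  refine ⟨fun z hz => ?_⟩
  by_contra h
  exact (IsLocalRing.mem_maximalIdeal _).mp
    (algHom_map_maximalIdeal hloc hres q ((IsLocalRing.mem_maximalIdeal _).mpr h)) hz

lemma algHom_map_maximalIdeal_pow {R A : Type} [CommRing R] [IsLocalRing R] [Algebra 𝒪 R]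
    [CommRing A] [IsLocalRing A] [Algebra 𝒪 A] (hloc : IsLocalHom (algebraMap 𝒪 A))
    (hres : Function.Surjective (IsLocalRing.residue A ∘ algebraMap 𝒪 A))
    (q : R →ₐ[𝒪] A) (n : ℕ) {z : R} (hz : z ∈ maximalIdeal R ^ n) :
    q z ∈ maximalIdeal A ^ n := by
  have h1 : (maximalIdeal R).map (q : R →+* A) ≤ maximalIdeal A := by
    rw [Ideal.map_le_iff_le_comap]
    intro y hy
    exact algHom_map_maximalIdeal hloc hres q hy
  have h2 : (maximalIdeal R ^ n).map (q : R →+* A) ≤ maximalIdeal A ^ n := by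
    rw [Ideal.map_pow]
    exact Ideal.pow_right_mono h1 n
  exact h2 (Ideal.mem_map_of_mem _ hz)

/-- the maximal ideal of an Artinian test algebra is nilpotent -/
lemma testAlg_exists_pow_eq_bot {A : Type} [CommRing A] [IsLocalRing A] [Algebra 𝒪 A]
    (hA : IsArtinianTestAlgebra 𝒪 A) : ∃ n : ℕ, maximalIdeal A ^ n = ⊥ := by
  haveI := hA.isArtinian
  obtain ⟨n, hn⟩ := (isArtinianRing_iff_isNilpotent_maximalIdeal A).mp hA.isArtinian
  exact ⟨n, hn⟩

/-- An Artinian test algebra is a finite ring. -/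
lemma testAlg_finite [Finite (ResidueField 𝒪)] {A : Type} [CommRing A] [IsLocalRing A]
    [Algebra 𝒪 A] (hA : IsArtinianTestAlgebra 𝒪 A) : Finite A := by
  haveI := hA.isArtinian
  haveI := hA.isLocalHom
  haveI : Finite (A ⧸ maximalIdeal A) := by
    refine Finite.of_surjective (IsLocalRing.ResidueField.map (algebraMap 𝒪 A)) ?_
    intro y
    obtain ⟨c, hc⟩ := hA.residue_surjective y
    exact ⟨IsLocalRing.residue 𝒪 c, hc⟩
  obtain ⟨n, hn⟩ := testAlg_exists_pow_eq_bot hA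
  have := Ideal.finite_quotient_pow (IsNoetherian.noetherian (maximalIdeal A)) n
  rw [hn] at this
  exact .of_equiv _ (RingEquiv.quotientBot A).toEquiv

/-- the residue field is an Artinian test algebra -/
lemma testAlg_residueField : IsArtinianTestAlgebra 𝒪 (ResidueField 𝒪) where
  isLocalHom := by
    refine ⟨fun c hc => ?_⟩
    by_contra h
    have : IsLocalRing.residue 𝒪 c = 0 :=
      (IsLocalRing.residue_eq_zero_iff c).mpr ((IsLocalRing.mem_maximalIdeal _).mpr h)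
    rw [IsLocalRing.ResidueField.algebraMap_eq, this] at hc
    exact not_isUnit_zero hc
  residue_surjective := by
    apply residue_surjective_of_exists_sub_mem
    intro a
    obtain ⟨c, rfl⟩ := IsLocalRing.residue_surjective a
    exact ⟨c, by rw [IsLocalRing.ResidueField.algebraMap_eq, sub_self]; exact zero_mem _⟩
  isArtinian := inferInstance

/-- the dual numbers (with `dualAlg`) are an Artinian test algebra -/
lemma testAlg_dualNumber [Finite (ResidueField 𝒪)] :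
    letI := dualAlg 𝒪
    IsArtinianTestAlgebra 𝒪 (DualNumber (ResidueField 𝒪)) := by
  letI := dualAlg 𝒪
  have halg : ∀ c : 𝒪, algebraMap 𝒪 (DualNumber (ResidueField 𝒪)) c =
      TrivSqZeroExt.inl (IsLocalRing.residue 𝒪 c) := fun c => rfl
  have hunit : ∀ x : DualNumber (ResidueField 𝒪), IsUnit x ↔ x.fst ≠ 0 := by
    intro x
    rw [TrivSqZeroExt.isUnit_iff_isUnit_fst, isUnit_iff_ne_zero]
  refine ⟨⟨fun c hc => ?_⟩, ?_, ?_⟩
  · rw [halg, hunit, TrivSqZeroExt.fst_inl] at hc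
    by_contra h
    exact hc ((IsLocalRing.residue_eq_zero_iff c).mpr ((IsLocalRing.mem_maximalIdeal _).mpr h))
  · apply residue_surjective_of_exists_sub_mem
    intro a
    obtain ⟨c, hc⟩ := IsLocalRing.residue_surjective a.fst
    refine ⟨c, ?_⟩
    rw [IsLocalRing.mem_maximalIdeal, mem_nonunits_iff, hunit, halg]
    simp [hc]
  · haveI : Finite (DualNumber (ResidueField 𝒪)) :=
      inferInstanceAs (Finite (ResidueField 𝒪 × ResidueField 𝒪))
    infer_instance

end TestAlg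

section Aug

variable {𝒪 : Type} [CommRing 𝒪] [IsLocalRing 𝒪] {B : Type} [CommRing B] [Algebra 𝒪 B]

/-- `𝔐` is the kernel of an augmentation `B → k`. -/
structure IsAug (𝒪 : Type) [CommRing 𝒪] [IsLocalRing 𝒪] {B : Type} [CommRing B] [Algebra 𝒪 B]
    (𝔐 : Ideal B) : Prop where
  ne_top : 𝔐 ≠ ⊤
  surj : ∀ b : B, ∃ a : 𝒪, b - algebraMap 𝒪 B a ∈ 𝔐
  loc : ∀ a ∈ maximalIdeal 𝒪, algebraMap 𝒪 B a ∈ 𝔐

/-- `J` is an ideal between a power of `𝔐` and `𝔐`, of finite index. -/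
structure IsAdm (𝔐 J : Ideal B) : Prop where
  le : J ≤ 𝔐
  pow : ∃ n : ℕ, 𝔐 ^ n ≤ J
  fin : Finite (B ⧸ J)

variable {𝔐 J : Ideal B}

lemma IsAug.isUnit_mk_iff (h : IsAug 𝒪 𝔐) (hle : J ≤ 𝔐) (hpow : ∃ n : ℕ, 𝔐 ^ n ≤ J) (b : B) :
    IsUnit (Ideal.Quotient.mk J b) ↔ b ∉ 𝔐 := by
  obtain ⟨n, hn⟩ := hpow
  have hnil : ∀ μ ∈ 𝔐, IsNilpotent (Ideal.Quotient.mk J μ) := fun μ hμ =>
    ⟨n, by rw [← map_pow, Ideal.Quotient.eq_zero_iff_mem]; exact hn (Ideal.pow_mem_pow hμ n)⟩
  constructor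
  · intro hu hb
    have h0 := (hnil b hb)
    obtain ⟨m, hm⟩ := h0
    have h1 : IsUnit ((Ideal.Quotient.mk J b) ^ m) := hu.pow m
    rw [hm] at h1
    have h2 : (1 : B ⧸ J) = 0 := by
      haveI := isUnit_zero_iff.mp h1
      exact this.symm
    rw [← map_one (Ideal.Quotient.mk J), Ideal.Quotient.eq_zero_iff_mem] at h2
    exact h.ne_top ((Ideal.eq_top_iff_one _).mpr (hle h2))
  · intro hb
    obtain ⟨a, ha⟩ := h.surj b
    have hau : IsUnit a := by
      by_contra hna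
      have h1 := h.loc a ((IsLocalRing.mem_maximalIdeal _).mpr hna)
      have h2 := 𝔐.add_mem ha h1
      rw [sub_add_cancel] at h2
      exact hb h2
    have h3 : Ideal.Quotient.mk J b =
        Ideal.Quotient.mk J (algebraMap 𝒪 B a) + Ideal.Quotient.mk J (b - algebraMap 𝒪 B a) := by
      rw [← map_add]; congr 1; ring
    rw [h3]
    exact ((hnil _ ha).isUnit_add_left_of_commute
      ((hau.map (algebraMap 𝒪 B)).map (Ideal.Quotient.mk J)) (Commute.all _ _))

lemma IsAug.isLocalRing (h : IsAug 𝒪 𝔐) (hle : J ≤ 𝔐) (hpow : ∃ n : ℕ, 𝔐 ^ n ≤ J) :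
    IsLocalRing (B ⧸ J) := by
  haveI : Nontrivial (B ⧸ J) := by
    rw [Ideal.Quotient.nontrivial_iff]
    rintro rfl
    exact h.ne_top (top_le_iff.mp hle)
  refine IsLocalRing.of_nonunits_add ?_
  intro x y hx hy
  obtain ⟨x, rfl⟩ := Ideal.Quotient.mk_surjective x
  obtain ⟨y, rfl⟩ := Ideal.Quotient.mk_surjective y
  rw [mem_nonunits_iff, h.isUnit_mk_iff hle hpow, not_not] at hx hy
  rw [← map_add, mem_nonunits_iff, h.isUnit_mk_iff hle hpow, not_not]
  exact 𝔐.add_mem hx hy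

lemma IsAug.mk_mem_maximalIdeal_iff (h : IsAug 𝒪 𝔐) (hle : J ≤ 𝔐) (hpow : ∃ n : ℕ, 𝔐 ^ n ≤ J)
    (b : B) :
    haveI := h.isLocalRing hle hpow
    Ideal.Quotient.mk J b ∈ maximalIdeal (B ⧸ J) ↔ b ∈ 𝔐 := by
  haveI := h.isLocalRing hle hpow
  rw [IsLocalRing.mem_maximalIdeal, mem_nonunits_iff, h.isUnit_mk_iff hle hpow, not_not]

lemma IsAug.testAlg (h : IsAug 𝒪 𝔐) (hJ : IsAdm 𝔐 J) :
    haveI := h.isLocalRing hJ.le hJ.pow
    IsArtinianTestAlgebra 𝒪 (B ⧸ J) := by
  haveI := h.isLocalRing hJ.le hJ.pow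
  refine ⟨⟨fun c hc => ?_⟩, ?_, ?_⟩
  · have h1 : algebraMap 𝒪 (B ⧸ J) c = Ideal.Quotient.mk J (algebraMap 𝒪 B c) := rfl
    rw [h1, h.isUnit_mk_iff hJ.le hJ.pow] at hc
    by_contra hn
    exact hc (h.loc c ((IsLocalRing.mem_maximalIdeal _).mpr hn))
  · apply residue_surjective_of_exists_sub_mem
    intro a
    obtain ⟨b, rfl⟩ := Ideal.Quotient.mk_surjective a
    obtain ⟨c, hc⟩ := h.surj b
    refine ⟨c, ?_⟩
    have h1 : algebraMap 𝒪 (B ⧸ J) c = Ideal.Quotient.mk J (algebraMap 𝒪 B c) := rfl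
    rw [h1, ← map_sub, h.mk_mem_maximalIdeal_iff hJ.le hJ.pow]
    exact hc
  · haveI := hJ.fin
    infer_instance

end Aug

end Fermat.Agent.S53
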