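import Fermat.Agent.S53.RigidDef
import Fermat.Agent.S53.NormalFormGQ
import Fermat.Agent.S53.TestAlg

/-!
# S53: the functor of normalised lifts is rigid, part A (base, map, descend, fibre)
-/

set_option autoImplicit false

namespace Fermat.Agent.S53

open IsLocalRing GaloisRep

section joint

variable {P A B : Type} [CommRing P] [CommRing A] [CommRing B]

/-- A family of entries which becomes multiplicative under a jointly injective pair of ring
homomorphisms is multiplicative. -/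
lemma exists_hom_of_entries (pA : P →+* A) (pB : P →+* B)
    (hinj : Function.Injective (fun x => (pA x, pB x))) (x : XG → P)
    (rA : GQ →* M2 A) (rB : GQ →* M2 B) (hA : ∀ σ i j, rA σ i j = pA (x (σ, i, j)))
    (hB : ∀ σ i j, rB σ i j = pB (x (σ, i, j))) :
    ∃ r : GQ →* M2 P, ∀ σ i j, r σ i j = x (σ, i, j) := by
  refine ⟨{ toFun := fun σ => Matrix.of fun i j => x (σ, i, j), map_one' := ?_, map_mul' := ?_ },
    fun σ i j => rfl⟩
  · ext i j
    apply hinj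
    have h1 : pA (x (1, i, j)) = pA ((1 : M2 P) i j) := by
      rw [← hA, map_one, Matrix.one_apply, Matrix.one_apply, apply_ite pA, map_one, map_zero]
    have h2 : pB (x (1, i, j)) = pB ((1 : M2 P) i j) := by
      rw [← hB, map_one, Matrix.one_apply, Matrix.one_apply, apply_ite pB, map_one, map_zero]
    exact Prod.ext h1 h2
  · intro σ τ
    ext i j
    apply hinj
    have h1 : pA (x (σ * τ, i, j)) = pA (∑ l, x (σ, i, l) * x (τ, l, j)) := by
      rw [← hA, map_mul, Matrix.mul_apply, map_sum]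
      exact Finset.sum_congr rfl fun l _ => by rw [hA, hA, map_mul]
    have h2 : pB (x (σ * τ, i, j)) = pB (∑ l, x (σ, i, l) * x (τ, l, j)) := by
      rw [← hB, map_mul, Matrix.mul_apply, map_sum]
      exact Finset.sum_congr rfl fun l _ => by rw [hB, hB, map_mul]
    exact Prod.ext h1 h2

end joint

section joint2

variable {𝒪 : Type} [CommRing 𝒪] [IsLocalRing 𝒪]
variable {P A B : Type} [CommRing P] [IsLocalRing P] [Algebra 𝒪 P]
  [CommRing A] [IsLocalRing A] [Algebra 𝒪 A] [CommRing B] [IsLocalRing B] [Algebra 𝒪 B]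

omit [Algebra 𝒪 P] in
lemma matCont_of_joint (hA : IsArtinianTestAlgebra 𝒪 A) (hB : IsArtinianTestAlgebra 𝒪 B)
    (pA : P →+* A) (pB : P →+* B)
    (hinj : Function.Injective (fun x => (pA x, pB x))) (r : GQ →* M2 P)
    (hrA : MatCont (mapMat pA r)) (hrB : MatCont (mapMat pB r)) : MatCont r := by
  intro n
  obtain ⟨nA, hnA⟩ := testAlg_exists_pow_eq_bot hA
  obtain ⟨nB, hnB⟩ := testAlg_exists_pow_eq_bot hB
  obtain ⟨LA, hLA, h1⟩ := hrA nA
  obtain ⟨LB, hLB, h2⟩ := hrB nB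
  refine ⟨LA ⊔ LB, IntermediateField.finiteDimensional_sup LA LB, fun σ hσ i j => ?_⟩
  have h1' := h1 σ (fun x hx => hσ x ((le_sup_left : LA ≤ LA ⊔ LB) hx)) i j
  have h2' := h2 σ (fun x hx => hσ x ((le_sup_right : LB ≤ LA ⊔ LB) hx)) i j
  rw [hnA, Ideal.mem_bot] at h1'
  rw [hnB, Ideal.mem_bot] at h2'
  have e1 : pA ((r σ - 1) i j) = 0 := by
    rw [← h1']
    simp [Matrix.sub_apply, Matrix.one_apply, apply_ite pA]
  have e2 : pB ((r σ - 1) i j) = 0 := by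
    rw [← h2']
    simp [Matrix.sub_apply, Matrix.one_apply, apply_ite pB]
  have : (r σ - 1) i j = 0 := hinj (by
    show (pA _, pB _) = (pA 0, pB 0)
    rw [e1, e2, map_zero, map_zero])
  rw [this]
  exact zero_mem _

omit [IsLocalRing 𝒪] in
lemma isLift_of_mapMat (pA : P →ₐ[𝒪] A) (rt : GQ → M2 𝒪) (r : GQ →* M2 P)
    (h : IsLift rt (mapMat (pA : P →+* A) r)) : IsLift rt r := by
  intro σ i j
  rw [IsLocalRing.mem_maximalIdeal, mem_nonunits_iff]
  intro hu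
  have h1 := h σ i j
  rw [mapMat_apply, IsLocalRing.mem_maximalIdeal, mem_nonunits_iff] at h1
  apply h1
  have := hu.map pA
  rwa [map_sub, AlgHom.commutes] at this

omit [IsLocalRing 𝒪] [IsLocalRing P] [IsLocalRing A] [IsLocalRing B] in
lemma isNF_of_joint (pA : P →ₐ[𝒪] A) (pB : P →ₐ[𝒪] B)
    (hinj : Function.Injective (fun x => (pA x, pB x))) (a b : GQ →₀ 𝒪) (r : GQ →* M2 P)
    (hrA : IsNF a b (mapMat (pA : P →+* A) r)) (hrB : IsNF a b (mapMat (pB : P →+* B) r)) :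
    IsNF a b r := by
  rw [isNF_iff] at hrA hrB ⊢
  have eA : ∀ c : GQ →₀ 𝒪, NF.comb (fun g => mapMat (pA : P →+* A) r g) c =
      (NF.comb (fun g => r g) c).map pA := fun c => NF.comb_map pA (fun g => r g) c
  have eB : ∀ c : GQ →₀ 𝒪, NF.comb (fun g => mapMat (pB : P →+* B) r g) c =
      (NF.comb (fun g => r g) c).map pB := fun c => NF.comb_map pB (fun g => r g) c
  refine ⟨hinj ?_, hinj ?_, hinj ?_⟩
  · have h1 := hrA.a10
    have h2 := hrB.a10
    rw [eA, Matrix.map_apply] at h1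
    rw [eB, Matrix.map_apply] at h2
    show (pA _, pB _) = (pA 0, pB 0)
    rw [h1, h2, map_zero, map_zero]
  · have h1 := hrA.b00
    have h2 := hrB.b00
    rw [eA, Matrix.map_apply] at h1
    rw [eB, Matrix.map_apply] at h2
    show (pA _, pB _) = (pA 0, pB 0)
    rw [h1, h2, map_zero, map_zero]
  · have h1 := hrA.b10
    have h2 := hrB.b10
    rw [eA, Matrix.map_apply] at h1
    rw [eB, Matrix.map_apply] at h2
    show (pA _, pB _) = (pA 1, pB 1)
    rw [h1, h2, map_one, map_one]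

end joint2

section main

variable {𝒪 : Type} [CommRing 𝒪] [IsLocalRing 𝒪]
  {𝒟 : ∀ ⦃A : Type⦄ [CommRing A] [IsLocalRing A] [Algebra 𝒪 A], GaloisRepAdic A → Prop}
  (rt : GQ → M2 𝒪) (a b : GQ →₀ 𝒪)

theorem pts_base ⦃A : Type⦄ [CommRing A] [IsLocalRing A] [Algebra 𝒪 A]
    (_hA : IsArtinianTestAlgebra 𝒪 A) (x : XG → A) (hx : Pts 𝒟 rt a b x) (i : XG) :
    x i - algebraMap 𝒪 A (x0 rt i) ∈ maximalIdeal A := by
  obtain ⟨r, hr, hg⟩ := hx
  obtain ⟨σ, i, j⟩ := i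
  rw [← hr]
  exact hg.lift σ i j

/-- push-forward of a good lift -/
theorem IsGood.mapMat (h𝒟 : IsDeformationCondition 𝒪 𝒟)
    ⦃A B : Type⦄ [CommRing A] [IsLocalRing A] [Algebra 𝒪 A]
    [CommRing B] [IsLocalRing B] [Algebra 𝒪 B]
    (hA : IsArtinianTestAlgebra 𝒪 A) (hB : IsArtinianTestAlgebra 𝒪 B)
    (φ : A →ₐ[𝒪] B) {r : GQ →* M2 A} (hg : IsGood 𝒟 rt a b r) :
    IsGood 𝒟 rt a b (mapMat (φ : A →+* B) r) := by
  have hφ : IsLocalHom (φ : A →+* B) := algHom_isLocalHom hB.isLocalHom hB.residue_surjective φ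
  refine ⟨hg.cont.mapMat _ hφ, ?_, ?_, ?_⟩
  · intro σ i j
    have h1 := algHom_map_maximalIdeal hB.isLocalHom hB.residue_surjective φ (hg.lift σ i j)
    rwa [map_sub, AlgHom.commutes] at h1
  · rw [isNF_iff]
    exact ((isNF_iff a b r).mp hg.nf).map φ
  · exact h𝒟.of_isEquiv hB (baseChangeAlong_ofMat_isEquiv r hg.cont _ hφ)
      (h𝒟.baseChangeAlong hA hB φ hφ hg.type)

theorem pts_map (h𝒟 : IsDeformationCondition 𝒪 𝒟)
    ⦃A B : Type⦄ [CommRing A] [IsLocalRing A] [Algebra 𝒪 A]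
    [CommRing B] [IsLocalRing B] [Algebra 𝒪 B]
    (hA : IsArtinianTestAlgebra 𝒪 A) (hB : IsArtinianTestAlgebra 𝒪 B)
    (φ : A →ₐ[𝒪] B) (x : XG → A) (hx : Pts 𝒟 rt a b x) : Pts 𝒟 rt a b (φ ∘ x) := by
  obtain ⟨r, hr, hg⟩ := hx
  refine ⟨mapMat (φ : A →+* B) r, fun σ i j => ?_, hg.mapMat rt a b h𝒟 hA hB φ⟩
  rw [mapMat_apply, hr]
  rfl

theorem pts_descend (h𝒟 : IsDeformationCondition 𝒪 𝒟)
    ⦃A B : Type⦄ [CommRing A] [IsLocalRing A] [Algebra 𝒪 A]
    [CommRing B] [IsLocalRing B] [Algebra 𝒪 B]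
    (hA : IsArtinianTestAlgebra 𝒪 A) (hB : IsArtinianTestAlgebra 𝒪 B)
    (φ : A →ₐ[𝒪] B) (hinj : Function.Injective φ) (x : XG → A)
    (hx : Pts 𝒟 rt a b (φ ∘ x)) : Pts 𝒟 rt a b x := by
  obtain ⟨r', hr', hg⟩ := hx
  have hφ : IsLocalHom (φ : A →+* B) := algHom_isLocalHom hB.isLocalHom hB.residue_surjective φ
  have hinj2 : Function.Injective (fun x => ((φ : A →+* B) x, (φ : A →+* B) x)) :=
    fun u v huv => hinj (congrArg Prod.fst huv)
  obtain ⟨r, hr⟩ := exists_hom_of_entries (φ : A →+* B) (φ : A →+* B) hinj2 x r' r' hr' hr'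
  have e : r' = mapMat (φ : A →+* B) r := by
    ext σ i j
    rw [mapMat_apply, hr, hr']
    rfl
  subst e
  have hc : MatCont r := matCont_of_joint hB hB _ _ hinj2 r hg.cont hg.cont
  refine ⟨r, hr, hc, isLift_of_mapMat φ rt r hg.lift, isNF_of_joint φ φ hinj2 a b r hg.nf hg.nf, ?_⟩
  exact h𝒟.of_baseChangeAlong_injective hA hB φ hφ hinj
    (h𝒟.of_isEquiv hB (IsEquiv.symm' (baseChangeAlong_ofMat_isEquiv r hc _ hφ)) hg.type)

theorem pts_fibre (h𝒟 : IsDeformationCondition 𝒪 𝒟)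
    ⦃A B C P : Type⦄ [CommRing A] [IsLocalRing A] [Algebra 𝒪 A]
    [CommRing B] [IsLocalRing B] [Algebra 𝒪 B] [CommRing C] [IsLocalRing C] [Algebra 𝒪 C]
    [CommRing P] [IsLocalRing P] [Algebra 𝒪 P]
    (hA : IsArtinianTestAlgebra 𝒪 A) (hB : IsArtinianTestAlgebra 𝒪 B)
    (hC : IsArtinianTestAlgebra 𝒪 C) (hP : IsArtinianTestAlgebra 𝒪 P)
    (f : A →ₐ[𝒪] C) (g : B →ₐ[𝒪] C) (pA : P →ₐ[𝒪] A) (pB : P →ₐ[𝒪] B)
    (hcomp : f.comp pA = g.comp pB)
    (hinj : Function.Injective (fun x => (pA x, pB x)))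
    (hsurj : ∀ a b, f a = g b → ∃ x, pA x = a ∧ pB x = b)
    (x : XG → P) (hxA : Pts 𝒟 rt a b (pA ∘ x)) (hxB : Pts 𝒟 rt a b (pB ∘ x)) :
    Pts 𝒟 rt a b x := by
  obtain ⟨rA, hrA, gA⟩ := hxA
  obtain ⟨rB, hrB, gB⟩ := hxB
  have hpA : IsLocalHom (pA : P →+* A) := algHom_isLocalHom hA.isLocalHom hA.residue_surjective pA
  have hpB : IsLocalHom (pB : P →+* B) := algHom_isLocalHom hB.isLocalHom hB.residue_surjective pB
  obtain ⟨r, hr⟩ := exists_hom_of_entries (pA : P →+* A) (pB : P →+* B) hinj x rA rB hrA hrB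
  have eA : rA = mapMat (pA : P →+* A) r := by
    ext σ i j
    rw [mapMat_apply, hr, hrA]
    rfl
  have eB : rB = mapMat (pB : P →+* B) r := by
    ext σ i j
    rw [mapMat_apply, hr, hrB]
    rfl
  subst eA eB
  have hc : MatCont r := matCont_of_joint hA hB _ _ hinj r gA.cont gB.cont
  refine ⟨r, hr, hc, isLift_of_mapMat pA rt r gA.lift, isNF_of_joint pA pB hinj a b r gA.nf gB.nf, ?_⟩
  exact h𝒟.of_fibreProduct hA hB hC hP f g pA pB hpA hpB hcomp hinj hsurj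
    (h𝒟.of_isEquiv hA (IsEquiv.symm' (baseChangeAlong_ofMat_isEquiv r hc _ hpA)) gA.type)
    (h𝒟.of_isEquiv hB (IsEquiv.symm' (baseChangeAlong_ofMat_isEquiv r hc _ hpB)) gB.type)

end main

end Fermat.Agent.S53
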