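import Fermat.Agent.S53.MatRep
import Fermat.Agent.S53.NormalFormGQ

/-!
# Absolute irreducibility in matrix form, existence of a frame for `ρbar`
-/

set_option autoImplicit false

namespace Fermat.Agent.S53

open IsLocalRing Matrix Module
open scoped TensorProduct

variable {k : Type} [Field k] (ρbar : ResidualGaloisRep k) (bbar : Basis (Fin 2) k ρbar.V)

/-- absolute irreducibility of `ρbar` in matrix form -/
theorem matIrred_resMat (h : ρbar.IsAbsolutelyIrreducible) :
    MatIrred ((((algebraMap k (AlgebraicClosure k)).mapMatrix (m := Fin 2)).toMonoidHom).comp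
      (resMat ρbar bbar)) := by
  intro W' hW'
  let K := AlgebraicClosure k
  let B : Basis (Fin 2) K (K ⊗[k] ρbar.V) := Algebra.TensorProduct.basis K bbar
  let e : (K ⊗[k] ρbar.V) ≃ₗ[K] (Fin 2 → K) := B.equivFun
  let W : Submodule K (K ⊗[k] ρbar.V) := W'.comap (e : (K ⊗[k] ρbar.V) →ₗ[K] (Fin 2 → K))
  have hW : ∀ σ : GQ, ∀ x ∈ W, (ρbar.baseChange K).ρ σ x ∈ W := by
    intro σ x hx
    show e ((ρbar.ρ σ).baseChange K x) ∈ W'
    have h1 : e ((ρbar.ρ σ).baseChange K x) =
        (LinearMap.toMatrix B B ((ρbar.ρ σ).baseChange K)) *ᵥ (e x) := by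
      have := LinearMap.toMatrix_mulVec_repr B B ((ρbar.ρ σ).baseChange K) x
      exact this.symm
    rw [h1, LinearMap.toMatrix_baseChange]
    exact hW' σ (e x) hx
  rcases h W hW with h0 | h1
  · left
    rw [eq_bot_iff]
    intro y hy
    have hy' : e.symm y ∈ W := by
      show e (e.symm y) ∈ W'
      rwa [LinearEquiv.apply_symm_apply]
    rw [h0, Submodule.mem_bot] at hy'
    have : y = e (e.symm y) := (LinearEquiv.apply_symm_apply e y).symm
    rw [this, hy', map_zero]
    exact Submodule.zero_mem _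
  · right
    rw [eq_top_iff]
    intro y _
    have hy' : e.symm y ∈ W := h1 ▸ Submodule.mem_top
    have : e (e.symm y) ∈ W' := hy'
    rwa [LinearEquiv.apply_symm_apply] at this

/-- a frame exists for every set-theoretic lift `rt` of the matrix form of an absolutely
irreducible `ρbar` -/
theorem exists_isFrame_resMat {𝒪 : Type} [CommRing 𝒪] [IsLocalRing 𝒪]
    (ρbar : ResidualGaloisRep (ResidueField 𝒪)) (bbar : Basis (Fin 2) (ResidueField 𝒪) ρbar.V)
    (h : ρbar.IsAbsolutelyIrreducible) (rt : GQ → M2 𝒪)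
    (hrt : ∀ σ i j, residue 𝒪 (rt σ i j) = resMat ρbar bbar σ i j) :
    ∃ a b : GQ →₀ 𝒪, IsFrame rt a b :=
  exists_isFrame (resMat ρbar bbar) (algebraMap (ResidueField 𝒪) (AlgebraicClosure (ResidueField 𝒪)))
    (matIrred_resMat ρbar bbar h) rt hrt

/-- a set-theoretic lift of the matrix form of `ρbar` -/
theorem exists_setLift {𝒪 : Type} [CommRing 𝒪] [IsLocalRing 𝒪]
    (rb : GQ →* M2 (ResidueField 𝒪)) :
    ∃ rt : GQ → M2 𝒪, ∀ σ i j, residue 𝒪 (rt σ i j) = rb σ i j :=
  ⟨fun σ => Matrix.of fun i j => (residue_surjective (rb σ i j)).choose,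
    fun σ i j => (residue_surjective (rb σ i j)).choose_spec⟩

end Fermat.Agent.S53
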