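import Mathlib
import Fermat.Prelude.Def_GaloisRep_DeformationRingData
import Fermat.Prelude.Def_GaloisRep_DeformationCondition

/-!
# S53: shared definitions (matrix representations, lifts, normal form)
-/

set_option autoImplicit false

namespace Fermat.Agent.S53

open IsLocalRing

/-- The absolute Galois group of `ℚ`. -/
abbrev GQ : Type := AlgebraicClosure ℚ ≃ₐ[ℚ] AlgebraicClosure ℚ

/-- `2 × 2` matrices. -/
abbrev M2 (A : Type) : Type := Matrix (Fin 2) (Fin 2) A

/-- Adic continuity of a matrix valued homomorphism. -/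
def MatCont {A : Type} [CommRing A] [IsLocalRing A] (r : GQ →* M2 A) : Prop :=
  ∀ n : ℕ, ∃ L : IntermediateField ℚ (AlgebraicClosure ℚ), FiniteDimensional ℚ L ∧
    ∀ σ : GQ, (∀ x ∈ L, σ x = x) → ∀ i j, (r σ - 1) i j ∈ maximalIdeal A ^ n

lemma mem_smul_top_pi {A : Type} [CommRing A] (I : Ideal A) (w : Fin 2 → A)
    (hw : ∀ i, w i ∈ I) : w ∈ I • (⊤ : Submodule A (Fin 2 → A)) := by
  rw [pi_eq_sum_univ w]
  refine Submodule.sum_mem _ fun i _ => ?_
  exact Submodule.smul_mem_smul (hw i) Submodule.mem_top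

/-- The `GaloisRepAdic` attached to a continuous matrix valued homomorphism. -/
noncomputable def ofMat {A : Type} [CommRing A] [IsLocalRing A] (r : GQ →* M2 A)
    (hr : MatCont r) : GaloisRepAdic A where
  V := Fin 2 → A
  finrank_eq := by simp
  ρ :=
    { toFun := fun σ => Matrix.toLin' (r σ)
      map_one' := by rw [map_one, Matrix.toLin'_one]; rfl
      map_mul' := fun σ τ => by rw [map_mul, Matrix.toLin'_mul]; rfl }
  isAdicContinuous := by
    intro n
    obtain ⟨L, hL, h⟩ := hr n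
    refine ⟨L, hL, fun σ hσ v => ?_⟩
    apply mem_smul_top_pi
    intro i
    have h1 : (Matrix.toLin' (r σ) v - v) i = ∑ j, (r σ - 1) i j * v j := by
      rw [Pi.sub_apply, Matrix.toLin'_apply]
      have h2 : v i = ((1 : M2 A).mulVec v) i := by rw [Matrix.one_mulVec]
      conv_lhs => rw [h2]
      rw [← Pi.sub_apply, ← Matrix.sub_mulVec]
      rfl
    change (Matrix.toLin' (r σ) v - v) i ∈ _
    rw [h1]
    exact Ideal.sum_mem _ fun j _ => Ideal.mul_mem_right _ _ (h σ hσ i j)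

@[simp] lemma ofMat_ρ_apply {A : Type} [CommRing A] [IsLocalRing A] (r : GQ →* M2 A)
    (hr : MatCont r) (σ : GQ) (v : Fin 2 → A) :
    (ofMat r hr).ρ σ v = (r σ).mulVec v := rfl

/-- Push a matrix valued homomorphism forward along a ring homomorphism. -/
noncomputable def mapMat {A B : Type} [CommRing A] [CommRing B] (φ : A →+* B) (r : GQ →* M2 A) :
    GQ →* M2 B :=
  (φ.mapMatrix (m := Fin 2)).toMonoidHom.comp r

@[simp] lemma mapMat_apply {A B : Type} [CommRing A] [CommRing B] (φ : A →+* B)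
    (r : GQ →* M2 A) (σ : GQ) (i j : Fin 2) : mapMat φ r σ i j = φ (r σ i j) := rfl

/-- Conjugate a matrix valued homomorphism by an invertible matrix. -/
noncomputable def conjMat {A : Type} [CommRing A] (M : GL (Fin 2) A) (r : GQ →* M2 A) :
    GQ →* M2 A where
  toFun σ := (M : M2 A) * r σ * ((M⁻¹ : GL (Fin 2) A) : M2 A)
  map_one' := by rw [map_one, mul_one, ← Units.val_mul, mul_inv_cancel, Units.val_one]
  map_mul' σ τ := by
    have h : ((M⁻¹ : GL (Fin 2) A) : M2 A) * (M : M2 A) = 1 := by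
      rw [← Units.val_mul, inv_mul_cancel, Units.val_one]
    calc (M : M2 A) * r (σ * τ) * ((M⁻¹ : GL (Fin 2) A) : M2 A)
        = (M : M2 A) * r σ * 1 * r τ * ((M⁻¹ : GL (Fin 2) A) : M2 A) := by
          rw [map_mul, mul_one]; simp only [mul_assoc]
      _ = _ := by rw [← h]; simp only [mul_assoc]

@[simp] lemma conjMat_apply {A : Type} [CommRing A] (M : GL (Fin 2) A) (r : GQ →* M2 A)
    (σ : GQ) : conjMat M r σ = (M : M2 A) * r σ * ((M⁻¹ : GL (Fin 2) A) : M2 A) := rfl

section Frame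

variable {𝒪 : Type} [CommRing 𝒪]

/-- Evaluate an element of the group algebra `𝒪[GQ]` under a matrix valued homomorphism. -/
noncomputable def evalGA {A : Type} [CommRing A] [Algebra 𝒪 A] (r : GQ →* M2 A)
    (a : GQ →₀ 𝒪) : M2 A :=
  a.sum fun g c => algebraMap 𝒪 A c • r g

/-- `r` lifts the (set theoretic) matrix valued function `rt : GQ → M2 𝒪` modulo the maximal
ideal. In applications `rt` is a set-theoretic lift of a matrix form `rb` of `ρbar`. -/
def IsLift {A : Type} [CommRing A] [IsLocalRing A] [Algebra 𝒪 A] (rt : GQ → M2 𝒪)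
    (r : GQ →* M2 A) : Prop :=
  ∀ σ i j, r σ i j - algebraMap 𝒪 A (rt σ i j) ∈ maximalIdeal A

/-- Normal form with respect to `a b : 𝒪[GQ]` (to be chosen with `rb a = E₁₁`, `rb b = E₂₁`):
`e₀` is an eigenvector of `r a` and `r b e₀ = e₁`. -/
structure IsNF {A : Type} [CommRing A] [Algebra 𝒪 A] (a b : GQ →₀ 𝒪)
    (r : GQ →* M2 A) : Prop where
  a10 : evalGA r a 1 0 = 0
  b00 : evalGA r b 0 0 = 0
  b10 : evalGA r b 1 0 = 1

/-- The conditions on `a b : 𝒪[GQ]` relative to the set-theoretic lift `rt`: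
`rt a ≡ E₁₁` and `rt b ≡ E₂₁` modulo the maximal ideal of `𝒪`. -/
structure IsFrame [IsLocalRing 𝒪] (rt : GQ → M2 𝒪) (a b : GQ →₀ 𝒪) : Prop where
  ha : ∀ i j, (a.sum fun g c => c • rt g) i j -
    (Matrix.single 0 0 1 : M2 𝒪) i j ∈ maximalIdeal 𝒪
  hb : ∀ i j, (b.sum fun g c => c • rt g) i j -
    (Matrix.single 1 0 1 : M2 𝒪) i j ∈ maximalIdeal 𝒪

/-- A normalised lift of type `𝒟`. -/
structure IsGood [IsLocalRing 𝒪]
    (𝒟 : ∀ ⦃A : Type⦄ [CommRing A] [IsLocalRing A] [Algebra 𝒪 A], GaloisRepAdic A → Prop)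
    (rt : GQ → M2 𝒪) (a b : GQ →₀ 𝒪)
    {A : Type} [CommRing A] [IsLocalRing A] [Algebra 𝒪 A] (r : GQ →* M2 A) : Prop where
  cont : MatCont r
  lift : IsLift rt r
  nf : IsNF a b r
  type : 𝒟 (ofMat r cont)

end Frame

end Fermat.Agent.S53
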