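import Fermat.Statements.S53

/-!
# S53: interface between the representation side and the commutative-algebra side

`IsRigidFunctor 𝒪 X x0 𝓕` : a "rigid deformation problem": a point over `A` is a function `X → A`.
`Representable` : the conclusion of the abstract representability theorem.
-/

set_option autoImplicit false

namespace Fermat.Agent.S53

open IsLocalRing GaloisRep

/-- the `𝒪`-algebra structure on the dual numbers which is used in `GaloisRep.TangentFinite`. -/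
@[reducible] noncomputable def dualAlg (𝒪 : Type) [CommRing 𝒪] [IsLocalRing 𝒪] :
    Algebra 𝒪 (DualNumber (ResidueField 𝒪)) :=
  ((algebraMap (ResidueField 𝒪) (DualNumber (ResidueField 𝒪))).comp
      (algebraMap 𝒪 (ResidueField 𝒪))).toAlgebra

/-- A rigid deformation problem: points over `A` are certain functions `X → A`. -/
structure IsRigidFunctor (𝒪 : Type) [CommRing 𝒪] [IsLocalRing 𝒪] (X : Type) (x0 : X → 𝒪)
    (𝓕 : ∀ ⦃A : Type⦄ [CommRing A] [IsLocalRing A] [Algebra 𝒪 A], (X → A) → Prop) : Prop where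
  /-- every point reduces to the base point -/
  base : ∀ ⦃A : Type⦄ [CommRing A] [IsLocalRing A] [Algebra 𝒪 A], IsArtinianTestAlgebra 𝒪 A →
    ∀ x : X → A, 𝓕 x → ∀ i, x i - algebraMap 𝒪 A (x0 i) ∈ maximalIdeal A
  /-- functoriality -/
  map : ∀ ⦃A B : Type⦄ [CommRing A] [IsLocalRing A] [Algebra 𝒪 A]
    [CommRing B] [IsLocalRing B] [Algebra 𝒪 B],
    IsArtinianTestAlgebra 𝒪 A → IsArtinianTestAlgebra 𝒪 B →
    ∀ (φ : A →ₐ[𝒪] B) (x : X → A), 𝓕 x → 𝓕 (φ ∘ x)
  /-- descent along injections -/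
  descend : ∀ ⦃A B : Type⦄ [CommRing A] [IsLocalRing A] [Algebra 𝒪 A]
    [CommRing B] [IsLocalRing B] [Algebra 𝒪 B],
    IsArtinianTestAlgebra 𝒪 A → IsArtinianTestAlgebra 𝒪 B →
    ∀ (φ : A →ₐ[𝒪] B), Function.Injective φ → ∀ (x : X → A), 𝓕 (φ ∘ x) → 𝓕 x
  /-- fibre products -/
  fibre : ∀ ⦃A B C P : Type⦄ [CommRing A] [IsLocalRing A] [Algebra 𝒪 A]
    [CommRing B] [IsLocalRing B] [Algebra 𝒪 B] [CommRing C] [IsLocalRing C] [Algebra 𝒪 C]
    [CommRing P] [IsLocalRing P] [Algebra 𝒪 P],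
    IsArtinianTestAlgebra 𝒪 A → IsArtinianTestAlgebra 𝒪 B → IsArtinianTestAlgebra 𝒪 C →
    IsArtinianTestAlgebra 𝒪 P →
    ∀ (f : A →ₐ[𝒪] C) (g : B →ₐ[𝒪] C) (pA : P →ₐ[𝒪] A) (pB : P →ₐ[𝒪] B),
      f.comp pA = g.comp pB →
      Function.Injective (fun x => (pA x, pB x)) →
      (∀ a b, f a = g b → ∃ x, pA x = a ∧ pB x = b) →
      ∀ (x : X → P), 𝓕 (pA ∘ x) → 𝓕 (pB ∘ x) → 𝓕 x
  /-- finitely many points over the dual numbers -/
  tangent : letI := dualAlg 𝒪
    Set.Finite {x : X → DualNumber (ResidueField 𝒪) | 𝓕 x}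
  /-- the base point is a point over the residue field -/
  residue : 𝓕 (fun i => IsLocalRing.residue 𝒪 (x0 i))

/-- The conclusion of the abstract representability theorem. -/
def Representable (𝒪 : Type) [CommRing 𝒪] [IsLocalRing 𝒪] (X : Type)
    (𝓕 : ∀ ⦃A : Type⦄ [CommRing A] [IsLocalRing A] [Algebra 𝒪 A], (X → A) → Prop) : Prop :=
  ∃ (R : Type) (_ : CommRing R) (_ : IsLocalRing R) (_ : IsNoetherianRing R)
    (_ : IsAdicComplete (maximalIdeal R) R) (_ : Algebra 𝒪 R) (_ : IsLocalHom (algebraMap 𝒪 R))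
    (xu : X → R),
    Function.Surjective (IsLocalRing.residue R ∘ algebraMap 𝒪 R) ∧
    -- (a) every Artinian specialisation of the universal point is a point
    (∀ (B : Type) [CommRing B] [IsLocalRing B] [Algebra 𝒪 B], IsArtinianTestAlgebra 𝒪 B →
      ∀ q : R →ₐ[𝒪] B, 𝓕 (q ∘ xu)) ∧
    -- (b) existence
    (∀ (A : Type) [CommRing A] [IsLocalRing A] [IsNoetherianRing A]
      [IsAdicComplete (maximalIdeal A) A] [Algebra 𝒪 A] [IsLocalHom (algebraMap 𝒪 A)],
      Function.Surjective (IsLocalRing.residue A ∘ algebraMap 𝒪 A) →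
      ∀ x : X → A,
        (∀ (B : Type) [CommRing B] [IsLocalRing B] [Algebra 𝒪 B], IsArtinianTestAlgebra 𝒪 B →
          ∀ q : A →ₐ[𝒪] B, Function.Surjective q → 𝓕 (q ∘ x)) →
        ∃ φ : R →ₐ[𝒪] A, φ ∘ xu = x) ∧
    -- (c) uniqueness
    (∀ (A : Type) [CommRing A] [IsLocalRing A] [IsNoetherianRing A]
      [IsAdicComplete (maximalIdeal A) A] [Algebra 𝒪 A] [IsLocalHom (algebraMap 𝒪 A)],
      Function.Surjective (IsLocalRing.residue A ∘ algebraMap 𝒪 A) →
      ∀ φ φ' : R →ₐ[𝒪] A, φ ∘ xu = φ' ∘ xu → φ = φ')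

end Fermat.Agent.S53
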