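import Fermat.Agent.S53.Interface
import Fermat.Agent.S53.Defs

/-!
# S53: matrix representations versus `GaloisRepAdic`
-/

set_option autoImplicit false
set_option linter.style.haveILetI false

namespace Fermat.Agent.S53

open IsLocalRing GaloisRep Module
open scoped TensorProduct

section basic

variable {A : Type} [CommRing A] [IsLocalRing A]

lemma ofMat_ρ (r : GQ →* M2 A) (hr : MatCont r) (σ : GQ) :
    (ofMat r hr).ρ σ = Matrix.toLin' (r σ) := rfl

/-- two adic representations with bases in which the matrices agree are equivalent -/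
lemma isEquiv_of_toMatrix_eq (ρ₁ ρ₂ : GaloisRepAdic A) (b₁ : Basis (Fin 2) A ρ₁.V)
    (b₂ : Basis (Fin 2) A ρ₂.V)
    (h : ∀ σ, LinearMap.toMatrix b₁ b₁ (ρ₁.ρ σ) = LinearMap.toMatrix b₂ b₂ (ρ₂.ρ σ)) :
    ρ₁.IsEquiv ρ₂ := by
  refine ⟨⟨b₁.equiv b₂ (Equiv.refl _), fun σ x => ?_⟩⟩
  have key : ((b₁.equiv b₂ (Equiv.refl _)).toLinearMap ∘ₗ ρ₁.ρ σ) =
      (ρ₂.ρ σ ∘ₗ (b₁.equiv b₂ (Equiv.refl _)).toLinearMap) := by
    apply b₁.ext
    intro j
    simp only [LinearMap.comp_apply, LinearEquiv.coe_coe, Basis.equiv_apply, Equiv.refl_apply]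
    have h1 : ρ₁.ρ σ (b₁ j) = ∑ i, LinearMap.toMatrix b₁ b₁ (ρ₁.ρ σ) i j • b₁ i := by
      simp [LinearMap.toMatrix_apply, Basis.sum_repr]
    have h2 : ρ₂.ρ σ (b₂ j) = ∑ i, LinearMap.toMatrix b₂ b₂ (ρ₂.ρ σ) i j • b₂ i := by
      simp [LinearMap.toMatrix_apply, Basis.sum_repr]
    rw [h1, h2, map_sum]
    simp [h σ]
  exact congrArg (fun f => f x) key

/-- the matrix representation attached to a basis -/
noncomputable def matOfBasis (ρ : GaloisRepAdic A) (b : Basis (Fin 2) A ρ.V) : GQ →* M2 A :=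
  ((LinearMap.toMatrixAlgEquiv b : Module.End A ρ.V ≃ₐ[A] M2 A) : Module.End A ρ.V →* M2 A).comp ρ.ρ

lemma matOfBasis_apply (ρ : GaloisRepAdic A) (b : Basis (Fin 2) A ρ.V) (σ : GQ) :
    matOfBasis ρ b σ = LinearMap.toMatrix b b (ρ.ρ σ) := rfl

lemma matCont_matOfBasis (ρ : GaloisRepAdic A) (b : Basis (Fin 2) A ρ.V) :
    MatCont (matOfBasis ρ b) := by
  intro n
  obtain ⟨L, hL, h⟩ := ρ.isAdicContinuous n
  refine ⟨L, hL, fun σ hσ i j => ?_⟩
  have h1 : (matOfBasis ρ b σ - 1) i j = b.repr (ρ.ρ σ (b j) - b j) i := by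
    simp [matOfBasis_apply, LinearMap.toMatrix_apply, Matrix.one_apply, Finsupp.single_apply,
      eq_comm]
  rw [h1]
  refine Submodule.smul_induction_on (p := fun w => b.repr w i ∈ maximalIdeal A ^ n)
    (h σ hσ (b j)) ?_ ?_
  · intro a ha v _
    simpa using Ideal.mul_mem_right _ _ ha
  · intro x y hx hy
    simpa using Ideal.add_mem _ hx hy

/-- the standard basis of `ofMat` -/
noncomputable def ofMatBasis (r : GQ →* M2 A) (hr : MatCont r) :
    Basis (Fin 2) A (ofMat r hr).V := Pi.basisFun A (Fin 2)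

lemma toMatrix_ofMat (r : GQ →* M2 A) (hr : MatCont r) (σ : GQ) :
    LinearMap.toMatrix (ofMatBasis r hr) (ofMatBasis r hr) ((ofMat r hr).ρ σ) = r σ := by
  change LinearMap.toMatrix (Pi.basisFun A (Fin 2)) (Pi.basisFun A (Fin 2))
    (Matrix.toLin' (r σ)) = r σ
  rw [LinearMap.toMatrix_eq_toMatrix', LinearMap.toMatrix'_toLin']

/-- every adic representation is equivalent to the matrix representation in any basis -/
lemma isEquiv_ofMat_matOfBasis (ρ : GaloisRepAdic A) (b : Basis (Fin 2) A ρ.V) :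
    ρ.IsEquiv (ofMat (matOfBasis ρ b) (matCont_matOfBasis ρ b)) :=
  isEquiv_of_toMatrix_eq ρ _ b (ofMatBasis _ _) fun σ => by
    rw [toMatrix_ofMat, matOfBasis_apply]

lemma IsEquiv.symm' {ρ₁ ρ₂ : GaloisRepAdic A} (h : ρ₁.IsEquiv ρ₂) : ρ₂.IsEquiv ρ₁ :=
  h.elim fun e => ⟨e.symm⟩

lemma IsEquiv.trans' {ρ₁ ρ₂ ρ₃ : GaloisRepAdic A} (h : ρ₁.IsEquiv ρ₂) (h' : ρ₂.IsEquiv ρ₃) :
    ρ₁.IsEquiv ρ₃ :=
  h.elim fun e => h'.elim fun e' => ⟨e.trans e'⟩

lemma matOfBasis_ofMat (r : GQ →* M2 A) (hr : MatCont r) :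
    matOfBasis (ofMat r hr) (ofMatBasis r hr) = r :=
  MonoidHom.ext fun σ => by rw [matOfBasis_apply, toMatrix_ofMat]

/-- equivalence of matrix representations is conjugation -/
lemma exists_conj_of_isEquiv {r r' : GQ →* M2 A} {hr : MatCont r} {hr' : MatCont r'}
    (h : (ofMat r hr).IsEquiv (ofMat r' hr')) :
    ∃ u : M2 A, IsUnit u.det ∧ ∀ σ, u * r σ = r' σ * u := by
  obtain ⟨e⟩ := h
  let f : (Fin 2 → A) ≃ₗ[A] (Fin 2 → A) := e.toLinearEquiv
  refine ⟨LinearMap.toMatrix' f.toLinearMap, ?_, fun σ => ?_⟩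
  · have : LinearMap.toMatrix' f.toLinearMap * LinearMap.toMatrix' f.symm.toLinearMap = 1 := by
      rw [← LinearMap.toMatrix'_comp]
      simp
    exact (Matrix.isUnit_iff_isUnit_det _).mp (IsUnit.of_mul_eq_one _ this)
  · have h1 : f.toLinearMap ∘ₗ Matrix.toLin' (r σ) = Matrix.toLin' (r' σ) ∘ₗ f.toLinearMap :=
      LinearMap.ext fun x => e.map_apply σ x
    have h2 := congrArg LinearMap.toMatrix' h1
    rwa [LinearMap.toMatrix'_comp, LinearMap.toMatrix'_comp, LinearMap.toMatrix'_toLin',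
      LinearMap.toMatrix'_toLin'] at h2

lemma isEquiv_of_conj {r r' : GQ →* M2 A} (hr : MatCont r) (hr' : MatCont r')
    (u : M2 A) (hu : IsUnit u.det) (h : ∀ σ, u * r σ = r' σ * u) :
    (ofMat r hr).IsEquiv (ofMat r' hr') := by
  have hu' : IsUnit u := (Matrix.isUnit_iff_isUnit_det _).mpr hu
  letI := hu'.invertible
  refine ⟨⟨Matrix.toLinearEquiv' u inferInstance, fun σ x => ?_⟩⟩
  have key : ∀ y : Fin 2 → A, u.mulVec ((r σ).mulVec y) = (r' σ).mulVec (u.mulVec y) := fun y => by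
    rw [Matrix.mulVec_mulVec, Matrix.mulVec_mulVec, h σ]
  exact key x

end basic

section baseChange

variable {A : Type} [CommRing A] [IsLocalRing A] {B : Type} [CommRing B] [IsLocalRing B]

lemma map_maximalIdeal_pow_le (φ : A →+* B) (hφ : IsLocalHom φ) (n : ℕ) {a : A}
    (ha : a ∈ maximalIdeal A ^ n) : φ a ∈ maximalIdeal B ^ n := by
  have hmap : (maximalIdeal A ^ n).map φ ≤ maximalIdeal B ^ n := by
    rw [Ideal.map_pow]
    exact Ideal.pow_right_mono (Ideal.map_le_iff_le_comap.mpr fun a ha =>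
      Ideal.mem_comap.mpr (haveI := hφ; map_nonunit φ a ha)) n
  exact hmap (Ideal.mem_map_of_mem φ ha)

lemma MatCont.mapMat {r : GQ →* M2 A} (hr : MatCont r) (φ : A →+* B) (hφ : IsLocalHom φ) :
    MatCont (mapMat φ r) := by
  intro n
  obtain ⟨L, hL, h⟩ := hr n
  refine ⟨L, hL, fun σ hσ i j => ?_⟩
  have : (Fermat.Agent.S53.mapMat φ r σ - 1) i j = φ ((r σ - 1) i j) := by
    simp [Matrix.sub_apply, Matrix.one_apply, apply_ite φ]
  rw [this]
  exact map_maximalIdeal_pow_le φ hφ n (h σ hσ i j)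

lemma baseChangeAlong_isEquiv_ofMat_matOfBasis (ρ : GaloisRepAdic A) (b : Basis (Fin 2) A ρ.V)
    (φ : A →+* B) (hφ : IsLocalHom φ) :
    (ρ.baseChangeAlong φ hφ).IsEquiv
      (ofMat (mapMat φ (matOfBasis ρ b)) ((matCont_matOfBasis ρ b).mapMat φ hφ)) := by
  letI : Algebra A B := φ.toAlgebra
  let b' : Basis (Fin 2) B (ρ.baseChangeAlong φ hφ).V := Algebra.TensorProduct.basis B b
  refine isEquiv_of_toMatrix_eq _ _ b' (ofMatBasis _ _) fun σ => ?_
  rw [toMatrix_ofMat]
  change LinearMap.toMatrix (Algebra.TensorProduct.basis B b) (Algebra.TensorProduct.basis B b)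
    ((ρ.ρ σ).baseChange B) = _
  rw [LinearMap.toMatrix_baseChange]
  rfl

lemma baseChangeAlong_ofMat_isEquiv (r : GQ →* M2 A) (hr : MatCont r)
    (φ : A →+* B) (hφ : IsLocalHom φ) :
    ((ofMat r hr).baseChangeAlong φ hφ).IsEquiv (ofMat (mapMat φ r) (hr.mapMat φ hφ)) := by
  have h := baseChangeAlong_isEquiv_ofMat_matOfBasis (ofMat r hr) (ofMatBasis r hr) φ hφ
  simpa only [matOfBasis_ofMat] using h

end baseChange

section residual

/-- two residual representations with bases in which the matrices agree are equivalent -/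
lemma res_isEquiv_of_toMatrix_eq {K : Type} [Field K] (ρ₁ ρ₂ : ResidualGaloisRep K)
    (b₁ : Basis (Fin 2) K ρ₁.V) (b₂ : Basis (Fin 2) K ρ₂.V)
    (h : ∀ σ, LinearMap.toMatrix b₁ b₁ (ρ₁.ρ σ) = LinearMap.toMatrix b₂ b₂ (ρ₂.ρ σ)) :
    ρ₁.IsEquiv ρ₂ := by
  refine ⟨⟨b₁.equiv b₂ (Equiv.refl _), fun σ x => ?_⟩⟩
  have key : ((b₁.equiv b₂ (Equiv.refl _)).toLinearMap ∘ₗ ρ₁.ρ σ) =
      (ρ₂.ρ σ ∘ₗ (b₁.equiv b₂ (Equiv.refl _)).toLinearMap) := by
    apply b₁.ext
    intro j
    simp only [LinearMap.comp_apply, LinearEquiv.coe_coe, Basis.equiv_apply, Equiv.refl_apply]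
    have h1 : ρ₁.ρ σ (b₁ j) = ∑ i, LinearMap.toMatrix b₁ b₁ (ρ₁.ρ σ) i j • b₁ i := by
      simp [LinearMap.toMatrix_apply, Basis.sum_repr]
    have h2 : ρ₂.ρ σ (b₂ j) = ∑ i, LinearMap.toMatrix b₂ b₂ (ρ₂.ρ σ) i j • b₂ i := by
      simp [LinearMap.toMatrix_apply, Basis.sum_repr]
    rw [h1, h2, map_sum]
    simp [h σ]
  exact congrArg (fun f => f x) key

variable {k : Type} [Field k] (ρbar : ResidualGaloisRep k) (bbar : Basis (Fin 2) k ρbar.V)

/-- the matrix form of a residual representation -/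
noncomputable def resMat : GQ →* M2 k :=
  ((LinearMap.toMatrixAlgEquiv bbar : Module.End k ρbar.V ≃ₐ[k] M2 k) :
    Module.End k ρbar.V →* M2 k).comp ρbar.ρ

lemma resMat_apply (σ : GQ) : resMat ρbar bbar σ = LinearMap.toMatrix bbar bbar (ρbar.ρ σ) := rfl

variable {A : Type} [CommRing A] [IsLocalRing A]

/-- a matrix representation reducing to `ρbar` has residual representation `ρbar`. -/
lemma residual_ofMat_isEquiv (r : GQ →* M2 A) (hr : MatCont r) (κ : k →+* ResidueField A)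
    (h : ∀ σ i j, IsLocalRing.residue A (r σ i j) = κ (resMat ρbar bbar σ i j)) :
    (ofMat r hr).residual.IsEquiv (ρbar.baseChangeAlong κ) := by
  letI : Algebra k (ResidueField A) := κ.toAlgebra
  let b₁ : Basis (Fin 2) (ResidueField A) (ofMat r hr).residual.V :=
    Algebra.TensorProduct.basis (ResidueField A) (ofMatBasis r hr)
  let b₂ : Basis (Fin 2) (ResidueField A) (ρbar.baseChangeAlong κ).V :=
    Algebra.TensorProduct.basis (ResidueField A) bbar
  refine res_isEquiv_of_toMatrix_eq _ _ b₁ b₂ fun σ => ?_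
  change LinearMap.toMatrix (Algebra.TensorProduct.basis (ResidueField A) (ofMatBasis r hr))
      (Algebra.TensorProduct.basis (ResidueField A) (ofMatBasis r hr))
      (((ofMat r hr).ρ σ).baseChange (ResidueField A)) =
    LinearMap.toMatrix (Algebra.TensorProduct.basis (ResidueField A) bbar)
      (Algebra.TensorProduct.basis (ResidueField A) bbar) ((ρbar.ρ σ).baseChange (ResidueField A))
  rw [LinearMap.toMatrix_baseChange, LinearMap.toMatrix_baseChange, toMatrix_ofMat]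
  ext i j
  exact h σ i j

/-- an adic representation with residual representation `ρbar` has a basis in which it
reduces to the matrix form of `ρbar`. -/
lemma exists_basis_of_residual_isEquiv (ρ : GaloisRepAdic A) (κ : k →+* ResidueField A)
    (h : ρ.residual.IsEquiv (ρbar.baseChangeAlong κ)) :
    ∃ b : Basis (Fin 2) A ρ.V,
      ∀ σ i j, IsLocalRing.residue A (matOfBasis ρ b σ i j) = κ (resMat ρbar bbar σ i j) := by
  obtain ⟨e⟩ := h
  letI : Algebra k (ResidueField A) := κ.toAlgebra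
  let b₂ : Basis (Fin 2) (ResidueField A) (ρbar.baseChangeAlong κ).V :=
    Algebra.TensorProduct.basis (ResidueField A) bbar
  let w : Basis (Fin 2) (ResidueField A) (ResidueField A ⊗[A] ρ.V) :=
    b₂.map e.toLinearEquiv.symm
  obtain ⟨v, hv⟩ := (TensorProduct.mk_surjective A ρ.V (ResidueField A)
    Ideal.Quotient.mk_surjective).comp_left w
  replace hv : (TensorProduct.mk A (ResidueField A) ρ.V 1) ∘ v = w := hv
  let b : Basis (Fin 2) A ρ.V :=
    Basis.mk (IsLocalRing.linearIndependent_of_flat v (hv ▸ w.linearIndependent))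
      (IsLocalRing.span_eq_top_of_tmul_eq_basis v w (congr_fun hv)).ge
  have hbw : Algebra.TensorProduct.basis (ResidueField A) b = w := by
    apply Basis.eq_of_apply_eq
    intro i
    rw [Algebra.TensorProduct.basis_apply, Basis.mk_apply]
    exact congr_fun hv i
  refine ⟨b, fun σ i j => ?_⟩
  have h1 : LinearMap.toMatrix w w ((ρ.ρ σ).baseChange (ResidueField A)) =
      (LinearMap.toMatrix b b (ρ.ρ σ)).map (algebraMap A (ResidueField A)) := by
    rw [← hbw, LinearMap.toMatrix_baseChange]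
  have h2 : LinearMap.toMatrix w w ((ρ.ρ σ).baseChange (ResidueField A)) =
      LinearMap.toMatrix b₂ b₂ ((ρbar.baseChangeAlong κ).ρ σ) := by
    ext i j
    rw [LinearMap.toMatrix_apply, LinearMap.toMatrix_apply]
    have := e.map_apply σ (e.toLinearEquiv.symm (b₂ j))
    rw [LinearEquiv.apply_symm_apply] at this
    rw [← this]
    rfl
  have h3 : LinearMap.toMatrix b₂ b₂ ((ρbar.baseChangeAlong κ).ρ σ) =
      (LinearMap.toMatrix bbar bbar (ρbar.ρ σ)).map (algebraMap k (ResidueField A)) := by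
    change LinearMap.toMatrix (Algebra.TensorProduct.basis (ResidueField A) bbar)
      (Algebra.TensorProduct.basis (ResidueField A) bbar)
      ((ρbar.ρ σ).baseChange (ResidueField A)) = _
    rw [LinearMap.toMatrix_baseChange]
  have h4 := congrFun (congrFun (h1.symm.trans (h2.trans h3)) i) j
  exact h4

end residual

end Fermat.Agent.S53
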