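import Fermat.Agent.S53.RigidDef
import Fermat.Agent.S53.AbsIrr

/-!
# S53: the fields `residue` and `tangent` of the rigid functor
-/

set_option autoImplicit false
set_option linter.style.haveILetI false

namespace Fermat.Agent.S53.RigidB

open IsLocalRing GaloisRep Module Fermat.Agent.S53

section general

variable {𝒪 : Type} [CommRing 𝒪]

lemma evalGA_apply {A : Type} [CommRing A] [Algebra 𝒪 A] (r : GQ →* M2 A) (a : GQ →₀ 𝒪)
    (i j : Fin 2) : evalGA r a i j = a.sum fun g c => algebraMap 𝒪 A c * r g i j := by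
  unfold evalGA Finsupp.sum
  rw [Matrix.sum_apply]
  rfl

lemma sum_smul_apply (rt : GQ → M2 𝒪) (a : GQ →₀ 𝒪) (i j : Fin 2) :
    (a.sum fun g c => c • rt g) i j = a.sum fun g c => c * rt g i j := by
  unfold Finsupp.sum
  rw [Matrix.sum_apply]
  rfl

/-- `evalGA` of a lift is congruent to the image of the evaluation of `rt`. -/
lemma evalGA_sub_mem {A : Type} [CommRing A] [IsLocalRing A] [Algebra 𝒪 A] {rt : GQ → M2 𝒪}
    {r : GQ →* M2 A} (hl : IsLift rt r) (a : GQ →₀ 𝒪) (i j : Fin 2) :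
    evalGA r a i j - algebraMap 𝒪 A ((a.sum fun g c => c • rt g) i j) ∈ maximalIdeal A := by
  rw [evalGA_apply, sum_smul_apply]
  unfold Finsupp.sum
  rw [map_sum, ← Finset.sum_sub_distrib]
  refine Ideal.sum_mem _ fun g _ => ?_
  rw [map_mul, ← mul_sub]
  exact Ideal.mul_mem_left _ _ (hl g i j)

end general

section

variable {𝒪 : Type} [CommRing 𝒪] [IsLocalRing 𝒪]

lemma isArtinianTestAlgebra_residueField : IsArtinianTestAlgebra 𝒪 (ResidueField 𝒪) where
  isLocalHom := by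
    change IsLocalHom (IsLocalRing.residue 𝒪)
    infer_instance
  residue_surjective :=
    (IsLocalRing.residue_surjective (R := ResidueField 𝒪)).comp
      (IsLocalRing.residue_surjective (R := 𝒪))
  isArtinian := inferInstance

variable (ρbar : ResidualGaloisRep (ResidueField 𝒪))
  (bbar : Basis (Fin 2) (ResidueField 𝒪) ρbar.V)

lemma matCont_resMat : MatCont (resMat ρbar bbar) := by
  intro n
  obtain ⟨L, hL, h⟩ := ρbar.factorsThroughFiniteLevel
  refine ⟨L, hL, fun σ hσ i j => ?_⟩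
  have : resMat ρbar bbar σ = 1 := by
    rw [resMat_apply, h σ hσ]
    exact LinearMap.toMatrix_one bbar
  rw [this, sub_self]
  exact Ideal.zero_mem _

variable {𝒟 : ∀ ⦃A : Type⦄ [CommRing A] [IsLocalRing A] [Algebra 𝒪 A], GaloisRepAdic A → Prop}
  {rt : GQ → M2 𝒪} {a b : GQ →₀ 𝒪}

lemma isGood_resMat (h𝒟 : IsDeformationCondition 𝒪 𝒟)
    (hbar : 𝒟 (GaloisRepAdic.ofResidualGaloisRep ρbar))
    (hrt : ∀ σ i j, IsLocalRing.residue 𝒪 (rt σ i j) = resMat ρbar bbar σ i j)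
    (hf : IsFrame rt a b) : IsGood 𝒟 rt a b (resMat ρbar bbar) := by
  have hl : IsLift rt (resMat ρbar bbar) := fun σ i j => by
    have : algebraMap 𝒪 (ResidueField 𝒪) (rt σ i j) = resMat ρbar bbar σ i j := hrt σ i j
    rw [this, sub_self]
    exact Ideal.zero_mem _
  have hmax : ∀ x : ResidueField 𝒪, x ∈ maximalIdeal (ResidueField 𝒪) → x = 0 := fun x hx => by
    by_contra h0
    exact (IsLocalRing.mem_maximalIdeal x).mp hx (isUnit_iff_ne_zero.mpr h0)
  have hev : ∀ (c : GQ →₀ 𝒪) (E : M2 𝒪),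
      (∀ i j, (c.sum fun g c => c • rt g) i j - E i j ∈ maximalIdeal 𝒪) →
      ∀ i j, evalGA (resMat ρbar bbar) c i j = algebraMap 𝒪 (ResidueField 𝒪) (E i j) := by
    intro c E hE i j
    have h1 := hmax _ (evalGA_sub_mem hl c i j)
    have h2 : algebraMap 𝒪 (ResidueField 𝒪) ((c.sum fun g c => c • rt g) i j - E i j) = 0 :=
      (IsLocalRing.residue_eq_zero_iff _).mpr (hE i j)
    rw [map_sub, sub_eq_zero] at h2
    rw [sub_eq_zero.mp h1, h2]
  refine ⟨matCont_resMat ρbar bbar, hl, ⟨?_, ?_, ?_⟩, ?_⟩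
  · rw [hev a _ hf.ha]; simp
  · rw [hev b _ hf.hb]; simp
  · rw [hev b _ hf.hb]; simp
  · exact h𝒟.of_isEquiv isArtinianTestAlgebra_residueField
      (isEquiv_ofMat_matOfBasis (GaloisRepAdic.ofResidualGaloisRep ρbar) bbar) hbar

lemma pts_residue (h𝒟 : IsDeformationCondition 𝒪 𝒟)
    (hbar : 𝒟 (GaloisRepAdic.ofResidualGaloisRep ρbar))
    (hrt : ∀ σ i j, IsLocalRing.residue 𝒪 (rt σ i j) = resMat ρbar bbar σ i j)
    (hf : IsFrame rt a b) :
    Pts 𝒟 rt a b (fun i => IsLocalRing.residue 𝒪 (x0 rt i)) :=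
  ⟨resMat ρbar bbar, fun σ i j => (hrt σ i j).symm, isGood_resMat ρbar bbar h𝒟 hbar hrt hf⟩

/-- uniqueness of normalised lifts inside an equivalence class -/
lemma eq_of_isGood_of_isEquiv {A : Type} [CommRing A] [IsLocalRing A] [Algebra 𝒪 A]
    [IsLocalHom (algebraMap 𝒪 A)] (hf : IsFrame rt a b) {r r' : GQ →* M2 A}
    (hl : IsLift rt r) (hl' : IsLift rt r') (hn : IsNF a b r) (hn' : IsNF a b r')
    (hc : MatCont r) (hc' : MatCont r')
    (h : (ofMat r hc).IsEquiv (ofMat r' hc')) : r = r' := by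
  obtain ⟨u, hu, hconj⟩ := exists_conj_of_isEquiv h
  exact eq_of_isNF hf hl hl' hn hn' u hu hconj

lemma residual_isEquiv_of_isLift {A : Type} [CommRing A] [IsLocalRing A] [Algebra 𝒪 A]
    (hrt : ∀ σ i j, IsLocalRing.residue 𝒪 (rt σ i j) = resMat ρbar bbar σ i j)
    {r : GQ →* M2 A} (hl : IsLift rt r) (hc : MatCont r) (κ : ResidueField 𝒪 →+* ResidueField A)
    (hκ : ∀ c : 𝒪, κ (IsLocalRing.residue 𝒪 c) = IsLocalRing.residue A (algebraMap 𝒪 A c)) :
    (ofMat r hc).residual.IsEquiv (ρbar.baseChangeAlong κ) := by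
  refine residual_ofMat_isEquiv ρbar bbar r hc κ fun σ i j => ?_
  rw [← hrt, hκ, ← sub_eq_zero, ← map_sub]
  exact (IsLocalRing.residue_eq_zero_iff _).mpr (hl σ i j)

lemma isLocalHom_dualAlg :
    letI := dualAlg 𝒪
    IsLocalHom (algebraMap 𝒪 (DualNumber (ResidueField 𝒪))) := by
  letI := dualAlg 𝒪
  refine ⟨fun c hc => ?_⟩
  have h1 : IsUnit (TrivSqZeroExt.fst (algebraMap 𝒪 (DualNumber (ResidueField 𝒪)) c)) :=
    hc.map (TrivSqZeroExt.fstHom (ResidueField 𝒪) (ResidueField 𝒪) (ResidueField 𝒪))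
  have h2 : TrivSqZeroExt.fst (algebraMap 𝒪 (DualNumber (ResidueField 𝒪)) c) =
      IsLocalRing.residue 𝒪 c := rfl
  rw [h2] at h1
  exact (isUnit_map_iff (IsLocalRing.residue 𝒪) c).mp h1

lemma pts_tangent (hfin : TangentFinite 𝒪 ρbar 𝒟)
    (hrt : ∀ σ i j, IsLocalRing.residue 𝒪 (rt σ i j) = resMat ρbar bbar σ i j)
    (hf : IsFrame rt a b) :
    letI := dualAlg 𝒪
    Set.Finite {x : XG → DualNumber (ResidueField 𝒪) | Pts 𝒟 rt a b x} := by
  letI := dualAlg 𝒪
  haveI := isLocalHom_dualAlg (𝒪 := 𝒪)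
  unfold TangentFinite at hfin
  rw [← Set.finite_coe_iff]
  let κ : ResidueField 𝒪 →+* ResidueField (DualNumber (ResidueField 𝒪)) :=
    (IsLocalRing.residue (DualNumber (ResidueField 𝒪))).comp
      (algebraMap (ResidueField 𝒪) (DualNumber (ResidueField 𝒪)))
  refine @Finite.of_injective _ _ hfin (fun x => Quotient.mk _
    ⟨ofMat x.2.choose x.2.choose_spec.2.cont, x.2.choose_spec.2.type,
      residual_isEquiv_of_isLift ρbar bbar hrt x.2.choose_spec.2.lift x.2.choose_spec.2.cont κ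
        (fun c => rfl)⟩) ?_
  intro x y hxy
  have h1 := Quotient.exact hxy
  have h2 : x.2.choose = y.2.choose :=
    eq_of_isGood_of_isEquiv hf x.2.choose_spec.2.lift y.2.choose_spec.2.lift
      x.2.choose_spec.2.nf y.2.choose_spec.2.nf x.2.choose_spec.2.cont y.2.choose_spec.2.cont h1
  apply Subtype.ext
  funext ⟨σ, i, j⟩
  rw [← x.2.choose_spec.1 σ i j, ← y.2.choose_spec.1 σ i j, h2]

end

end Fermat.Agent.S53.RigidB
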