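import Fermat.Agent.S53.MatRep

/-!
# S53: the rigid functor of normalised lifts of type `𝒟`
-/

set_option autoImplicit false

namespace Fermat.Agent.S53

open IsLocalRing GaloisRep

/-- the index set of the coordinates of a matrix representation -/
abbrev XG : Type := GQ × Fin 2 × Fin 2

/-- Points of the rigid functor: `x : XG → A` is the family of matrix entries of a normalised
lift of type `𝒟`. -/
def Pts {𝒪 : Type} [CommRing 𝒪] [IsLocalRing 𝒪]
    (𝒟 : ∀ ⦃A : Type⦄ [CommRing A] [IsLocalRing A] [Algebra 𝒪 A], GaloisRepAdic A → Prop)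
    (rt : GQ → M2 𝒪) (a b : GQ →₀ 𝒪) :
    ∀ ⦃A : Type⦄ [CommRing A] [IsLocalRing A] [Algebra 𝒪 A], (XG → A) → Prop :=
  fun A _ _ _ x => ∃ r : GQ →* M2 A, (∀ σ i j, r σ i j = x (σ, i, j)) ∧ IsGood 𝒟 rt a b r

/-- the base point -/
def x0 {𝒪 : Type} (rt : GQ → M2 𝒪) : XG → 𝒪 := fun p => rt p.1 p.2.1 p.2.2

end Fermat.Agent.S53
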